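import Fermat.Agent.Root.GenusBrandt
import Fermat.Prelude.Def_GaloisRep_LocalConditions
import Fermat.Agent.AttachedLocal.Local
import Fermat.Agent.Reduction.Specialisation

/-!
# Attached representations with the semistable local condition

An eigenform of level `M` and a point of its coefficient ring in a complete discrete valuation
ring have an attached representation, over a finite extension of that ring, with the local
condition at the semistable primes (`exists_attached`).
-/

set_option autoImplicit false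

noncomputable section

open Polynomial IsLocalRing

namespace Fermat.Agent.Root

local notation "ℚbar" => AlgebraicClosure ℚ
local notation "Γ" => AlgebraicClosure ℚ ≃ₐ[ℚ] AlgebraicClosure ℚ

/-- For an eigenform of level `M` and a point of its coefficient ring in a complete discrete
valuation ring there is an attached representation over a finite extension, with the local
condition `(ρ g - ε s g) (ρ h - s h) = 0` at every `q ∥ M` with `a_q² = 1` (`q = p` allowed). -/
theorem exists_attached (M : ℕ) [NeZero M] (f : CuspForm (CongruenceSubgroup.Gamma0 M) 2)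
    (hf : f.IsNormalizedEigenform) (a : ℕ → integralClosure ℤ ℂ)
    (ha : ∀ n, (a n : ℂ) = ModularFormClass.qCoeff f n) (p : ℕ) [Fact p.Prime]
    (O₀ : Type) [CommRing O₀] [IsDomain O₀] [IsDiscreteValuationRing O₀]
    [IsAdicComplete (maximalIdeal O₀) O₀] [Finite (ResidueField O₀)] [CharZero O₀]
    (hp : (p : O₀) ∈ maximalIdeal O₀) (φ : Subring.closure (Set.range a) →+* O₀) :
    ∃ (O : Type) (_ : CommRing O) (_ : IsDomain O) (_ : IsDiscreteValuationRing O)
      (_ : IsAdicComplete (maximalIdeal O) O) (_ : Finite (ResidueField O)) (_ : CharZero O)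
      (j : O₀ →+* O), Function.Injective j ∧ IsLocalHom j ∧
        ∃ ρ : GaloisRepAdic O, ρ.DetIsCyclotomic p ∧
          (∀ ℓ : ℕ, ℓ.Prime → ¬ ℓ ∣ M * p → ∀ A : ValuationSubring ℚbar, A.LiesOverPrime ℓ →
            (∀ σ ∈ A.inertiaSubgroupIn ℚ, ρ.ρ σ = 1) ∧
            ∀ σ : Γ, A.IsFrobeniusAt σ ℓ → LinearMap.charpoly (ρ.ρ σ) =
              X ^ 2 - C (j (φ ⟨a ℓ, Subring.subset_closure ⟨ℓ, rfl⟩⟩)) * X + C (ℓ : O)) ∧
          ∀ q : ℕ, q.Prime → q ∣ M → ¬ q ^ 2 ∣ M → a q ^ 2 = 1 →
            ∀ A : ValuationSubring ℚbar, A.LiesOverPrime q →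
              ∃ s : A.decompositionSubgroup ℚ →* O,
                (∀ g, s g * s g = 1) ∧
                (∀ g : A.decompositionSubgroup ℚ, (g : Γ) ∈ A.inertiaSubgroupIn ℚ → s g = 1) ∧
                (∀ g : A.decompositionSubgroup ℚ, A.IsFrobeniusAt (g : Γ) q →
                  s g = j (φ ⟨a q, Subring.subset_closure ⟨q, rfl⟩⟩)) ∧
                ∀ g h : A.decompositionSubgroup ℚ,
                  (ρ.ρ g - (LinearMap.det (ρ.ρ g) * s g) • (1 : Module.End O ρ.V)) *
                    (ρ.ρ h - s h • (1 : Module.End O ρ.V)) = 0 := by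
  have := Hecke.moduleFinite_of_hasIntegralStructure (S := (∅ : Set ℕ)) (by norm_num)
    (MFCore.hasIntegralStructure M 2)
  set χ := GalRep.eigenCharacterInt hf
  have hop : ∀ q : Nat.Primes, χ (GalRep.heckeOp M q) = a q := fun q =>
    Subtype.ext ((GalRep.eigenCharacterInt_heckeOp hf q).trans (ha q).symm)
  have hle : χ.range ≤ Subring.closure (Set.range a) := by
    rintro _ ⟨τ, rfl⟩
    induction τ using GalRep.heckeAlgebra_induction with
    | op q => rw [hop]; exact Subring.subset_closure ⟨q, rfl⟩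
    | int r => rw [map_intCast]; exact intCast_mem _ r
    | add x y hx hy => rw [map_add]; exact add_mem hx hy
    | mul x y hx hy => rw [map_mul]; exact mul_mem hx hy
  set κ₀ : χ.range →+* O₀ := φ.comp (Subring.inclusion hle) with hκ₀def
  have hκ₀ : ∀ q : Nat.Primes, κ₀ (χ.rangeRestrict (GalRep.heckeOp M q)) =
      φ ⟨a q, Subring.subset_closure ⟨q, rfl⟩⟩ := fun q =>
    congrArg φ (Subtype.ext (hop q))
  obtain ⟨e⟩ := OrdinaryP.exists_eigenRep M p (Reduction.torsionReduction M p) hp
    (κ₀.comp χ.rangeRestrict)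
  refine ⟨O₀, inferInstance, inferInstance, inferInstance, inferInstance, inferInstance,
    inferInstance, RingHom.id O₀, Function.injective_id, inferInstance,
    GalRep.repOfMatrix e.R e.continuous, ?_, fun ℓ hℓ hℓM A hA => ⟨fun σ hσ => ?_, fun σ hσ => ?_⟩,
    fun q hq hqM hq2 haq A hA => ?_⟩
  · refine ⟨hp, fun n σ c hc => ?_⟩
    show LinearMap.det (Matrix.toLinAlgEquiv' (e.R σ)) - (c : O₀) ∈ _
    rw [show LinearMap.det (Matrix.toLinAlgEquiv' (e.R σ)) = (e.R σ).det from
      LinearMap.det_toLin' (e.R σ), e.det_eq]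
    obtain ⟨u, hu⟩ := Ideal.mem_span_singleton'.mp
      (show GalRep.cycl p σ - (c : ℤ_[p]) ∈ Ideal.span {(p : ℤ_[p]) ^ n} by
        rw [← PadicInt.ker_toZModPow, RingHom.mem_ker, map_sub,
          GalRep.toZModPow_cycl p σ n c hc, map_natCast, sub_self])
    rw [← map_natCast (GalRep.padicHom p O₀ hp) c, ← map_sub, ← hu, map_mul, map_pow, map_natCast,
      Nat.cast_pow]
    exact Ideal.mul_mem_left _ _ (Ideal.mem_span_singleton_self _)
  · refine GalRep.repOfMatrix_apply_eq_one e.R e.continuous ?_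
    have hRp : e.Rp σ = 1 := Matrix.ext fun i j => PadicInt.ext_of_toZModPow.mp fun n => by
      have h := GalRep.torsRho_eq_one M (p ^ n) σ fun x hx =>
        (Reduction.torsionReduction M p ℓ hℓ hℓM A hA).1 σ hσ x ⟨n, hx⟩
      rw [← e.toZModPow_Rp] at h
      have := congrFun (congrFun h i) j
      rw [RingHom.mapMatrix_apply, Matrix.map_apply] at this
      rw [this]
      by_cases hij : i = j
      · subst hij; simp
      · simp [hij]
    have h := congrArg (e.Q * ·) (e.intertwine σ)
    simp only [hRp, map_one, Matrix.one_mul, ← Matrix.mul_assoc, e.Q_mul_P] at h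
    exact h.symm
  · rw [GalRep.repOfMatrix_charpoly, Matrix.charpoly_fin_two, e.trace_frobenius ℓ hℓ hℓM A hA σ hσ,
      e.det_eq, GalRep.cycl_frobenius p hℓ (fun h => hℓM (h ▸ dvd_mul_left p M)) hA hσ,
      map_natCast (GalRep.padicHom p O₀ hp), RingHom.comp_apply, hκ₀ ⟨ℓ, hℓ⟩]
    rfl
  · refine (exists_eq_mul_left_of_dvd hqM).elim fun M' hM => ?_
    subst hM
    have : Fact q.Prime := ⟨hq⟩
    have : NeZero q := ⟨hq.ne_zero⟩
    have : NeZero M' := ⟨fun h => NeZero.ne (M' * q) (by rw [h, Nat.zero_mul])⟩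
    have hqM' : ¬ q ∣ M' := fun h => hq2 (by rw [sq]; exact mul_dvd_mul_right h q)
    have hex : ∃ ε : ℤ, (ε = 1 ∨ ε = -1) ∧ a q = ε := by
      rcases sq_eq_one_iff.mp haq with h | h
      · exact ⟨1, Or.inl rfl, by rw [h, Int.cast_one]⟩
      · exact ⟨-1, Or.inr rfl, by rw [h, Int.cast_neg, Int.cast_one]⟩
    refine hex.elim fun ε hεε => ?_
    have hε := hεε.1
    have hεa := hεε.2
    have hεq : χ (GalRep.heckeOp (M' * q) (Ihara.qPrime q)) = ε :=
      (hop (Ihara.qPrime q)).trans hεa
    have hloc := @AttachedLocal.exists_local_condition M' q _ _ _ p _ O₀ _ _ _ _ _ _ hp f hf ε hε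
    have hs := hloc hεq hqM' κ₀ e A hA
    refine hs.elim fun s hs' => ?_
    have h1 := hs'.1
    have h2 := hs'.2.1
    have h3 := hs'.2.2.1
    have h4 := hs'.2.2.2
    refine ⟨s, h1, h2, fun g hg => ?_, fun g h => ?_⟩
    · rw [h3 g hg, RingHom.id_apply,
        show (⟨a q, Subring.subset_closure ⟨q, rfl⟩⟩ : Subring.closure (Set.range a)) = (ε : ℤ) from
          Subtype.ext (by rw [SubringClass.coe_intCast]; exact hεa), map_intCast]
    · show (Matrix.toLinAlgEquiv' (e.R g) - (LinearMap.det (Matrix.toLinAlgEquiv' (e.R g)) * s g) •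
          (1 : Module.End O₀ (Fin 2 → O₀))) *
        (Matrix.toLinAlgEquiv' (e.R h) - s h • (1 : Module.End O₀ (Fin 2 → O₀))) = 0
      rw [show LinearMap.det (Matrix.toLinAlgEquiv' (e.R g)) = (e.R g).det from
        LinearMap.det_toLin' (e.R g), ← map_one (Matrix.toLinAlgEquiv' (R := O₀) (n := Fin 2)),
        ← map_smul, ← map_smul, ← map_sub, ← map_sub, ← map_mul, h4 g h, map_zero]

end Fermat.Agent.Root
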