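import Fermat.Agent.Root.GenusResidual
import Fermat.Agent.Deformation.Normalise
import Fermat.Agent.GalRep.LocalDatum
import Fermat.Agent.Carayol.Descent.InertiaField

/-!
# Consequences of the residual image of a genus curve

Matrices for `E[2]`, inertia elements moving `√Δ`, and the data which rigidify deformations of
`E[2]` over `ℤ₂` (`ResidualMatrix.exists_rigidData`).
-/

set_option autoImplicit false

noncomputable section

open WeierstrassCurve WeierstrassCurve.Affine.Point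
open scoped WeierstrassCurve.Affine

namespace Fermat.Agent.Root

open Fermat.Agent.Deformation IsLocalRing

local notation "ℚbar" => AlgebraicClosure ℚ
local notation "Γ" => AlgebraicClosure ℚ ≃ₐ[ℚ] AlgebraicClosure ℚ

/-- The residual representation of a genus curve in matrices. -/
structure ResidualMatrix (W : WeierstrassCurve ℤ) where
  M : GQ →* M2 (ZMod 2)
  torsion : IsTorsionMatrix W 2 M
  disc_iff : ∀ g : Γ, g ∈ discGroup W ↔ IsRot (M g)
  det_eq : ∀ g : Γ, (M g).det = 1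
  exists_rot : ∃ γ, M γ = rotMat
  exists_upper : ∃ u, M u = !![1, 1; 0, 1]
  exists_lower : ∃ v, M v = !![1, 0; 1, 1]

variable {W : WeierstrassCurve ℤ}

theorem GenusCurve.nonempty_residualMatrix (hW : GenusCurve W) : Nonempty (ResidualMatrix W) := by
  obtain ⟨M, h1, h2, h3, h4, h5, h6⟩ := hW.exists_residualMatrix
  exact ⟨⟨M, h1, h2, h3, h4, h5, h6⟩⟩

theorem IsTorsionMatrix.finiteLevel {n : ℕ} {X : GQ →* M2 (ZMod n)}
    (hX : IsTorsionMatrix W n X) (hΔ : W.Δ ≠ 0) (hn : n ≠ 0) :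
    ∃ L : IntermediateField ℚ ℚbar, FiniteDimensional ℚ L ∧
      ∀ σ : Γ, (∀ x ∈ L, σ x = x) → X σ = 1 := by
  obtain ⟨b, hb⟩ := hX
  obtain ⟨L, hL, h⟩ := EC.Torsion.galoisFactorsThroughFiniteLevel_int W hΔ hn
  refine ⟨L, hL, fun σ hσ => ?_⟩
  rw [← hb σ]
  exact (congrArg _ (h σ hσ)).trans (LinearMap.toMatrix_one b)

theorem IsTorsionMatrix.frobenius_two {M : GQ →* M2 (ZMod 2)} (hM : IsTorsionMatrix W 2 M)
    {ℓ : ℕ} (hℓ : ℓ.Prime) (hgood : W.IsGoodPrimeFor ℓ) (hℓ2 : ℓ ≠ 2) {A : ValuationSubring ℚbar}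
    (hA : A.LiesOverPrime ℓ) :
    (∀ σ ∈ A.inertiaSubgroupIn ℚ, M σ = 1) ∧
      ∀ σ : Γ, A.IsFrobeniusAt σ ℓ → (M σ).trace = (W.apOfModel ℓ : ZMod 2) := by
  obtain ⟨h1, h2⟩ := torsionMatrix_good W 1 M hM hℓ hgood hℓ2 hA
  exact ⟨h1, fun σ hσ => (h2 σ hσ).1⟩

/-- At a prime dividing `Δ` to an odd power some inertia element moves `√Δ`. -/
theorem exists_inertia_not_mem (hW : GenusCurve W) {p : ℕ} (hp : p.Prime) (hpΔ : (p : ℤ) ∣ W.Δ)
    {A : ValuationSubring ℚbar} (hA : A.LiesOverPrime p) :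
    ∃ τ ∈ A.inertiaSubgroupIn ℚ, τ ∉ discGroup W := by
  by_contra h
  push Not at h
  have hfix : ∀ σ ∈ A.inertiaSubgroupIn ℚ, σ (sqrtDisc W) = sqrtDisc W := fun σ hσ =>
    (IntermediateField.mem_fixingSubgroup_iff _ _).mp (h σ hσ) _
      (IntermediateField.mem_adjoin_simple_self ℚ _)
  have hd0 : sqrtDisc W ≠ 0 := fun h0 => hW.neg.ne (by
    have := sqrtDisc_sq W
    rw [h0, zero_pow two_ne_zero] at this
    exact_mod_cast this.symm)
  obtain ⟨m, hm1, hm2⟩ := Carayol.InertiaField.exists_zpow_mul_unit hp hA hfix hd0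
  have : Fact p.Prime := ⟨hp⟩
  obtain ⟨w, hw⟩ : (p : ℤ) ^ padicValInt p W.Δ ∣ W.Δ := padicValInt_dvd _
  have hwp : ¬ (p : ℤ) ∣ w := fun ⟨c, hc⟩ => by
    have h' : (p : ℤ) ^ (padicValInt p W.Δ + 1) ∣ W.Δ := ⟨c, by
      conv_lhs => rw [hw, hc]
      ring⟩
    rcases (padicValInt_dvd_iff _ _).mp h' with h0 | h0
    · exact hW.neg.ne h0
    · omega
  set v := padicValInt p W.Δ
  have hwA : (w : ℚbar) ∈ A := intCast_mem A w
  have hwu : (w : ℚbar) ∉ A.nonunits := fun h' =>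
    hwp ((Gal.intCast_mem_nonunits_iff A hp hA w).mp h')
  have hwinv := Carayol.InertiaField.inv_mem_of_notMem_nonunits hwu
  have hw0 : (w : ℚbar) ≠ 0 := fun h0 => hwp (by
    have : w = 0 := by exact_mod_cast h0
    exact this ▸ dvd_zero _)
  have hp0 : (p : ℚbar) ≠ 0 := by exact_mod_cast hp.ne_zero
  have hΔ : (W.Δ : ℚbar) = (p : ℚbar) ^ (v : ℤ) * w := by
    rw [zpow_natCast, hw]; push_cast; rfl
  have hne : (v : ℤ) ≠ 2 * m := by
    obtain ⟨j, hj⟩ := hW.odd_val p hp hpΔ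
    omega
  have key : ∀ k : ℤ, (p : ℚbar) ^ k ∈ A → 0 ≤ k := by
    intro k hk
    by_contra hlt
    push Not at hlt
    obtain ⟨j, hj⟩ : ∃ j : ℕ, k = -(j + 1 : ℕ) := ⟨(-k - 1).toNat, by omega⟩
    rw [hj, zpow_neg, zpow_natCast] at hk
    have h1 : ((p : ℚbar)) ^ j ∈ A := pow_mem (natCast_mem A p) j
    have h2 : (p : ℚbar)⁻¹ ∈ A := by
      have := mul_mem hk h1
      rwa [pow_succ', mul_inv_rev, mul_comm, ← mul_assoc, mul_inv_cancel₀ (pow_ne_zero j hp0),
        one_mul] at this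
    have hA' : (p : ℚbar) ∈ A.nonunits := hA
    rcases A.mem_nonunits_iff_or.mp hA' with h3 | h3
    · exact hp0 h3
    · exact h3 h2
  have hsq1 : (W.Δ : ℚbar) / (p : ℚbar) ^ (2 * m) ∈ A := by
    have := mul_mem hm1 hm1
    rwa [div_mul_div_comm, ← sq, sqrtDisc_sq, ← zpow_add₀ hp0, ← two_mul] at this
  have hsq2 : (p : ℚbar) ^ (2 * m) / (W.Δ : ℚbar) ∈ A := by
    have := mul_mem hm2 hm2
    rwa [div_mul_div_comm, ← sq (sqrtDisc W), sqrtDisc_sq, ← zpow_add₀ hp0, ← two_mul] at this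
  have e1 := key ((v : ℤ) - 2 * m) (by
    have := mul_mem hsq1 hwinv
    rwa [hΔ, div_eq_mul_inv, mul_right_comm, mul_assoc ((p : ℚbar) ^ (v : ℤ)),
      mul_inv_cancel₀ hw0, mul_one, ← zpow_neg, ← zpow_add₀ hp0] at this)
  have e2 := key (2 * m - (v : ℤ)) (by
    have := mul_mem hsq2 hwA
    rwa [hΔ, div_eq_mul_inv, mul_inv_rev, mul_assoc, mul_comm (w : ℚbar)⁻¹, mul_assoc,
      inv_mul_cancel₀ hw0, mul_one, ← zpow_neg, ← zpow_add₀ hp0, ← sub_eq_add_neg] at this)
  omega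

theorem ResidualMatrix.exists_inertia (D : ResidualMatrix W) (hW : GenusCurve W) {p : ℕ}
    (hp : p.Prime) (hpΔ : (p : ℤ) ∣ W.Δ) {A : ValuationSubring ℚbar} (hA : A.LiesOverPrime p) :
    ∃ τ ∈ A.inertiaSubgroupIn ℚ, D.M τ ≠ 1 := by
  obtain ⟨τ, hτ, hτH⟩ := exists_inertia_not_mem hW hp hpΔ hA
  exact ⟨τ, hτ, fun h => hτH ((D.disc_iff τ).mpr (h ▸ Or.inl rfl))⟩

/-- The embedding of `𝔽₂` in the residue field of `ℤ₂`. -/
def residueTwo : ZMod 2 →+* ResidueField ℤ_[2] := (PadicInt.residueField (p := 2)).symm.toRingHom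

/-- Rigidification data for the residual representation. -/
theorem ResidualMatrix.exists_rigidData (D : ResidualMatrix W) :
    ∃ (R : RigidData ℤ_[2]) (c : GQ →₀ ℤ_[2]), R.M0 = mapRep residueTwo D.M ∧
      evalComb (R.M0 : GQ → M2 (ResidueField ℤ_[2])) c = !![0, 0; 1, 0] ∧
        Submodule.span (ResidueField ℤ_[2]) (Set.range R.M0) = ⊤ := by
  obtain ⟨u, hu⟩ := D.exists_upper
  obtain ⟨v, hv⟩ := D.exists_lower
  set M0 := mapRep residueTwo D.M
  have hval : ∀ s : List Γ, evalComb (M0 : GQ → M2 (ResidueField ℤ_[2]))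
      ((s.map fun g => Finsupp.single g (1 : ℤ_[2])).sum) =
      (s.map fun g => D.M g).sum.map residueTwo := by
    intro s
    induction s with
    | nil => simp [evalComb]
    | cons g s ih =>
      simp only [List.map_cons, List.sum_cons]
      rw [evalComb, Finsupp.sum_add_index' (h := fun g c => c • M0 g)
        (fun a => zero_smul ℤ_[2] (M0 a)) (fun _ _ _ => add_smul _ _ _),
        Finsupp.sum_single_index (h := fun g c => c • M0 g) (zero_smul ℤ_[2] (M0 g)), one_smul,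
        Matrix.map_add _ (map_add _)]
      exact congrArg (M0 g + ·) ih
  have h11 : ([1, u, v, u * v].map fun g => D.M g).sum = !![1, 0; 0, 0] := by
    simp only [List.map_cons, List.map_nil, List.sum_cons, List.sum_nil, map_one, map_mul, hu, hv]
    decide
  have h12 : ([1, u].map fun g => D.M g).sum = !![0, 1; 0, 0] := by
    simp only [List.map_cons, List.map_nil, List.sum_cons, List.sum_nil, map_one, hu]
    decide
  have h21 : ([1, v].map fun g => D.M g).sum = !![0, 0; 1, 0] := by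
    simp only [List.map_cons, List.map_nil, List.sum_cons, List.sum_nil, map_one, hv]
    decide
  have hmk : ∀ a b c d : ZMod 2, (!![a, b; c, d] : M2 (ZMod 2)).map residueTwo =
      !![residueTwo a, residueTwo b; residueTwo c, residueTwo d] := fun a b c d => by
    ext i j; fin_cases i <;> fin_cases j <;> rfl
  refine ⟨⟨M0, (([1, u, v, u * v] : List Γ).map fun g => Finsupp.single g (1 : ℤ_[2])).sum,
    (([1, u] : List Γ).map fun g => Finsupp.single g (1 : ℤ_[2])).sum, ?_, ?_⟩,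
    (([1, v] : List Γ).map fun g => Finsupp.single g (1 : ℤ_[2])).sum, rfl, ?_, ?_⟩
  · rw [hval, h11, hmk, map_one, _root_.map_zero]
  · rw [hval, h12, hmk, map_one, _root_.map_zero]
  · rw [hval, h21, hmk, map_one, _root_.map_zero]
  refine eq_top_iff.mpr fun Y _ => ?_
  have hmem : ∀ s : List Γ, ((s.map fun g => D.M g).sum).map residueTwo ∈
      Submodule.span (ResidueField ℤ_[2]) (Set.range M0) := by
    intro s
    induction s with
    | nil => simp
    | cons g s ih =>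
      rw [List.map_cons, List.sum_cons, Matrix.map_add _ (map_add _)]
      exact add_mem (Submodule.subset_span ⟨g, rfl⟩) ih
  have m11 := hmem [1, u, v, u * v]
  have m12 := hmem [1, u]
  have m21 := hmem [1, v]
  have m1 := hmem [1]
  rw [h11, hmk, map_one, _root_.map_zero] at m11
  rw [h12, hmk, map_one, _root_.map_zero] at m12
  rw [h21, hmk, map_one, _root_.map_zero] at m21
  simp only [List.map_cons, List.map_nil, List.sum_cons, List.sum_nil, map_one, add_zero,
    Matrix.map_one residueTwo (_root_.map_zero _) (map_one _)] at m1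
  have hY : Y = Y 0 0 • !![1, 0; 0, 0] + Y 0 1 • !![0, 1; 0, 0] + Y 1 0 • !![0, 0; 1, 0] +
      Y 1 1 • (1 - !![1, 0; 0, 0]) := by
    ext i j; fin_cases i <;> fin_cases j <;> simp
  rw [hY]
  exact add_mem (add_mem (add_mem (Submodule.smul_mem _ _ m11) (Submodule.smul_mem _ _ m12))
    (Submodule.smul_mem _ _ m21)) (Submodule.smul_mem _ _ (sub_mem m1 m11))

end Fermat.Agent.Root
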