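import Fermat.Agent.Root.GenusTraceRing

/-!
# `A = T/2ⁿ`

`E[2ⁿ]` is carried by the Hecke ring of boundedly many eigenforms of level `N · ∏ Q`
(`exists_genus_hom`).
-/

set_option autoImplicit false

noncomputable section

namespace Fermat.Agent.Root

/-- With trivial Selmer group at the auxiliary primes, `E[2ⁿ]` is carried by the Hecke ring of a
family of at most `h₂ 2^|Q|` eigenforms of level `N · ∏ Q` with `U_q² = 1` on `Q`. -/
theorem exists_genus_hom (W : WeierstrassCurve ℤ) (hW : GenusCurve W) :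
    ∃ r B : ℕ, ∀ n : ℕ, 3 ≤ n → ∃ Q : Finset ℕ, Q.card = r ∧ (∀ q ∈ Q, AuxPrime W n q) ∧
      ∃ (ι : Type) (_ : Fintype ι) (F : EigenFamily (W.conductorLevel * ∏ q ∈ Q, q) ι),
        Fintype.card ι ≤ B ∧ (∃ 𝔪, F.IsClass W Q 𝔪) ∧
        (∀ i, ∀ q : ℕ, q.Prime → (q ∈ Q ∨ (q : ℤ) ∣ W.Δ) →
          ModularFormClass.qCoeff (F.g i) q ^ 2 = 1) ∧
        ∃ θ : F.ring →+* ZMod (2 ^ n), ∀ (ℓ : ℕ) (hℓ : ℓ.Prime), W.IsGoodPrimeFor ℓ → ℓ ∉ Q →
          ℓ ≠ 2 → θ (F.coeff ℓ hℓ) = (W.apOfModel ℓ : ZMod (2 ^ n)) := by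
  classical
  obtain ⟨D⟩ := hW.nonempty_residualMatrix
  obtain ⟨r, hr⟩ := exists_selmer_primes W hW D.discChar
  refine ⟨r, classTwoPart W * 2 ^ r, fun n hn => ?_⟩
  obtain ⟨Q, hcard, hQn, hsel⟩ := hr n hn
  have hQ : ∀ q ∈ Q, AuxPrime W 3 q := fun q hq => (hQn q hq).mono hn
  have : NeZero (classLevel W Q) := ⟨hW.classLevel_ne_zero hQ⟩
  obtain ⟨p₀, hp₀, hp₀2, hp₀Δ, hle, θ, hθ⟩ := hW.exists_trace_hom D hn hQn hsel
  refine ⟨Q, hcard, hQn, ↥(memberSet W Q p₀), inferInstance, memberFamily W Q p₀, ?_,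
    ⟨placeIdeal, memberFamily_isClass hW D hQ p₀⟩, fun i q hq hcase => ?_, θ, hθ⟩
  · rw [Fintype.card_coe, ← hcard]
    exact hle
  · have hi : IsMember W Q p₀ i.1 := mem_memberSet.mp i.2
    by_cases h0 : q = p₀
    · subst h0
      exact hi.sq_exceptional hW D hQ hp₀ hp₀2 hp₀Δ
    · exact hi.sq q hq (hcase.imp_right fun h => ⟨h, h0⟩)

end Fermat.Agent.Root
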