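import Mathlib
import Fermat.Prelude.Def_FLTPrelim_ModularRep
import Fermat.Prelude.Def_FLTPrelim_Ramification
import Fermat.Prelude.Def_EllipticCurve_FrobeniusTrace
import Fermat.Prelude.Def_CuspForm_Newforms
import Fermat.Prelude.Def_WeierstrassCurve_ConductorLevel

/-!
# Definitions for the route from the Frey curve to Fermat's Last Theorem

Semistability, congruence of traces, residual newforms, the properties of residual representations
used by lifting and lowering, and the field `ℚ(√Δ)` with the curves handled by genus theory.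
-/

set_option autoImplicit false

noncomputable section

open WeierstrassCurve WeierstrassCurve.Affine.Point
open scoped WeierstrassCurve.Affine NumberField

namespace Fermat.Agent.Root

local notation "ℚbar" => AlgebraicClosure ℚ
local notation "Γ" => AlgebraicClosure ℚ ≃ₐ[ℚ] AlgebraicClosure ℚ

/-- Semistable integral model with nonzero discriminant. -/
structure Semistable (W : WeierstrassCurve ℤ) : Prop where
  ne : W.Δ ≠ 0
  ss : W.IsSemistableModel

/-- The two curves have congruent Hecke traces modulo `p` at common good primes. -/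
def CongrMod (p : ℕ) (W W' : WeierstrassCurve ℤ) : Prop :=
  ∀ ℓ : ℕ, ℓ.Prime → W.IsGoodPrimeFor ℓ → W'.IsGoodPrimeFor ℓ → ℓ ≠ p →
    (p : ℤ) ∣ W'.apOfModel ℓ - W.apOfModel ℓ

/-- The mod `p` representation of `W` is unramified at `q`. -/
def UnramifiedMod (p : ℕ) (W : WeierstrassCurve ℤ) (q : ℕ) : Prop :=
  GaloisRepUnramifiedAt (K := ℚbar) ℚ (W.map (Int.castRingHom ℚ)).toAffine p q

/-- The residual eigensystem of `W` mod `p` occurs in a newform of level `M`.  When `W` is bad at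
`p` the form is ordinary at `p` with unit root `±1` modulo `𝔪`. -/
def ResNewform (p : ℕ) (W : WeierstrassCurve ℤ) (M : ℕ) : Prop :=
  ∃ (f : CuspForm (CongruenceSubgroup.Gamma0 M) 2) (𝔪 : Ideal (integralClosure ℤ ℂ)),
    f.IsNewform ∧ 𝔪.IsMaximal ∧ (p : integralClosure ℤ ℂ) ∈ 𝔪 ∧
    (∀ ℓ : ℕ, ℓ.Prime → W.IsGoodPrimeFor ℓ → ¬ ℓ ∣ M → ℓ ≠ p →
      ∃ a : integralClosure ℤ ℂ, (a : ℂ) = ModularFormClass.qCoeff f ℓ ∧
        a - ((W.apOfModel ℓ : ℤ) : integralClosure ℤ ℂ) ∈ 𝔪) ∧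
    ((p : ℤ) ∣ W.Δ → ∃ a : integralClosure ℤ ℂ, (a : ℂ) = ModularFormClass.qCoeff f p ∧
      a ^ 2 - 1 ∈ 𝔪)

/-- Frobenius at `q` acts on `E[p]` by a scalar. -/
def FrobScalarMod (p : ℕ) (W : WeierstrassCurve ℤ) (q : ℕ) : Prop :=
  ∀ A : ValuationSubring ℚbar, A.LiesOverPrime q → ∀ σ : Γ, A.IsFrobeniusAt σ q →
    ∃ c : ZMod p, galoisRepModuleEnd (K := ℚbar) ℚ (W.map (Int.castRingHom ℚ)).toAffine p σ =
      c • (1 : Module.End (ZMod p)
        (Submodule.torsionBy ℤ ((W.map (Int.castRingHom ℚ))⁄ℚbar).Point p))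

/-- The trace zero part of `End E[p]` is irreducible under the elements fixing `μ_p`. -/
def AdjointIrreducible (p : ℕ) (W : WeierstrassCurve ℤ) : Prop :=
  ∀ U : Submodule (ZMod p) (Module.End (ZMod p)
      (Submodule.torsionBy ℤ ((W.map (Int.castRingHom ℚ))⁄ℚbar).Point p)),
    (∀ x ∈ U, LinearMap.trace (ZMod p) _ x = 0) →
    (∀ σ : Γ, (∀ ζ : ℚbar, ζ ^ p = 1 → σ ζ = ζ) → ∀ x ∈ U,
      galoisRepModuleEnd (K := ℚbar) ℚ (W.map (Int.castRingHom ℚ)).toAffine p σ * x *
        galoisRepModuleEnd (K := ℚbar) ℚ (W.map (Int.castRingHom ℚ)).toAffine p σ⁻¹ ∈ U) →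
    U = ⊥ ∨ ∀ x, LinearMap.trace (ZMod p) _ x = 0 → x ∈ U

/-- The curves to which the genus-theory `R = T` at `p = 2` applies. -/
structure GenusCurve (W : WeierstrassCurve ℤ) : Prop where
  ss : W.IsSemistableModel
  neg : W.Δ < 0
  two_dvd : (2 : ℤ) ∣ W.Δ
  odd_val : ∀ q : ℕ, q.Prime → (q : ℤ) ∣ W.Δ → Odd (padicValInt q W.Δ)
  split_bad : ∃ q r : ℕ, q.Prime ∧ r.Prime ∧ q ≠ r ∧ q % 12 = 1 ∧ r % 12 = 1 ∧
    (q : ℤ) ∣ W.Δ ∧ (r : ℤ) ∣ W.Δ
  irr : W.ModRepIsIrreducible 2

theorem GenusCurve.semistable {W : WeierstrassCurve ℤ} (h : GenusCurve W) : Semistable W :=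
  ⟨h.neg.ne, h.ss⟩

section quadratic

variable (W : WeierstrassCurve ℤ)

/-- A square root of the discriminant. -/
def sqrtDisc : ℚbar :=
  (IsAlgClosed.exists_pow_nat_eq ((W.Δ : ℚbar)) (n := 2) two_pos).choose

theorem sqrtDisc_sq : sqrtDisc W ^ 2 = (W.Δ : ℚbar) :=
  (IsAlgClosed.exists_pow_nat_eq ((W.Δ : ℚbar)) (n := 2) two_pos).choose_spec

/-- `K = ℚ(√Δ)`. -/
def discField : IntermediateField ℚ ℚbar :=
  IntermediateField.adjoin ℚ {sqrtDisc W}

instance : FiniteDimensional ℚ (discField W) :=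
  IntermediateField.adjoin.finiteDimensional
    ⟨Polynomial.X ^ 2 - (W.Δ : Polynomial ℚ), by
      simpa using Polynomial.monic_X_pow_sub_C (W.Δ : ℚ) two_ne_zero, by
      rw [← Polynomial.aeval_def]; simp [sqrtDisc_sq]⟩

instance : NumberField (discField W) where

/-- `G_K` as a subgroup of the absolute Galois group. -/
def discGroup : Subgroup Γ := (discField W).fixingSubgroup

/-- The two-part of the class number of `K`. -/
def classTwoPart : ℕ :=
  2 ^ ((Nat.card (ClassGroup (𝓞 (discField W)))).factorization 2)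

/-- The cubic character of `G_K` with `E[2] ⊗ k = Ind χ`. -/
structure DiscChar (k : Type) [Field k] [CharP k 2] where
  χ : discGroup W →* k
  trace_eq : ∀ h : discGroup W,
    ((galoisTrace (K := ℚbar) ℚ (W.map (Int.castRingHom ℚ)).toAffine 2 (h : Γ)).val : k) =
      χ h + χ h⁻¹
  nontrivial : ∃ h, χ h ≠ 1

end quadratic

end Fermat.Agent.Root
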