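import Fermat.Agent.Root.Defs
import Fermat.Agent.MazurPrinciple.Lowering
import Fermat.Agent.MazurPrinciple.Step
import Fermat.Agent.Reduction.Specialisation

/-!
# Mazur's principle modulo `p`

An unramified prime `q` is removed from the level when `q ≢ 1 (mod p)` or the residual Frobenius
at `q` is not scalar (`mazur_lowering`).
-/

set_option autoImplicit false

namespace Fermat.Agent.Root

/-- Mazur's principle at `q ≢ 1 (mod p)`, or with non-scalar residual Frobenius at `q`, keeping
ordinarity at `p`. -/
theorem mazur_lowering (W : WeierstrassCurve ℤ) (hW : Semistable W) (p M q : ℕ) (hp : p.Prime)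
    (hp2 : p ≠ 2) (hirr : W.ModRepIsIrreducible p) (hM : Squarefree M) (hq : q.Prime)
    (hqM : q ∣ M) (hqp : q ≠ p) (hq1 : q % p ≠ 1 ∨ ¬ FrobScalarMod p W q)
    (hunr : UnramifiedMod p W q)
    (h : ResNewform p W M) : ∃ M' : ℕ, M' ∣ M / q ∧ ResNewform p W M' :=
  MazurPrinciple.mazur_lowering_of_step MazurPrinciple.step
    (fun N p _ hp => haveI : Fact p.Prime := ⟨hp⟩; Reduction.torsionReduction N p)
    W hW p M q hp hp2 hirr hM hq hqM hqp hq1 hunr h

end Fermat.Agent.Root
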