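import Fermat.Agent.Root.AuxThree
import Fermat.Agent.MazurPrinciple.AuxThree

/-!
# Auxiliary primes at `p = 3` exist

For an irreducible `W[3]` auxiliary primes avoiding any finite set exist (`exists_auxThree`).
-/

set_option autoImplicit false

namespace Fermat.Agent.Root

/-- Auxiliary primes avoid every finite set. -/
theorem exists_auxThree (W : WeierstrassCurve ℤ) (hW : Semistable W)
    (hirr : W.ModRepIsIrreducible 3) (_hadj : AdjointIrreducible 3 W) (B : Finset ℕ) :
    ∃ s, AuxThree W s ∧ s ∉ B := by
  obtain ⟨r, hr, hrB, hgood, h12, ha⟩ := MazurPrinciple.exists_aux_prime_three hW hirr B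
  exact ⟨r, ⟨hr, by omega, hgood, ha⟩, hrB⟩

end Fermat.Agent.Root
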