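import Fermat.Agent.Root.Defs
import Fermat.Agent.RootResidual.Rep
import Fermat.Agent.RootIrred.Multiplicative
import Fermat.Agent.Newform.MultOne
import Fermat.Agent.Newform.BadCoeff

/-!
# Residual newforms

Congruent modular curves give residual newforms, and bad or ramified primes divide their levels.
-/

set_option autoImplicit false

noncomputable section

open ModularFormClass

namespace Fermat.Agent.Root

local notation "ℚbar" => AlgebraicClosure ℚ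

/-- A prime of bad reduction divides the level of a newform with the traces of a semistable
curve. -/
theorem dvd_of_attached (W : WeierstrassCurve ℤ) (hW : Semistable W) {M : ℕ} [NeZero M]
    {g : CuspForm (CongruenceSubgroup.Gamma0 M) 2} (hg : g.IsNormalizedEigenform) (S : Finset ℕ)
    (hgW : ∀ ℓ : ℕ, ℓ.Prime → ℓ ∉ S → W.IsGoodPrimeFor ℓ → ¬ ℓ ∣ M →
      qCoeff ⇑g ℓ = (W.apOfModel ℓ : ℂ))
    {q : ℕ} (hq : q.Prime) (hqΔ : (q : ℤ) ∣ W.Δ) : q ∣ M := by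
  by_contra hqM
  obtain ⟨B, hB⟩ := RootResidual.exists_forall_irreducible W hW
  obtain ⟨p, hpB, hp⟩ := Nat.exists_infinite_primes (B + q + padicValInt q W.Δ + 3)
  have : Fact p.Prime := ⟨hp⟩
  have hv : ¬ p ∣ padicValInt q W.Δ := fun h => by
    obtain ⟨A, hA⟩ := Gal.exists_liesOverPrime (L := ℚbar) hq
    have h1 := (Multiplicative.MultAt.mk hq hA hqΔ (hW.ss q hq hqΔ) hW.ne).one_le_ord
    have := Nat.le_of_dvd h1 h
    omega
  obtain ⟨𝔪, h𝔪, hp𝔪⟩ := FLTPrelim.exists_maximalIdeal_natCast_prime_mem hp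
  obtain ⟨O, _, _, hpO, ρ, hunr, hfrob⟩ := RootResidual.exists_rep hg p 𝔪 h𝔪 hp𝔪
  have h := RootResidual.unramifiedMod_of_residual W hW.ne p (by omega) (hB p hp (by omega)) hpO ρ
    (S ∪ M.primeFactors) (fun ℓ hℓ hℓS hgood hℓp A hA τ hτ => by
      simp only [Finset.mem_union, Nat.mem_primeFactors, not_or] at hℓS
      have hℓM : ¬ ℓ ∣ M := fun hd => hℓS.2 ⟨hℓ, hd, NeZero.ne M⟩
      refine hfrob ℓ hℓ hℓM hℓp _ ⟨((W.apOfModel ℓ : ℤ) : integralClosure ℤ ℂ), ?_,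
        by simp⟩ A hA τ hτ
      rw [hgW ℓ hℓ hℓS.1 hgood hℓM]
      simp)
    (hunr q hq hqM (by omega))
  obtain ⟨A, hA⟩ := Gal.exists_liesOverPrime (L := ℚbar) hq
  obtain ⟨σ, hσ, P, hP⟩ := RootIrred.exists_inertia_moves
    (Multiplicative.MultAt.mk hq hA hqΔ (hW.ss q hq hqΔ) hW.ne) hp (by omega) hv
  exact hP (h A hA σ hσ P)

/-- A congruent modular curve with the same type at `p` gives a residual newform. -/
theorem resNewform_of_modular (W W₀ : WeierstrassCurve ℤ) (_hW : Semistable W)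
    (hW₀ : Semistable W₀) (p : ℕ) (hp : p.Prime) (_hp2 : p ≠ 2) (_hirr : W.ModRepIsIrreducible p)
    (hcong : CongrMod p W W₀) (htype : (p : ℤ) ∣ W.Δ ↔ (p : ℤ) ∣ W₀.Δ)
    (hmod : W₀.IsModularModelOfLevel W₀.conductorLevel) :
    ∃ M : ℕ, M ∣ W₀.conductorLevel ∧ ResNewform p W M := by
  obtain ⟨f, hf, hfa⟩ := hmod
  obtain ⟨M, hMN, g, hg, hga⟩ := Newform.exists_isNewform_goodEigensystem hf
  have : NeZero M := ⟨fun h => NeZero.ne W₀.conductorLevel (by subst h; simpa using hMN)⟩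
  have hbad : ∀ q : ℕ, q.Prime → (q : ℤ) ∣ W₀.Δ → q ∣ M := fun q hq hqΔ =>
    dvd_of_attached W₀ hW₀ hg.1 W₀.conductorLevel.primeFactors
      (fun ℓ hℓ hℓS hgood _ => by
        have hℓN : ¬ ℓ ∣ W₀.conductorLevel := fun hd =>
          hℓS (Nat.mem_primeFactors.mpr ⟨hℓ, hd, NeZero.ne _⟩)
        rw [hga ℓ hℓ hℓN, hfa ℓ hℓ hgood hℓN]) hq hqΔ
  obtain ⟨𝔪, h𝔪, hp𝔪⟩ := FLTPrelim.exists_maximalIdeal_natCast_prime_mem hp
  refine ⟨M, hMN, g, 𝔪, hg, h𝔪, hp𝔪, fun ℓ hℓ hgood hℓM hℓp => ?_, fun hpΔ => ?_⟩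
  · have hgood₀ : W₀.IsGoodPrimeFor ℓ := fun hd => hℓM (hbad ℓ hℓ hd)
    have hℓN : ¬ ℓ ∣ W₀.conductorLevel := fun hd =>
      hgood₀ ((W₀.prime_dvd_conductorLevel_iff hW₀.ne hℓ).mp hd)
    refine ⟨((W₀.apOfModel ℓ : ℤ) : integralClosure ℤ ℂ), ?_, ?_⟩
    · rw [hga ℓ hℓ hℓN, hfa ℓ hℓ hgood₀ hℓN]
      simp
    · obtain ⟨c, hc⟩ := hcong ℓ hℓ hgood hgood₀ hℓp
      rw [← Int.cast_sub, hc, Int.cast_mul, Int.cast_natCast]
      exact 𝔪.mul_mem_right _ hp𝔪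
  · have hsq : ¬ p ^ 2 ∣ M := fun h => by
      have := (Nat.squarefree_iff_prime_squarefree.mp W₀.squarefree_conductorLevel) p hp
      exact this (by rw [← sq]; exact h.trans hMN)
    have h1 := ((Newform.newformBadPrimeCoeff M) g hg p hp (hbad p hp (htype.mp hpΔ))).1 hsq
    have hint : IsIntegral ℤ (qCoeff ⇑g p) :=
      IsIntegral.of_pow two_pos (h1 ▸ isIntegral_one)
    refine ⟨⟨_, hint⟩, rfl, ?_⟩
    have h2 : (⟨qCoeff ⇑g p, hint⟩ : integralClosure ℤ ℂ) ^ 2 = 1 := Subtype.ext h1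
    rw [h2, sub_self]
    exact 𝔪.zero_mem

/-- A prime ramified in `E[p]` divides the level. -/
theorem dvd_of_not_unramifiedMod (W : WeierstrassCurve ℤ) (hW : Semistable W) (p M : ℕ)
    (hp : p.Prime) (hp2 : p ≠ 2) (hirr : W.ModRepIsIrreducible p) (h : ResNewform p W M)
    {q : ℕ} (hq : q.Prime) (hqp : q ≠ p) (hram : ¬ UnramifiedMod p W q) : q ∣ M := by
  by_contra hqM
  have : NeZero M := ⟨fun h => hqM (h ▸ dvd_zero q)⟩
  have : Fact p.Prime := ⟨hp⟩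
  obtain ⟨f, 𝔪, hf, h𝔪, hp𝔪, hfW, -⟩ := h
  obtain ⟨O, _, _, hpO, ρ, hunr, hfrob⟩ := RootResidual.exists_rep hf.1 p 𝔪 h𝔪 hp𝔪
  exact hram (RootResidual.unramifiedMod_of_residual W hW.ne p hp2 hirr hpO ρ M.primeFactors
    (fun ℓ hℓ hℓS hgood hℓp A hA τ hτ => by
      have hℓM : ¬ ℓ ∣ M := fun hd => hℓS (Nat.mem_primeFactors.mpr ⟨hℓ, hd, NeZero.ne M⟩)
      exact hfrob ℓ hℓ hℓM hℓp _ (hfW ℓ hℓ hgood hℓM hℓp) A hA τ hτ) (hunr q hq hqM hqp))

end Fermat.Agent.Root
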