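import Fermat.Agent.Root.GenusBrandtField
import Fermat.Agent.Dihedral.ThetaEigen
import Fermat.Agent.Dihedral.ThetaLambda
import Fermat.Agent.S22

/-!
# The mod 2 Hecke system from twisted theta products

Finite families of eigenforms with the rings of their coefficients, and for every admissible set
`Q` a family of level `N · ∏ Q` whose Hecke ring modulo two surjects onto a local ring of order
`2 ^ (h₂ 2^|Q|)` (`exists_brandt`).
-/

set_option autoImplicit false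

noncomputable section

namespace Fermat.Agent.Root

open CongruenceSubgroup CuspForm Module
open scoped NumberField nonZeroDivisors

/-- A finite family of distinct normalised eigenforms of level `M` with integral coefficients. -/
structure EigenFamily (M : ℕ) (ι : Type) where
  g : ι → CuspForm (Gamma0 M) 2
  eigen : ∀ i, (g i).IsNormalizedEigenform
  injective : Function.Injective g
  a : ι → ℕ → integralClosure ℤ ℂ
  coe_a : ∀ i n, (a i n : ℂ) = ModularFormClass.qCoeff (g i) n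

/-- The ring generated by the prime coefficients of the family. -/
def EigenFamily.ring {M : ℕ} {ι : Type} (F : EigenFamily M ι) :
    Subring (ι → integralClosure ℤ ℂ) :=
  Subring.closure (Set.range fun ℓ : Nat.Primes => fun i => F.a i ℓ)

/-- The prime coefficient as an element of the ring. -/
def EigenFamily.coeff {M : ℕ} {ι : Type} (F : EigenFamily M ι) (ℓ : ℕ) (hℓ : ℓ.Prime) : F.ring :=
  ⟨fun i => F.a i ℓ, Subring.subset_closure ⟨⟨ℓ, hℓ⟩, rfl⟩⟩

/-- The ring generated by the prime coefficients away from one prime. -/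
def EigenFamily.ringAway {M : ℕ} {ι : Type} (F : EigenFamily M ι) (p₀ : ℕ) :
    Subring (ι → integralClosure ℤ ℂ) :=
  Subring.closure ((fun ℓ : Nat.Primes => fun i => F.a i ℓ) '' {ℓ | (ℓ : ℕ) ≠ p₀})

/-- The prime coefficient as an element of the smaller ring. -/
def EigenFamily.coeffAway {M : ℕ} {ι : Type} (F : EigenFamily M ι) (p₀ ℓ : ℕ) (hℓ : ℓ.Prime)
    (hne : ℓ ≠ p₀) : F.ringAway p₀ :=
  ⟨fun i => F.a i ℓ, Subring.subset_closure ⟨⟨ℓ, hℓ⟩, hne, rfl⟩⟩

/-- All members are congruent to `W` modulo `𝔪` away from `Q ∪ {2}`, and a Galois conjugate of a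
member which is congruent to it modulo `𝔪` is again a member. -/
structure EigenFamily.IsClass {M : ℕ} {ι : Type} (F : EigenFamily M ι) (W : WeierstrassCurve ℤ)
    (Q : Finset ℕ) (𝔪 : Ideal (integralClosure ℤ ℂ)) : Prop where
  maximal : 𝔪.IsMaximal
  two_mem : (2 : integralClosure ℤ ℂ) ∈ 𝔪
  congr : ∀ i, ∀ ℓ : ℕ, ℓ.Prime → W.IsGoodPrimeFor ℓ → ℓ ∉ Q → ℓ ≠ 2 →
    F.a i ℓ - ((W.apOfModel ℓ : ℤ) : integralClosure ℤ ℂ) ∈ 𝔪
  closed : ∀ i, ∀ σ : ℂ ≃+* ℂ,
    (∀ (n : ℕ) (b : integralClosure ℤ ℂ), (b : ℂ) = σ (F.a i n) → b - F.a i n ∈ 𝔪) →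
    ∃ j, ∀ n, (F.a j n : ℂ) = σ (F.a i n)

/-- The eigen character away from one prime, with values in the algebraic integers. -/
def awayCharacter {M : ℕ} [NeZero M] {g : CuspForm (Gamma0 M) 2} (hg : g.IsNormalizedEigenform)
    (S : Set ℕ) : heckeAlgebra M 2 S →+* integralClosure ℤ ℂ :=
  (Hecke.eigenCharacter hg S).codRestrict (integralClosure ℤ ℂ).toSubring fun t => by
    have := Fermat.Agent.S22.result M 2 S
    exact map_isIntegral_int _ (Algebra.IsIntegral.isIntegral t)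

theorem isIntegral_qCoeff_eigen {M : ℕ} [NeZero M] {g : CuspForm (Gamma0 M) 2}
    (hg : g.IsNormalizedEigenform) (n : ℕ) : IsIntegral ℤ (ModularFormClass.qCoeff g n) :=
  Hecke.qCoeff_one_heckeTn n g ▸ (awayCharacter hg ∅ (Hecke.heckeTn M n)).2

/-- The family of eigenforms in a finite set. -/
def EigenFamily.ofFinset {M : ℕ} [NeZero M] (s : Finset (CuspForm (Gamma0 M) 2))
    (hs : ∀ g ∈ s, g.IsNormalizedEigenform) : EigenFamily M ↥s where
  g i := i
  eigen i := hs _ i.2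
  injective := Subtype.val_injective
  a i n := ⟨_, isIntegral_qCoeff_eigen (hs _ i.2) n⟩
  coe_a _ _ := rfl

/-- A ring hom on the Hecke algebra takes its values in a subring as soon as the generators do. -/
theorem heckeAlgebra_map_mem {M : ℕ} [NeZero M] {S : Set ℕ} {A : Type*} [CommRing A]
    (f : heckeAlgebra M 2 S →+* A) (R : Subring A)
    (hT : ∀ (l : ℕ) (hl : l.Prime) (hlM : ¬ l ∣ M) (hls : l ∉ S),
      f (heckeAlgebra.T hl hlM hls) ∈ R)
    (hU : ∀ (q : ℕ) (hq : q.Prime) (hqM : q ∣ M) (hqs : q ∉ S),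
      f (heckeAlgebra.U hq hqM hqs) ∈ R)
    (t : heckeAlgebra M 2 S) : f t ∈ R := by
  obtain ⟨x, hx⟩ := t
  induction hx using Algebra.adjoin_induction with
  | mem x hx =>
    rcases hx with ⟨l, hl, hlM, hls, rfl⟩ | ⟨q, hqM, hq, hqs, rfl⟩
    · exact hT l hl hlM hls
    · exact hU q hq hqM hqs
  | algebraMap r =>
    change f (algebraMap ℤ _ r) ∈ R
    rw [algebraMap_int_eq, eq_intCast, map_intCast]
    exact intCast_mem _ r
  | add x y hx' hy' hx hy =>
    change f (⟨x, hx'⟩ + ⟨y, hy'⟩) ∈ R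
    rw [map_add]; exact add_mem hx hy
  | mul x y hx' hy' hx hy =>
    change f (⟨x, hx'⟩ * ⟨y, hy'⟩) ∈ R
    rw [map_mul]; exact mul_mem hx hy

/-- A ring hom on the Hecke algebra killing what kills the eigenforms of a finite set factors
through the ring of their prime coefficients. -/
theorem EigenFamily.exists_lift {M : ℕ} [NeZero M] (p₀ : ℕ)
    (s : Finset (CuspForm (Gamma0 M) 2)) (hs : ∀ g ∈ s, g.IsNormalizedEigenform)
    {A : Type*} [CommRing A] (φ : heckeAlgebra M 2 ({p₀} : Set ℕ) →+* A)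
    (hker : ∀ t : heckeAlgebra M 2 ({p₀} : Set ℕ),
      (∀ g ∈ s, (t : Module.End ℂ (CuspForm (Gamma0 M) 2)) g = 0) → φ t = 0) :
    ∃ Φ : (EigenFamily.ofFinset s hs).ringAway p₀ →+* A, Set.range Φ = Set.range φ ∧
      ∀ (ℓ : ℕ) (hℓ : ℓ.Prime) (hne : ℓ ≠ p₀) (hℓM : ¬ ℓ ∣ M) (hls : ℓ ∉ ({p₀} : Set ℕ)),
        Φ ((EigenFamily.ofFinset s hs).coeffAway p₀ ℓ hℓ hne) =
          φ (heckeAlgebra.T hℓ hℓM hls) := by
  set F := EigenFamily.ofFinset s hs
  let Ψ : heckeAlgebra M 2 ({p₀} : Set ℕ) →+* (↥s → integralClosure ℤ ℂ) :=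
    RingHom.pi fun i : ↥s => awayCharacter (hs _ i.2) _
  have hΨT : ∀ {l : ℕ} (hl : l.Prime) (hlN : ¬ l ∣ M) (hls : l ∉ ({p₀} : Set ℕ)),
      Ψ (heckeAlgebra.T hl hlN hls) = fun i => F.a i l :=
    fun hl hlN hls => funext fun i => Subtype.ext (Hecke.eigenCharacter_T (hs _ i.2) hl hlN hls)
  have hΨU : ∀ {l : ℕ} (hl : l.Prime) (hlN : l ∣ M) (hls : l ∉ ({p₀} : Set ℕ)),
      Ψ (heckeAlgebra.U hl hlN hls) = fun i => F.a i l :=
    fun hl hlN hls => funext fun i => Subtype.ext (Hecke.eigenCharacter_U (hs _ i.2) hl hlN hls)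
  have hΨmem : ∀ t, Ψ t ∈ F.ringAway p₀ :=
    heckeAlgebra_map_mem Ψ _
      (fun l hl hlN hls => (hΨT hl hlN hls).symm ▸
        (Subring.subset_closure ⟨⟨l, hl⟩, hls, rfl⟩ : (fun i => F.a i l) ∈ F.ringAway p₀))
      (fun l hl hlN hls => (hΨU hl hlN hls).symm ▸
        (Subring.subset_closure ⟨⟨l, hl⟩, hls, rfl⟩ : (fun i => F.a i l) ∈ F.ringAway p₀))
  let Ψ' := Ψ.codRestrict (F.ringAway p₀) hΨmem
  have hΨsurj : Function.Surjective Ψ' := by
    intro y
    have hy : (y : ↥s → integralClosure ℤ ℂ) ∈ Ψ.range := by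
      refine (Subring.closure_le.mpr ?_) y.2
      rintro _ ⟨⟨l, hl⟩, hne, rfl⟩
      by_cases hlN : l ∣ M
      · exact ⟨_, hΨU hl hlN hne⟩
      · exact ⟨_, hΨT hl hlN hne⟩
    obtain ⟨t, ht⟩ := hy
    exact ⟨t, Subtype.ext ht⟩
  have hkerle : RingHom.ker Ψ' ≤ RingHom.ker φ := by
    intro t ht
    have ht' : Ψ t = 0 := congrArg Subtype.val (RingHom.mem_ker.mp ht)
    refine RingHom.mem_ker.mpr (hker t fun g hg => ?_)
    have h0 : Hecke.eigenCharacter (hs g hg) _ t = 0 :=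
      congrArg Subtype.val (congrFun ht' ⟨g, hg⟩)
    rw [Hecke.eigenCharacter_isEigenvector (hs g hg) _ t, h0, zero_smul]
  refine ⟨Ψ'.liftOfSurjective hΨsurj ⟨φ, hkerle⟩, ?_, fun ℓ hℓ hne hℓM hls => ?_⟩
  · ext a
    constructor
    · rintro ⟨y, rfl⟩
      obtain ⟨t, rfl⟩ := hΨsurj y
      exact ⟨t, (Ψ'.liftOfRightInverse_comp_apply _ _ ⟨φ, hkerle⟩ t).symm⟩
    · rintro ⟨t, rfl⟩
      exact ⟨Ψ' t, Ψ'.liftOfRightInverse_comp_apply _ _ ⟨φ, hkerle⟩ t⟩
  · rw [show F.coeffAway p₀ ℓ hℓ hne = Ψ' (heckeAlgebra.T hℓ hℓM hls) from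
      Subtype.ext (hΨT hℓ hℓM hls).symm]
    exact Ψ'.liftOfRightInverse_comp_apply _ _ ⟨φ, hkerle⟩ _

/-- For every admissible `Q` classical eigenforms of level `N · ∏ Q` (twisted theta products)
have mod 2 Hecke ring away from one bad prime `p₀` surjecting onto a local ring with
`2 ^ (h₂ 2^|Q|)` elements, with the residual eigensystem of `W`. -/
theorem exists_brandt (W : WeierstrassCurve ℤ) (hW : GenusCurve W) (Q : Finset ℕ)
    (hQ : ∀ q ∈ Q, AuxPrime W 3 q) :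
    ∃ p₀ : ℕ, p₀.Prime ∧ p₀ ≠ 2 ∧ (p₀ : ℤ) ∣ W.Δ ∧
    ∃ (ι : Type) (_ : Fintype ι) (F : EigenFamily (W.conductorLevel * ∏ q ∈ Q, q) ι),
      (∀ i, ∀ q : ℕ, q.Prime → (q ∈ Q ∨ ((q : ℤ) ∣ W.Δ ∧ q ≠ p₀)) →
        ModularFormClass.qCoeff (F.g i) q ^ 2 = 1) ∧
      ∃ (Λ : Type) (_ : CommRing Λ) (_ : IsLocalRing Λ) (φ : F.ringAway p₀ →+* Λ)
        (π : Λ →+* ZMod 2),
        Function.Surjective φ ∧ (2 : Λ) = 0 ∧
        Nat.card Λ = 2 ^ (classTwoPart W * 2 ^ Q.card) ∧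
        ∀ (ℓ : ℕ) (hℓ : ℓ.Prime) (hne : ℓ ≠ p₀), W.IsGoodPrimeFor ℓ → ℓ ∉ Q → ℓ ≠ 2 → ℓ ≠ 3 →
          π (φ (F.coeffAway p₀ ℓ hℓ hne)) = (W.apOfModel ℓ : ZMod 2) := by
  classical
  obtain ⟨m, hmodd, hmsf, hN⟩ := hW.exists_m
  obtain ⟨p₀, -, hp₀, -, -, hp12, -, hp₀Δ, -⟩ := hW.split_bad
  have hp₀2 : p₀ ≠ 2 := fun h => by rw [h] at hp12; norm_num at hp12
  have hbad : ∀ {p : ℕ}, p.Prime → (p ∣ 2 * m ↔ (p : ℤ) ∣ W.Δ) := fun hp =>
    hN ▸ W.prime_dvd_conductorLevel_iff hW.neg.ne hp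
  have hp₀m : p₀ ∣ m := (hp₀.dvd_mul.mp ((hbad hp₀).mpr hp₀Δ)).resolve_left fun h =>
    hp₀2 ((Nat.prime_dvd_prime_iff_eq hp₀ Nat.prime_two).mp h)
  -- the quadratic field
  have hK := hW.finrank_discField
  have hdisc := hW.discr_discField
  have hD : NumberField.discr (discField W) = -((8 * m : ℕ) : ℤ) := by
    rw [hdisc, hN]; push_cast; ring
  have hQp : ∀ q ∈ Q, q.Prime := fun q hq => (hQ q hq).prime
  have hQN : ∀ q ∈ Q, q ≠ 2 ∧ ¬ q ∣ 2 * m := fun q hq => hN ▸ hW.not_dvd_of_auxPrime (hQ q hq)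
  have hQi : ∀ q ∈ Q, ¬ IsSquare (-((8 * m : ℕ) : ZMod q)) := fun q hq => by
    have := hW.not_isSquare_of_auxPrime (hQ q hq)
    rwa [hN, show 4 * (2 * m) = 8 * m by ring] at this
  have hp₀Q : p₀ ∉ Q := fun h => (hQN p₀ h).2 (hp₀m.mul_left 2)
  have : NeZero (2 * m * ∏ q ∈ Q, q) :=
    ⟨mul_ne_zero (mul_ne_zero two_ne_zero hmsf.ne_zero)
      (Finset.prod_ne_zero_iff.mpr fun q hq => (hQp q hq).ne_zero)⟩
  have hlevel : ∀ {p : ℕ}, p.Prime → (p ∣ 2 * m * ∏ q ∈ Q, q ↔ (p : ℤ) ∣ W.Δ ∨ p ∈ Q) := by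
    intro p hp
    rw [hp.dvd_mul, hbad hp, Prime.dvd_finsetProd_iff hp.prime]
    refine or_congr Iff.rfl ⟨?_, fun h => ⟨p, h, dvd_rfl⟩⟩
    rintro ⟨q, hq, hd⟩
    exact (Nat.prime_dvd_prime_iff_eq hp (hQp q hq)).mp hd ▸ hq
  obtain ⟨X, hX1, hXsplit, hXinert⟩ := DihedralTwo.exists_character_of_weierstrass W hW.ss hW.neg
    hW.two_dvd hW.odd_val hW.irr (discField W) hK hdisc
  -- the group ring
  obtain ⟨G, u, hu, hGpow, hGcard⟩ := exists_twoQuotient (ClassGroup (𝓞 (discField W)))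
  have : Fintype G := Fintype.ofFinite _
  let k := GaloisField 2 2
  have : Fintype k := Fintype.ofFinite k
  have hk4 : Fintype.card k = 4 := by
    rw [← Nat.card_eq_fintype_card, GaloisField.card 2 2 two_ne_zero]; norm_num
  obtain ⟨ω, hω⟩ : ∃ ω : k, ω ^ 2 + ω + 1 = 0 := by
    obtain ⟨x, hx⟩ : ∃ x : k, x ∉ ({0, 1} : Finset k) := by
      by_contra h
      push Not at h
      have := Finset.card_le_card (s := (Finset.univ : Finset k)) fun x _ => h x
      rw [Finset.card_univ, hk4] at this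
      exact absurd this
        (by rw [Finset.card_insert_of_notMem (by simp), Finset.card_singleton]; norm_num)
    simp only [Finset.mem_insert, Finset.mem_singleton, not_or] at hx
    refine ⟨x, ?_⟩
    have h4 : x ^ 4 = x := hk4 ▸ FiniteField.pow_card x
    refine (mul_eq_zero.mp ((by linear_combination h4 :
      (x * (x - 1)) * (x ^ 2 + x + 1) = 0))).resolve_left ?_
    exact mul_ne_zero hx.1 (sub_ne_zero.mpr hx.2)
  set a := (Nat.card (ClassGroup (𝓞 (discField W)))).factorization 2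
  obtain ⟨V, hV, hVU, φ, hker, hT, hT0, hUQ, hUram, hspan⟩ :=
    Dihedral.Theta.exists_thetaRep hK m hmodd hmsf hD Q hQp (fun q hq => (hQN q hq).1) hQi p₀ hp₀
      hp₀m ω hω X hX1 a hGpow u hu
  set E := ↥Q → Multiplicative (ZMod 2)
  set H := G × E
  have hHpow : ∀ g : H, g ^ 2 ^ (a + 1) = 1 := fun g => by
    refine Prod.ext ?_ (funext fun i => ?_)
    · rw [Prod.pow_fst, pow_succ 2 a, pow_mul, hGpow, one_pow]; rfl
    · rw [Prod.pow_snd, pow_succ' 2 a, pow_mul, Pi.pow_apply, Pi.pow_apply]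
      have h22 : ∀ z : Multiplicative (ZMod 2), z ^ 2 = 1 := by decide
      rw [h22, one_pow]; rfl
  -- the image consists of invariants
  have hfixed : ∀ t, φ t ∈ Dihedral.Theta.fixedRing k H := by
    refine heckeAlgebra_map_mem φ _ (fun l hl hlN hls => ?_) (fun q hq hqN hqs => ?_)
    · by_cases hP : ∃ P : Ideal (𝓞 (discField W)), Ideal.absNorm P = l
      · obtain ⟨P, hP⟩ := hP
        rw [hT l hl hlN hls ⟨P, mem_nonZeroDivisors_iff_ne_zero.mpr
          (Dihedral.Theta.ne_bot_of_absNorm hl.ne_zero hP)⟩ hP, Dihedral.Theta.mem_fixedRing,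
          map_add, Dihedral.Theta.frobInv_twistChar, Dihedral.Theta.frobInv_twistChar, inv_inv,
          add_comm]
      · rw [hT0 l hl hlN hls (not_exists.mp hP)]
        exact Subring.zero_mem _
    · rcases ((hlevel hq).mp hqN).symm with hqQ | hqΔ
      · rw [hUQ q hq hqN hqs hqQ]
        exact Dihedral.Theta.frobInv_qElt Q q
      · obtain ⟨P, hP, hPP⟩ := Dihedral.Theta.exists_sq_eq_of_dvd_discr hK hq (by
          rw [hD, dvd_neg, Int.natCast_dvd_natCast, show 8 * m = 4 * (2 * m) by ring]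
          exact ((hbad hq).mpr hqΔ).mul_left _)
        have hP0 := mem_nonZeroDivisors_iff_ne_zero.mpr
          (Dihedral.Theta.ne_bot_of_absNorm hq.ne_zero hP)
        rw [hUram q hq hqN hqs ((hbad hq).mpr hqΔ) ⟨P, hP0⟩ hP, Dihedral.Theta.mem_fixedRing,
          Dihedral.Theta.frobInv_twistChar]
        congr 1
        rw [inv_eq_iff_mul_eq_one, ← map_mul, ClassGroup.mk0_eq_one_iff]
        exact ⟨(q : 𝓞 (discField W)), hPP⟩
  obtain ⟨hΛeq, hΛcard⟩ := Dihedral.Theta.eq_fixedRing_and_card φ.range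
    (by rintro _ ⟨t, rfl⟩; exact hfixed t) (by rw [RingHom.coe_range]; exact hspan)
  -- the family
  obtain ⟨s, hs, hdet⟩ := Dihedral.Theta.exists_eigenFamily p₀ hp₀
    ((hp₀m.mul_left 2).mul_right _) hV hVU
  rw [hN]
  let φΛ := φ.codRestrict (Dihedral.Theta.fixedRing k H) hfixed
  obtain ⟨Φ, hΦrange, hΦT⟩ := EigenFamily.exists_lift p₀ s (fun g hg => (hs g hg).1) φΛ
    fun t ht => Subtype.ext (hker t (hdet t ht))
  let F := EigenFamily.ofFinset s fun g hg => (hs g hg).1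
  have hloc := Dihedral.Theta.isLocalRing_fixedRing (k := k) (a + 1) hHpow
  obtain ⟨π, hπ⟩ := Dihedral.Theta.exists_residue (k := k) (H := H)
  refine ⟨p₀, hp₀, hp₀2, hp₀Δ, ↥s, inferInstance, F, fun i q hq hcase => ?_,
    Dihedral.Theta.fixedRing k H, inferInstance, hloc, Φ, π, fun y => ?_, Subtype.ext ?_, ?_,
    fun ℓ hℓ hne hgood hℓQ hℓ2 hℓ3 => ?_⟩
  · have hqN : q ∣ 2 * m * ∏ q ∈ Q, q :=
      (hlevel hq).mpr (hcase.symm.imp_left And.left)
    have hq0 : q ≠ p₀ := by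
      rcases hcase with h | h
      · exact fun e => hp₀Q (e ▸ h)
      · exact h.2
    have h1 := hVU q hq hqN hq0 _ (hs _ i.2).2
    rw [Hecke.heckeULin_eigenform (hs _ i.2).1 hq hqN, map_smul,
      Hecke.heckeULin_eigenform (hs _ i.2).1 hq hqN, smul_smul] at h1
    have h2 := congrArg (fun f : CuspForm (Gamma0 (2 * m * ∏ q ∈ Q, q)) 2 =>
      ModularFormClass.qCoeff f 1) h1
    simp only [Hecke.qCoeff_smul, (hs _ i.2).1.qCoeff_one, mul_one] at h2
    rw [pow_two]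
    exact h2
  · obtain ⟨t, ht⟩ : (y : MonoidAlgebra k H) ∈ φ.range :=
      (SetLike.ext_iff.mp hΛeq _).mpr y.2
    have : φΛ t ∈ Set.range Φ := by rw [hΦrange]; exact Set.mem_range_self t
    rwa [show φΛ t = y from Subtype.ext ht] at this
  · change (2 : MonoidAlgebra k H) = 0
    rw [← map_ofNat (algebraMap k (MonoidAlgebra k H)) 2, (CharTwo.two_eq_zero : (2 : k) = 0),
      map_zero]
  · rw [← hΛeq, hΛcard]
    congr 1
    rw [Nat.card_prod, hGcard, Nat.card_fun, Nat.card_eq_fintype_card (α := Multiplicative _),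
      Nat.card_eq_fintype_card (α := ↥Q), Fintype.card_coe]
    rfl
  · have hℓN : ¬ ℓ ∣ 2 * m * ∏ q ∈ Q, q := fun h => ((hlevel hℓ).mp h).elim hgood hℓQ
    have hls : ℓ ∉ ({p₀} : Set ℕ) := hne
    rw [hΦT ℓ hℓ hne hℓN hls]
    refine (ZMod.castHom (dvd_refl 2) k).injective ?_
    rw [← hπ, map_intCast]
    change Dihedral.Theta.augHom k H (φ (heckeAlgebra.T hℓ hℓN hls)) = _
    have hmod : ∀ z : ℤ, (z : k) = if (z : ZMod 2) = 0 then 0 else 1 := fun z => by
      rw [← map_intCast (ZMod.castHom (dvd_refl 2) k) z]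
      split_ifs with h
      · rw [h, map_zero]
      · rw [(by revert h; generalize (z : ZMod 2) = w; revert w; decide : (z : ZMod 2) = 1),
          map_one]
    by_cases hP : ∃ P : Ideal (𝓞 (discField W)), Ideal.absNorm P = ℓ
    · obtain ⟨P, hP⟩ := hP
      have hP0 := mem_nonZeroDivisors_iff_ne_zero.mpr
        (Dihedral.Theta.ne_bot_of_absNorm hℓ.ne_zero hP)
      rw [hT ℓ hℓ hℓN hls ⟨P, hP0⟩ hP, map_add, Dihedral.Theta.augHom_twistChar,
        Dihedral.Theta.augHom_twistChar, map_inv, hmod]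
      by_cases hz : X (ClassGroup.mk0 ⟨P, hP0⟩) = 1
      · rw [if_pos ((hXsplit P hP0 ℓ hℓ hP hgood hℓ3).mp hz), hz, inv_one, map_one]
        exact CharTwo.add_self_eq_zero 1
      · rw [if_neg fun h => hz ((hXsplit P hP0 ℓ hℓ hP hgood hℓ3).mpr h),
          Dihedral.Theta.cubeVal_add_inv ω hω CharTwo.two_eq_zero hz]
    · rw [hT0 ℓ hℓ hℓN hls (not_exists.mp hP), map_zero, hmod, if_pos]
      refine hXinert ℓ hℓ hgood hℓ3 fun hsq => hP ?_
      refine Dihedral.Theta.exists_absNorm_of_isSquare (M := 8 * m) hK hD hℓ hℓ2 ?_ ?_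
      · intro h
        rw [show 8 * m = 4 * (2 * m) by ring] at h
        rcases hℓ.dvd_mul.mp h with h | h
        · exact hℓ2 ((Nat.prime_dvd_prime_iff_eq hℓ Nat.prime_two).mp
            (hℓ.dvd_of_dvd_pow (n := 2) h))
        · exact hgood ((hbad hℓ).mp h)
      · rw [hN] at hsq
        push_cast at hsq ⊢
        rw [show -(8 * (m : ZMod ℓ)) = -4 * (2 * (m : ZMod ℓ)) by ring]
        exact hsq

end Fermat.Agent.Root
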