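import Fermat.Agent.GalRep.CoeffRing
import Fermat.Agent.Root.GenusBrandt

/-!
# A place above two of the algebraic integers

An embedding of the algebraic integers in an algebraic closure of `ℚ₂`, the maximal ideal it
defines, and the discrete valuation rings receiving finitely many of them.
-/

set_option autoImplicit false

noncomputable section

namespace Fermat.Agent.Root

open IsLocalRing

local notation "Zbar" => integralClosure ℤ ℂ

/-- An algebraic closure of `ℚ₂`. -/
abbrev Omega2 : Type := AlgebraicClosure (FractionRing ℤ_[2])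

/-- Its ring of integers. -/
abbrev Int2 : Type := integralClosure ℤ_[2] Omega2

instance : CharZero (FractionRing ℤ_[2]) :=
  charZero_of_injective_algebraMap (IsFractionRing.injective ℤ_[2] (FractionRing ℤ_[2]))

instance : CharZero Omega2 :=
  charZero_of_injective_algebraMap (algebraMap (FractionRing ℤ_[2]) Omega2).injective

theorem exists_placeHom : ∃ g : Zbar →+* Omega2,
    g.comp (algebraMap ℤ Zbar) = Int.castRingHom Omega2 :=
  GalRep.exists_ringHom_extension (algebraMap ℤ Zbar) (RingHom.injective_int _)
    (fun x => Algebra.IsIntegral.isIntegral x) _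

/-- An embedding of the algebraic integers. -/
def placeHom : Zbar →+* Omega2 := exists_placeHom.choose

theorem placeHom_injective : Function.Injective placeHom := by
  rw [RingHom.injective_iff_ker_eq_bot]
  refine Ideal.eq_bot_of_comap_eq_bot (R := ℤ) (eq_bot_iff.mpr fun z hz => ?_)
  rw [Ideal.mem_comap, RingHom.mem_ker, eq_intCast, map_intCast, Int.cast_eq_zero] at hz
  exact (Submodule.mem_bot ℤ).mpr hz

theorem isIntegral_ringHom (g : Zbar →+* Omega2) (x : Zbar) : IsIntegral ℤ_[2] (g x) := by
  obtain ⟨p, hp, hpx⟩ := Algebra.IsIntegral.isIntegral (R := ℤ) x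
  refine ⟨p.map (Int.castRingHom ℤ_[2]), hp.map _, ?_⟩
  rw [Polynomial.eval₂_map, Subsingleton.elim ((algebraMap ℤ_[2] Omega2).comp
    (Int.castRingHom ℤ_[2])) (g.comp (algebraMap ℤ Zbar)), ← Polynomial.hom_eval₂, hpx, map_zero]

/-- A chosen maximal ideal of the integers. -/
def int2Ideal : Ideal Int2 := (Ideal.exists_maximal Int2).choose

instance : int2Ideal.IsMaximal := (Ideal.exists_maximal Int2).choose_spec

theorem two_mem_int2Ideal : (2 : Int2) ∈ int2Ideal := by
  have h : (int2Ideal.comap (algebraMap ℤ_[2] Int2)).IsMaximal :=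
    Ideal.isMaximal_comap_of_isIntegral_of_isMaximal int2Ideal
  have h2 : (2 : ℤ_[2]) ∈ maximalIdeal ℤ_[2] := by
    rw [PadicInt.maximalIdeal_eq_span_p]; exact Ideal.mem_span_singleton_self _
  rw [← IsLocalRing.eq_maximalIdeal h, Ideal.mem_comap, map_ofNat] at h2
  exact h2

/-- `placeHom` with values in the integers. -/
def placeInt : Zbar →+* Int2 :=
  placeHom.codRestrict (integralClosure ℤ_[2] Omega2).toSubring (isIntegral_ringHom placeHom)

@[simp] theorem coe_placeInt (x : Zbar) : (placeInt x : Omega2) = placeHom x := rfl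

/-- The maximal ideal of the algebraic integers. -/
def placeIdeal : Ideal Zbar := int2Ideal.comap placeInt

theorem two_mem_placeIdeal : (2 : Zbar) ∈ placeIdeal := by
  rw [placeIdeal, Ideal.mem_comap, map_ofNat]; exact two_mem_int2Ideal

instance placeIdeal_isMaximal : placeIdeal.IsMaximal := by
  have hp : placeIdeal.IsPrime := Ideal.IsPrime.comap placeInt
  refine Ideal.isMaximal_of_isIntegral_of_isMaximal_comap (R := ℤ) placeIdeal ?_
  have h : placeIdeal.comap (algebraMap ℤ Zbar) = Ideal.span {(2 : ℤ)} := by
    refine (Ideal.IsMaximal.eq_of_le (I := Ideal.span {(2 : ℤ)}) ?_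
      (Ideal.IsPrime.ne_top inferInstance) ?_).symm
    · exact PrincipalIdealRing.isMaximal_of_irreducible
        (Int.prime_two.irreducible)
    · rw [Ideal.span_singleton_le_iff_mem, Ideal.mem_comap, map_ofNat]
      exact two_mem_placeIdeal
  rw [h]
  exact PrincipalIdealRing.isMaximal_of_irreducible Int.prime_two.irreducible

/-- Every embedding of the algebraic integers differs from the chosen one by an endomorphism. -/
theorem exists_endo (g : Zbar →+* Omega2) :
    ∃ σ : Zbar →+* Zbar, placeHom.comp σ = g := by
  have hmem : ∀ x, ∃ y, placeHom y = g x := by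
    intro x
    obtain ⟨p, hp, hpx⟩ := Algebra.IsIntegral.isIntegral (R := ℤ) x
    set q := p.map (Int.castRingHom ℂ) with hq
    have hsplit : q = (q.roots.map fun r => Polynomial.X - Polynomial.C r).prod :=
      Polynomial.Splits.eq_prod_roots_of_monic (IsAlgClosed.splits q) (hp.map _)
    have hint : ∀ r ∈ q.roots, r ∈ integralClosure ℤ ℂ := fun r hr =>
      ⟨p, hp, by
        have h := Polynomial.isRoot_of_mem_roots hr
        rwa [Polynomial.IsRoot, hq, Polynomial.eval_map] at h⟩
    let m : Multiset Zbar := q.roots.attach.map fun r => ⟨r.1, hint r.1 r.2⟩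
    have hfac : p.map (algebraMap ℤ Zbar) =
        (m.map fun r => Polynomial.X - Polynomial.C r).prod := by
      refine Polynomial.map_injective (integralClosure ℤ ℂ).toSubring.subtype
        Subtype.val_injective ?_
      rw [Polynomial.map_map, Subsingleton.elim
        (((integralClosure ℤ ℂ).toSubring.subtype).comp (algebraMap ℤ Zbar)) (Int.castRingHom ℂ),
        ← hq, Polynomial.map_multiset_prod, Multiset.map_map, Multiset.map_map]
      conv_lhs => rw [hsplit, ← q.roots.attach_map_val, Multiset.map_map]
      congr 1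
      refine Multiset.map_congr rfl fun r _ => ?_
      simp
      rfl
    have h0 : (m.map fun r => g x - placeHom r).prod = 0 := by
      have h := congrArg (fun f => (f.map placeHom).eval (g x)) hfac
      simp only [Polynomial.map_map, Polynomial.map_multiset_prod, Multiset.map_map,
        Polynomial.eval_multiset_prod] at h
      rw [Subsingleton.elim (placeHom.comp (algebraMap ℤ Zbar)) (g.comp (algebraMap ℤ Zbar)),
        ← Polynomial.map_map, Polynomial.eval_map_apply, Polynomial.eval_map, hpx, map_zero] at h
      rw [h]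
      refine congrArg Multiset.prod (Multiset.map_congr rfl fun r _ => ?_)
      simp
    rw [Multiset.prod_eq_zero_iff, Multiset.mem_map] at h0
    obtain ⟨r, -, hr⟩ := h0
    exact ⟨r, (sub_eq_zero.mp hr).symm⟩
  choose σ hσ using hmem
  exact ⟨
    { toFun := σ
      map_one' := placeHom_injective (by rw [hσ, map_one, map_one])
      map_mul' := fun x y => placeHom_injective (by rw [map_mul, hσ, hσ, hσ, map_mul])
      map_zero' := placeHom_injective (by rw [hσ, map_zero, map_zero])
      map_add' := fun x y => placeHom_injective (by rw [map_add, hσ, hσ, hσ, map_add]) },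
    RingHom.ext hσ⟩

/-- A finitely generated ring of algebraic integers lands in a discrete valuation ring. -/
theorem exists_placeRing (R : Subring Zbar) (F : Finset Zbar)
    (hF : R ≤ Subring.closure (F : Set Zbar)) :
    ∃ (O : Type) (_ : CommRing O) (_ : IsDomain O) (_ : IsDiscreteValuationRing O)
      (_ : IsAdicComplete (maximalIdeal O) O) (_ : Finite (ResidueField O)) (_ : CharZero O)
      (_ : Algebra ℤ_[2] O) (_ : Module.Finite ℤ_[2] O) (i : O →ₐ[ℤ_[2]] Int2) (ι : R →+* O),
      Function.Injective i ∧ (2 : O) ∈ maximalIdeal O ∧ (∀ x : R, i (ι x) = placeInt x) ∧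
        ∀ y : O, y ∈ maximalIdeal O ↔ i y ∈ int2Ideal := by
  classical
  let K := FractionRing ℤ_[2]
  let E : IntermediateField K Omega2 := IntermediateField.adjoin K (placeHom '' (F : Set Zbar))
  have : Finite (placeHom '' (F : Set Zbar)) := (F.finite_toSet.image _).to_subtype
  have : FiniteDimensional K E := IntermediateField.finiteDimensional_adjoin fun x hx => by
    obtain ⟨y, -, rfl⟩ := hx
    exact (isIntegral_ringHom placeHom y).tower_top
  have : IsScalarTower ℤ_[2] E Omega2 := IsScalarTower.of_algebraMap_eq fun x => by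
    rw [IsScalarTower.algebraMap_apply ℤ_[2] K E, IsScalarTower.algebraMap_apply ℤ_[2] K Omega2]
    rfl
  obtain ⟨hfin, hdvr, -, hinj, hchar⟩ := GalRep.integralClosure_properties ℤ_[2] E
  have : IsLocalHom (algebraMap ℤ_[2] (integralClosure ℤ_[2] E)) :=
    GalRep.isLocalHom_of_finite (R := ℤ_[2]) _ hinj
  have : IsAdicComplete (maximalIdeal (integralClosure ℤ_[2] E)) (integralClosure ℤ_[2] E) :=
    IsLocalRing.isAdicComplete_of_module_finite (𝒪 := ℤ_[2])
  have : Finite (ResidueField ℤ_[2]) :=
    Finite.of_equiv (ZMod 2) PadicInt.residueField.symm.toEquiv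
  have : Finite (ResidueField (integralClosure ℤ_[2] E)) :=
    GalRep.finite_residueField (R := ℤ_[2]) _
  let i : integralClosure ℤ_[2] E →ₐ[ℤ_[2]] Int2 :=
    ((IsScalarTower.toAlgHom ℤ_[2] E Omega2).comp (integralClosure ℤ_[2] E).val).codRestrict _
      fun y => y.2.map (IsScalarTower.toAlgHom ℤ_[2] E Omega2)
  have hi : Function.Injective i := fun x y h =>
    Subtype.ext (Subtype.ext (congrArg (fun z : Int2 => (z : Omega2)) h))
  have hmemE : ∀ x : R, placeHom x ∈ E := fun x => by
    suffices ∀ y ∈ Subring.closure (F : Set Zbar), placeHom y ∈ E from this _ (hF x.2)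
    intro y h
    induction h using Subring.closure_induction with
    | mem z hz => exact IntermediateField.subset_adjoin _ _ ⟨z, hz, rfl⟩
    | zero => simp
    | one => simp
    | add a b _ _ ha hb => simpa using add_mem ha hb
    | neg a _ ha => simpa using neg_mem ha
    | mul a b _ _ ha hb => simpa using mul_mem ha hb
  let ιE : R →+* E := (placeHom.comp R.subtype).codRestrict E.toSubring hmemE
  let ι : R →+* integralClosure ℤ_[2] E := ιE.codRestrict (integralClosure ℤ_[2] E).toSubring
    fun x => (isIntegral_algHom_iff (IsScalarTower.toAlgHom ℤ_[2] E Omega2)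
      Subtype.val_injective).mp (isIntegral_ringHom placeHom x)
  have h2 : (2 : integralClosure ℤ_[2] E) ∈ maximalIdeal (integralClosure ℤ_[2] E) := by
    rw [← map_ofNat (algebraMap ℤ_[2] (integralClosure ℤ_[2] E)) 2]
    refine map_nonunit _ _ ?_
    rw [PadicInt.maximalIdeal_eq_span_p]
    exact Ideal.mem_span_singleton_self _
  have : (int2Ideal.comap i).IsPrime := Ideal.IsPrime.comap i
  have := Algebra.IsIntegral.of_finite ℤ_[2] (integralClosure ℤ_[2] E)
  have hmax := GalRep.eq_maximalIdeal_of_mem 2 (int2Ideal.comap i)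
    (by rw [Ideal.mem_comap, map_natCast]; exact two_mem_int2Ideal)
  refine ⟨integralClosure ℤ_[2] E, inferInstance, inferInstance, hdvr, inferInstance, inferInstance,
    hchar, inferInstance, hfin, i, ι, hi, h2, fun x => rfl, fun y => ?_⟩
  rw [← hmax, Ideal.mem_comap]

end Fermat.Agent.Root
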