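import Fermat.Agent.AttachedLocal.Coords
import Fermat.Agent.Root.GenusPadic
import Fermat.Agent.Root.GenusResidualProps
import Fermat.Agent.Root.Attached
import Fermat.Agent.Density.BrauerNesbitt

/-!
# The representation at a point congruent to a genus curve

An eigenform congruent to `W` modulo the chosen place has an attached representation over a finite
extension of `ℤ₂` whose reduction is `E[2]`.
-/

set_option autoImplicit false

noncomputable section

open IsLocalRing Polynomial WeierstrassCurve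

namespace Fermat.Agent.Root

open Fermat.Agent.Deformation

local notation "ℚbar" => AlgebraicClosure ℚ
local notation "Γ" => AlgebraicClosure ℚ ≃ₐ[ℚ] AlgebraicClosure ℚ
local notation "Zbar" => integralClosure ℤ ℂ

/-- A residual representation from matrices of finite level. -/
def residualOfMatrix {k : Type} [Field k] (M : GQ →* M2 k)
    (hM : ∃ L : IntermediateField ℚ ℚbar, FiniteDimensional ℚ L ∧
      ∀ σ : Γ, (∀ x ∈ L, σ x = x) → M σ = 1) : ResidualGaloisRep k where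
  V := Fin 2 → k
  finrank_eq := Module.finrank_fin_fun k
  ρ := (Matrix.toLinAlgEquiv' : M2 k ≃ₐ[k] Module.End k (Fin 2 → k)).toMulEquiv.toMonoidHom.comp M
  factorsThroughFiniteLevel := by
    obtain ⟨L, hL, h⟩ := hM
    refine ⟨L, hL, fun σ hσ => ?_⟩
    simp [h σ hσ]

theorem isResMatrixRep_residualOfMatrix {k : Type} [Field k] (M : GQ →* M2 k)
    (hM : ∃ L : IntermediateField ℚ ℚbar, FiniteDimensional ℚ L ∧
      ∀ σ : Γ, (∀ x ∈ L, σ x = x) → M σ = 1) :
    IsResMatrixRep (residualOfMatrix M hM) M :=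
  ⟨Pi.basisFun k (Fin 2), fun σ => by
    change LinearMap.toMatrix (Pi.basisFun k (Fin 2)) (Pi.basisFun k (Fin 2))
      (Matrix.toLin' (M σ)) = M σ
    rw [LinearMap.toMatrix_eq_toMatrix', LinearMap.toMatrix'_toLin']⟩

/-- Trace and determinant from the characteristic polynomial. -/
theorem trace_det_of_charpoly {O : Type} [CommRing O] [Nontrivial O] {N : M2 O} {t d : O}
    (h : N.charpoly = X ^ 2 - C t * X + C d) : N.trace = t ∧ N.det = d := by
  rw [Matrix.charpoly_fin_two] at h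
  constructor
  · have h1 := congrArg (fun q : O[X] => q.coeff 1) h
    simp [coeff_X_pow, coeff_C] at h1
    exact h1
  · have h0 := congrArg (fun q : O[X] => q.coeff 0) h
    simpa [coeff_X_pow] using h0

theorem areConj_symm' {A : Type} [CommRing A] {M N : GQ →* M2 A} (h : AreConj M N) :
    AreConj N M :=
  GalRep.areConj_symm h

variable {W : WeierstrassCurve ℤ}

/-- **The representation at a point.** -/
theorem exists_pointRep (hW : GenusCurve W) (D : ResidualMatrix W) {M : ℕ} [NeZero M]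
    (g : CuspForm (CongruenceSubgroup.Gamma0 M) 2) (hg : g.IsNormalizedEigenform)
    (a : ℕ → Zbar) (ha : ∀ n, (a n : ℂ) = ModularFormClass.qCoeff g n)
    (R : Subring Zbar) (hR : ∀ n, a n ∈ R)
    {O₀ : Type} [CommRing O₀] [IsDomain O₀] [IsDiscreteValuationRing O₀]
    [IsAdicComplete (maximalIdeal O₀) O₀] [Finite (ResidueField O₀)] [CharZero O₀]
    [Algebra ℤ_[2] O₀] (i : O₀ →ₐ[ℤ_[2]] Int2) (ι : R →+* O₀)
    (h2 : (2 : O₀) ∈ maximalIdeal O₀) (hι : ∀ x : R, i (ι x) = placeInt x)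
    (hmax : ∀ y : O₀, y ∈ maximalIdeal O₀ ↔ i y ∈ int2Ideal)
    (S : Finset ℕ) (hcongr : ∀ ℓ : ℕ, ℓ.Prime → W.IsGoodPrimeFor ℓ → ℓ ∉ S → ℓ ≠ 2 →
      ¬ ℓ ∣ M ∧ a ℓ - ((W.apOfModel ℓ : ℤ) : Zbar) ∈ placeIdeal) :
    ∃ (O : Type) (_ : CommRing O) (_ : IsDomain O) (_ : IsDiscreteValuationRing O)
      (_ : IsAdicComplete (maximalIdeal O) O) (_ : Finite (ResidueField O)) (_ : CharZero O)
      (_ : Algebra ℤ_[2] O) (_ : Module.Finite ℤ_[2] O) (_ : IsLocalHom (algebraMap ℤ_[2] O))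
      (j : O₀ →ₐ[ℤ_[2]] O), Function.Injective j ∧
      ∃ N : GQ →* M2 O, MatCont N ∧
        AreConj (mapRep (residue O) N)
          (mapRep (ResidueField.map (algebraMap ℤ_[2] O)) (mapRep residueTwo D.M)) ∧
        (∀ ℓ : ℕ, ℓ.Prime → ¬ ℓ ∣ M * 2 → ∀ A : ValuationSubring ℚbar, A.LiesOverPrime ℓ →
          (∀ σ ∈ A.inertiaSubgroupIn ℚ, N σ = 1) ∧
          ∀ σ : Γ, A.IsFrobeniusAt σ ℓ →
            (N σ).trace = j (ι ⟨a ℓ, hR ℓ⟩) ∧ (N σ).det = (ℓ : O)) ∧
        ∀ q : ℕ, q.Prime → q ∣ M → ¬ q ^ 2 ∣ M → a q ^ 2 = 1 →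
          ∀ A : ValuationSubring ℚbar, A.LiesOverPrime q →
            ∃ s : A.decompositionSubgroup ℚ →* O,
              (∀ g, s g * s g = 1) ∧
              (∀ g : A.decompositionSubgroup ℚ, (g : Γ) ∈ A.inertiaSubgroupIn ℚ → s g = 1) ∧
              (∀ g : A.decompositionSubgroup ℚ, A.IsFrobeniusAt (g : Γ) q →
                s g = j (ι ⟨a q, hR q⟩)) ∧
              ∀ g h : A.decompositionSubgroup ℚ,
                (N g - ((N g).det * s g) • (1 : M2 O)) * (N h - s h • (1 : M2 O)) = 0 := by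
  have hle : Subring.closure (Set.range a) ≤ R :=
    Subring.closure_le.mpr (Set.range_subset_iff.mpr hR)
  obtain ⟨O, _, _, _, _, _, _, j, hj, hjloc, ρ, -, hρgood, hρloc⟩ :=
    exists_attached M g hg a ha 2 O₀ h2 (ι.comp (Subring.inclusion hle))
  let _ : Algebra ℤ_[2] O := (j.comp (algebraMap ℤ_[2] O₀)).toAlgebra
  let jA : O₀ →ₐ[ℤ_[2]] O := { j with commutes' := fun _ => rfl }
  have h2O : (2 : O) ∈ maximalIdeal O := by
    rw [← map_ofNat j 2]; exact map_nonunit j _ h2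
  have : Module.Finite ℤ_[2] O :=
    AttachedLocal.moduleFinite_padicInt 2 O (by exact_mod_cast h2O)
  have : IsLocalHom (algebraMap ℤ_[2] O) := GalRep.isLocalHom_of_finite (R := ℤ_[2]) _ (by
    have : (algebraMap ℤ_[2] O) = j.comp (algebraMap ℤ_[2] O₀) := rfl
    rw [this, RingHom.coe_comp]
    refine hj.comp ((injective_iff_map_eq_zero _).mpr fun x hx => ?_)
    by_contra hx0
    rw [PadicInt.unitCoeff_spec hx0, map_mul, map_pow, map_natCast] at hx
    rcases mul_eq_zero.mp hx with h | h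
    · exact not_isUnit_zero (h ▸ (PadicInt.unitCoeff hx0).isUnit.map (algebraMap ℤ_[2] O₀))
    · exact two_ne_zero (α := O₀) (by exact_mod_cast eq_zero_of_pow_eq_zero h))
  obtain ⟨b, hb⟩ : ∃ b : Module.Basis (Fin 2) O ρ.V, True :=
    ⟨Module.finBasisOfFinrankEq O ρ.V ρ.finrank_eq, trivial⟩
  let N : GQ →* M2 O := (LinearMap.toMatrixAlgEquiv b).toMulEquiv.toMonoidHom.comp ρ.ρ
  have hN : IsMatrixRep ρ N := ⟨b, fun _ => rfl⟩
  have hfrob : ∀ ℓ : ℕ, ℓ.Prime → ¬ ℓ ∣ M * 2 → ∀ A : ValuationSubring ℚbar, A.LiesOverPrime ℓ →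
      (∀ σ ∈ A.inertiaSubgroupIn ℚ, N σ = 1) ∧
      ∀ σ : Γ, A.IsFrobeniusAt σ ℓ →
        (N σ).trace = jA (ι ⟨a ℓ, hR ℓ⟩) ∧ (N σ).det = (ℓ : O) := by
    intro ℓ hℓ hℓM A hA
    obtain ⟨h1, h3⟩ := hρgood ℓ hℓ hℓM A hA
    refine ⟨fun σ hσ => ?_, fun σ hσ => trace_det_of_charpoly ?_⟩
    · change LinearMap.toMatrixAlgEquiv b (ρ.ρ σ) = 1
      rw [h1 σ hσ, map_one]
    · change (LinearMap.toMatrix b b (ρ.ρ σ)).charpoly = _
      rw [LinearMap.charpoly_toMatrix, h3 σ hσ]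
      rfl
  refine ⟨O, inferInstance, inferInstance, inferInstance, inferInstance, inferInstance,
    inferInstance, inferInstance, inferInstance, inferInstance, jA, hj, N, hN.matCont, ?_, hfrob,
    fun q hq hqM hqM2 haq A hA => ?_⟩
  · obtain ⟨L, hL, hL1⟩ := D.torsion.finiteLevel hW.neg.ne two_ne_zero
    let κ : ZMod 2 →+* ResidueField O :=
      (ResidueField.map (algebraMap ℤ_[2] O)).comp residueTwo
    have hlev : ∃ L : IntermediateField ℚ ℚbar, FiniteDimensional ℚ L ∧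
        ∀ σ : Γ, (∀ x ∈ L, σ x = x) → mapRep κ D.M σ = 1 :=
      ⟨L, hL, fun σ hσ => by rw [mapRep_apply, hL1 σ hσ, Matrix.map_one _ (map_zero κ) (map_one κ)]⟩
    obtain ⟨R₂, c, hR₂, -, hspan⟩ := D.exists_rigidData
    have hab : (residualOfMatrix _ hlev).IsAbsolutelyIrreducible :=
      GalRep.isAbsolutelyIrreducible_of_span (isResMatrixRep_residualOfMatrix _ hlev) (by
        have := GalRep.span_map_eq_top (ResidueField.map (algebraMap ℤ_[2] O)) hspan
        rwa [hR₂, mapRep_comp] at this)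
    rw [mapRep_comp]
    refine areConj_symm' ((isResEquiv_iff_areConj (isResMatrixRep_residualOfMatrix _ hlev)
      hN.residual).mp (Density.residual_isEquiv_of_forall_frobenius _ ρ.residual hab
        (↑(insert 2 S ∪ W.Δ.natAbs.primeFactors) : Set ℕ) (Finset.finite_toSet _)
        fun ℓ hℓ hℓS A hA σ hσ => ?_))
    simp only [Finset.coe_union, Finset.coe_insert, Set.mem_union, Set.mem_insert_iff,
      Finset.mem_coe, Nat.mem_primeFactors, not_or] at hℓS
    obtain ⟨⟨hℓ2, hℓS⟩, hℓΔ⟩ := hℓS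
    have hgood : W.IsGoodPrimeFor ℓ := fun h => hℓΔ
      ⟨hℓ, Int.natCast_dvd.mp h, Int.natAbs_ne_zero.mpr hW.neg.ne⟩
    obtain ⟨hℓM, hcg⟩ := hcongr ℓ hℓ hgood hℓS hℓ2
    have hℓM2 : ¬ ℓ ∣ M * 2 := fun h => (hℓ.dvd_mul.mp h).elim hℓM
      fun h' => hℓ2 ((Nat.prime_dvd_prime_iff_eq hℓ Nat.prime_two).mp h')
    obtain ⟨-, hFr⟩ := hfrob ℓ hℓ hℓM2 A hA
    obtain ⟨htr, hdet⟩ := hFr σ hσ
    obtain ⟨-, htrM⟩ := D.torsion.frobenius_two hℓ hgood hℓ2 hA
    obtain ⟨b₀, hb₀⟩ := isResMatrixRep_residualOfMatrix _ hlev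
    obtain ⟨b₁, hb₁⟩ := hN.residual
    rw [← LinearMap.charpoly_toMatrix _ b₀, ← LinearMap.charpoly_toMatrix _ b₁, hb₀, hb₁,
      mapRep_apply, mapRep_apply, Matrix.charpoly_map, Matrix.charpoly_map,
      Matrix.charpoly_fin_two, Matrix.charpoly_fin_two, htr, hdet, htrM σ hσ, D.det_eq]
    simp only [Polynomial.map_add, Polynomial.map_sub, Polynomial.map_mul, Polynomial.map_pow,
      Polynomial.map_X, Polynomial.map_C, map_intCast, map_one]
    have hodd : residue O (ℓ : O) = 1 := by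
      rw [← map_one (residue O), ← sub_eq_zero, ← map_sub, residue_eq_zero_iff]
      obtain ⟨k, hk⟩ := hℓ.odd_of_ne_two hℓ2
      rw [hk]
      push_cast
      rw [add_sub_cancel_right]
      exact Ideal.mul_mem_right _ _ h2O
    have hres : residue O (jA (ι ⟨a ℓ, hR ℓ⟩)) = ((W.apOfModel ℓ : ℤ) : ResidueField O) := by
      rw [← sub_eq_zero, ← map_intCast (residue O), ← map_sub, residue_eq_zero_iff,
        ← map_intCast jA, ← map_sub]
      refine map_nonunit j _ ((hmax _).mpr ?_)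
      rw [map_sub, map_intCast, hι, ← map_intCast placeInt, ← map_sub]
      exact hcg
    rw [hres, hodd, map_one]
    simp
  · obtain ⟨s, h1, h3, h4, h5⟩ := hρloc q hq hqM hqM2 haq A hA
    refine ⟨s, h1, h3, h4, fun g h => ?_⟩
    have e := congrArg (LinearMap.toMatrixAlgEquiv b) (h5 g h)
    rw [map_mul, map_sub, map_sub, map_smul, map_smul, map_one, map_zero,
      ← LinearMap.det_toMatrix b] at e
    exact e

end Fermat.Agent.Root
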