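import Fermat.Agent.Root.Defs
import Fermat.Agent.Root.Mazur
import Fermat.Agent.Root.Patched.Family
import Fermat.Agent.Root.Patched.LoweringExists
import Fermat.Agent.Root.Patched.LiftingSystem
import Fermat.Agent.Root.Patched.TowerTowers
import Fermat.Agent.Root.Patched.TowerLifting
import Fermat.Agent.Root.Patched.ResidualExists

/-!
# The two consequences of patching with Ihara avoidance

The commutative algebra is done in `Root/Patched/Family.lean`.  The lifting family comes from the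
local system of `Patched/LiftingSystem.lean`, the auxiliary primes and a tower of Hecke modules; the
lowering family is in `Patched/LoweringExists.lean`.
-/

set_option autoImplicit false

namespace Fermat.Agent.Root

/-- Remove all removable primes outside the range of Ihara avoidance. -/
theorem exists_minimal (W : WeierstrassCurve ℤ) (hW : Semistable W) (p : ℕ) (hp : p.Prime)
    (hp2 : p ≠ 2) (hirr : W.ModRepIsIrreducible p) :
    ∀ M : ℕ, Squarefree M → ResNewform p W M → ∃ M' : ℕ, M' ∣ M ∧ ResNewform p W M' ∧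
      ∀ q : ℕ, q.Prime → q ∣ M' → q ≠ p → (q % p = 1 ∧ FrobScalarMod p W q) ∨
        ¬ UnramifiedMod p W q := by
  intro M
  induction M using Nat.strong_induction_on with
  | _ M ih =>
    intro hM h
    by_cases hall : ∀ q : ℕ, q.Prime → q ∣ M → q ≠ p → (q % p = 1 ∧ FrobScalarMod p W q) ∨
        ¬ UnramifiedMod p W q
    · exact ⟨M, dvd_rfl, h, hall⟩
    · push Not at hall
      obtain ⟨q, hq, hqM, hqp, hq1, hunr⟩ := hall
      obtain ⟨M₁, hd, h₁⟩ := mazur_lowering W hW p M q hp hp2 hirr hM hq hqM hqp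
        (Classical.or_iff_not_imp_left.mpr fun h1 => hq1 (not_not.mp h1)) hunr h
      have hd' : M₁ ∣ M := hd.trans (Nat.div_dvd_of_dvd hqM)
      have hlt : M₁ < M :=
        lt_of_le_of_lt (Nat.le_of_dvd (Nat.div_pos (Nat.le_of_dvd (Nat.pos_of_ne_zero hM.ne_zero)
          hqM) hq.pos) hd) (Nat.div_lt_self (Nat.pos_of_ne_zero hM.ne_zero) hq.one_lt)
      obtain ⟨M₂, hd₂, h₂, hall₂⟩ := ih M₁ hlt (hM.squarefree_of_dvd hd') h₁
      exact ⟨M₂, hd₂.trans hd', h₂, hall₂⟩

/-- The lifting family when the residual level has the type of `W`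
at `p` as far as possible. -/
theorem exists_liftingFamily_of_new (W : WeierstrassCurve ℤ) (hW : Semistable W) (p M : ℕ)
    (hp : p.Prime) (hp2 : p ≠ 2) (hirr : W.ModRepIsIrreducible p)
    (hadj : AdjointIrreducible p W) (hM : Squarefree M) (h : ResNewform p W M)
    (hpM : p ∣ M → (p : ℤ) ∣ W.Δ)
    (hmin : ∀ q : ℕ, q.Prime → q ∣ M → q ≠ p → (q % p = 1 ∧ FrobScalarMod p W q) ∨
        ¬ UnramifiedMod p W q)
    (hnew : p ∣ M → ∀ M₁, Squarefree M₁ → ResNewform p W M₁ → p ∣ M₁) :
    Nonempty (Patched.LiftingFamily (W.IsModularModelOfLevel W.conductorLevel)) := by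
  have : Fact p.Prime := ⟨hp⟩
  obtain ⟨O, _, _, _, _, _, _, ⟨D⟩⟩ := Patched.exists_residualData W hW p hp2
  obtain ⟨Sys, St, N, hN, hpt, havoid, hbad, hflip, hout, hsq⟩ :=
    Patched.exists_liftingSystem hp2 hW hirr D hadj M hM h hpM hmin hnew
  obtain ⟨Qs, hQs⟩ := Patched.exists_twPrimes_frameMaps hp2 hadj D Sys St.exists_p hout
  obtain ⟨T, hTr, hTQ, w, hw, hwflip, hgoal⟩ :=
    Patched.exists_tower_lifting hp2 hW hirr D Sys St N hN Qs hpt havoid hbad hflip
  obtain ⟨ϖ, hϖ⟩ := IsDiscreteValuationRing.exists_irreducible O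
  obtain ⟨hr, ⟨Φ⟩⟩ := hQs T hTr hTQ ϖ hϖ
  exact Patched.Tower.nonempty_liftingFamily Φ hr w hw hwflip fun hI =>
    Patched.modular_conductor_of_squarefree W hW hsq (hgoal hI)

/-- Second layer: a residual level old at `p` is replaced by a minimal one prime to `p`. -/
theorem exists_liftingFamily (W : WeierstrassCurve ℤ) (hW : Semistable W) (p M : ℕ)
    (hp : p.Prime) (hp2 : p ≠ 2) (hirr : W.ModRepIsIrreducible p)
    (hadj : AdjointIrreducible p W) (hM : Squarefree M) (h : ResNewform p W M)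
    (hpM : p ∣ M → (p : ℤ) ∣ W.Δ)
    (hmin : ∀ q : ℕ, q.Prime → q ∣ M → q ≠ p → (q % p = 1 ∧ FrobScalarMod p W q) ∨
        ¬ UnramifiedMod p W q) :
    Nonempty (Patched.LiftingFamily (W.IsModularModelOfLevel W.conductorLevel)) := by
  by_cases hnew : p ∣ M → ∀ M₁, Squarefree M₁ → ResNewform p W M₁ → p ∣ M₁
  · exact exists_liftingFamily_of_new W hW p M hp hp2 hirr hadj hM h hpM hmin hnew
  push Not at hnew
  obtain ⟨-, M₁, hsq₁, h₁, hp₁⟩ := hnew
  obtain ⟨M₂, hd, h', hall⟩ := exists_minimal W hW p hp hp2 hirr M₁ hsq₁ h₁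
  exact exists_liftingFamily_of_new W hW p M₂ hp hp2 hirr hadj (hsq₁.squarefree_of_dvd hd) h'
    (fun hpd => absurd (hpd.trans hd) hp₁) hall (fun hpd => absurd (hpd.trans hd) hp₁)

/-- Patching: a residual newform all of whose removable primes are `≡ 1 (mod p)` and have scalar
residual Frobenius gives modularity (Ihara avoidance there, Ihara raising at the primes of `W`,
and at `p` when `W` is bad at `p`). -/
theorem modular_of_resNewform (W : WeierstrassCurve ℤ) (hW : Semistable W) (p M : ℕ)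
    (hp : p.Prime) (hp2 : p ≠ 2) (hirr : W.ModRepIsIrreducible p)
    (hadj : AdjointIrreducible p W) (hM : Squarefree M) (h : ResNewform p W M)
    (hpM : p ∣ M → (p : ℤ) ∣ W.Δ)
    (hmin : ∀ q : ℕ, q.Prime → q ∣ M → q ≠ p → (q % p = 1 ∧ FrobScalarMod p W q) ∨
        ¬ UnramifiedMod p W q) :
    W.IsModularModelOfLevel W.conductorLevel :=
  (exists_liftingFamily W hW p M hp hp2 hirr hadj hM h hpM hmin).some.conclusion

/-- Patching: level lowering at `q ≡ 1 (mod p)`. -/
theorem lowering_one_mod (W : WeierstrassCurve ℤ) (hW : Semistable W) (p M q : ℕ)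
    (hp : p.Prime) (hp2 : p ≠ 2) (hirr : W.ModRepIsIrreducible p)
    (hadj : AdjointIrreducible p W) (hM : Squarefree M) (hq : q.Prime) (hqM : q ∣ M)
    (hq1 : q % p = 1) (_hscal : FrobScalarMod p W q) (hpM : p ∣ M → (p : ℤ) ∣ W.Δ)
    (hunr : UnramifiedMod p W q)
    (h : ResNewform p W M) :
    ∃ M' : ℕ, M' ∣ M / q ∧ ResNewform p W M' := by
  obtain ⟨M₁, hd, h₁, hmin⟩ := exists_minimal W hW p hp hp2 hirr M hM h
  by_cases hq₁ : q ∣ M₁
  · have hqp : q ≠ p := fun e => by rw [e, Nat.mod_self] at hq1; exact absurd hq1 (by omega)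
    obtain ⟨M', hd', h'⟩ := Patched.exists_lower_level W hW p q hp hp2 hirr hadj hq hqp hunr M₁
      (hM.squarefree_of_dvd hd) hq₁ (fun hpd => hpM (hpd.trans hd)) hmin h₁
    exact ⟨M', hd'.trans (Nat.div_dvd_div hq₁ hd), h'⟩
  · refine ⟨M₁, ?_, h₁⟩
    have hcop : Nat.Coprime M₁ q := (hq.coprime_iff_not_dvd.mpr hq₁).symm
    exact hcop.dvd_of_dvd_mul_right ((Nat.div_mul_cancel hqM).symm ▸ hd)

end Fermat.Agent.Root
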