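import Fermat.Agent.Root.Irreducible
import Fermat.Agent.Root.Residual
import Fermat.Agent.Root.Mazur
import Fermat.Agent.Root.Patched

/-!
# Modularity lifting and level lowering assembled

Modularity lifting at an odd prime (`lifting`), level lowering away from `p` (`lowering`) and
lowering to a minimal level (`exists_minimal_level`).
-/

set_option autoImplicit false

namespace Fermat.Agent.Root

/-- **Modularity lifting** at an odd prime from a congruent modular curve of the same type at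
`p`. -/
theorem lifting (W W₀ : WeierstrassCurve ℤ) (hW : Semistable W) (hW₀ : Semistable W₀) (p : ℕ)
    (hp : p.Prime) (hp2 : p ≠ 2) (hirr : W.ModRepIsIrreducible p)
    (hadj : AdjointIrreducible p W) (hcong : CongrMod p W W₀)
    (htype : (p : ℤ) ∣ W.Δ ↔ (p : ℤ) ∣ W₀.Δ)
    (hmod : W₀.IsModularModelOfLevel W₀.conductorLevel) :
    W.IsModularModelOfLevel W.conductorLevel := by
  obtain ⟨M, hMd, h⟩ := resNewform_of_modular W W₀ hW hW₀ p hp hp2 hirr hcong htype hmod
  have hsq : Squarefree M := (W₀.squarefree_conductorLevel).squarefree_of_dvd hMd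
  obtain ⟨M', hd, h', hall⟩ := exists_minimal W hW p hp hp2 hirr M hsq h
  refine modular_of_resNewform W hW p M' hp hp2 hirr hadj (hsq.squarefree_of_dvd hd) h' ?_ hall
  intro hpM
  exact htype.mpr ((W₀.prime_dvd_conductorLevel_iff hW₀.ne hp).mp (hpM.trans (hd.trans hMd)))

/-- **Level lowering** away from `p`. -/
theorem lowering (W : WeierstrassCurve ℤ) (hW : Semistable W) (p M q : ℕ) (hp : p.Prime)
    (hp2 : p ≠ 2) (hirr : W.ModRepIsIrreducible p) (hM : Squarefree M) (hq : q.Prime)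
    (hqM : q ∣ M) (hqp : q ≠ p) (hpM : p ∣ M → (p : ℤ) ∣ W.Δ) (hunr : UnramifiedMod p W q)
    (h : ResNewform p W M) : ∃ M' : ℕ, M' ∣ M / q ∧ ResNewform p W M' := by
  by_cases hq1 : q % p = 1 ∧ FrobScalarMod p W q
  · exact lowering_one_mod W hW p M q hp hp2 hirr
      (adjointIrreducible_of_irreducible W hW p hp hp2 hirr) hM hq hqM hq1.1 hq1.2 hpM hunr h
  · exact mazur_lowering W hW p M q hp hp2 hirr hM hq hqM hqp (not_and_or.mp hq1) hunr h

/-- **Lowering to a minimal level**: away from `p` only ramified primes remain. -/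
theorem exists_minimal_level (W : WeierstrassCurve ℤ) (hW : Semistable W) (p : ℕ) (hp : p.Prime)
    (hp2 : p ≠ 2) (hirr : W.ModRepIsIrreducible p) :
    ∀ M : ℕ, Squarefree M → (p ∣ M → (p : ℤ) ∣ W.Δ) → ResNewform p W M →
      ∃ M' : ℕ, M' ∣ M ∧ ResNewform p W M' ∧
        ∀ q : ℕ, q.Prime → q ∣ M' → q ≠ p → ¬ UnramifiedMod p W q := by
  intro M
  induction M using Nat.strong_induction_on with
  | _ M ih =>
    intro hM hpM h
    by_cases hall : ∀ q : ℕ, q.Prime → q ∣ M → q ≠ p → ¬ UnramifiedMod p W q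
    · exact ⟨M, dvd_rfl, h, hall⟩
    push Not at hall
    obtain ⟨q, hq, hqM, hqp, hunr⟩ := hall
    obtain ⟨M₁, hd, h₁⟩ := lowering W hW p M q hp hp2 hirr hM hq hqM hqp hpM hunr h
    have hd' : M₁ ∣ M := hd.trans (Nat.div_dvd_of_dvd hqM)
    have hlt : M₁ < M :=
      lt_of_le_of_lt (Nat.le_of_dvd (Nat.div_pos (Nat.le_of_dvd (Nat.pos_of_ne_zero hM.ne_zero)
        hqM) hq.pos) hd) (Nat.div_lt_self (Nat.pos_of_ne_zero hM.ne_zero) hq.one_lt)
    obtain ⟨M', hd'', h', hall'⟩ :=
      ih M₁ hlt (hM.squarefree_of_dvd hd') (fun hpd => hpM (hpd.trans hd')) h₁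
    exact ⟨M', hd''.trans hd', h', hall'⟩

end Fermat.Agent.Root
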