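import Fermat.Agent.Root.Defs
import Fermat.Agent.SwitchThree.Root
import Fermat.Agent.SwitchFive.Main

/-!
# The two switches

The `3–5` switch (`exists_switch_five`) and the switch at `3` to a genus curve
(`exists_switch_three`).
-/

set_option autoImplicit false

namespace Fermat.Agent.Root

/-- The `3–5` switch: `W'` has congruent mod 5 representation, irreducible mod 3 representation
containing a transvection at `2`, and the same type as `W` at `5` and at `3`. -/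
theorem exists_switch_five (W : WeierstrassCurve ℤ) (hW : Semistable W) (h2 : (2 : ℤ) ∣ W.Δ)
    (_h5 : W.ModRepIsIrreducible 5) :
    ∃ W' : WeierstrassCurve ℤ, Semistable W' ∧ (2 : ℤ) ∣ W'.Δ ∧ ¬ 3 ∣ padicValInt 2 W'.Δ ∧
      W'.ModRepIsIrreducible 3 ∧ CongrMod 5 W W' ∧ ((5 : ℤ) ∣ W.Δ ↔ (5 : ℤ) ∣ W'.Δ) ∧
      ((3 : ℤ) ∣ W.Δ ↔ (3 : ℤ) ∣ W'.Δ) := by
  obtain ⟨W', hne, hss, h2', h3', hirr, hC, h5', h3''⟩ :=
    SwitchFive.exists_twoFlip W hW.ne hW.ss h2
  exact ⟨W', ⟨hne, hss⟩, h2', h3', hirr, hC, h5', h3''⟩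

/-- The switch at 3 to a curve to which genus theory applies. -/
theorem exists_switch_three (W : WeierstrassCurve ℤ) (hW : Semistable W) (h2 : (2 : ℤ) ∣ W.Δ)
    (_h3 : W.ModRepIsIrreducible 3) :
    ∃ W' : WeierstrassCurve ℤ, GenusCurve W' ∧ CongrMod 3 W W' ∧
      ((3 : ℤ) ∣ W.Δ ↔ (3 : ℤ) ∣ W'.Δ) :=
  SwitchThree.exists_genusCurve W hW h2

end Fermat.Agent.Root
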