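import Fermat.Agent.Root.Defs

/-!
# Points of an affine Weierstrass curve as optional solutions

`pointEquivSolutions` identifies the points with `none` and the solutions of the equation.
-/

set_option autoImplicit false

noncomputable section

open WeierstrassCurve

namespace Fermat.Agent.Root

/-- Points as optional solutions. -/
def pointEquivSolutions {R : Type} [CommRing R] (E : WeierstrassCurve.Affine R) :
    E.Point ≃ Option {q : R × R // E.Nonsingular q.1 q.2} where
  toFun
    | .zero => none
    | .some x y h => some ⟨(x, y), h⟩
  invFun
    | none => .zero
    | some q => .some q.1.1 q.1.2 q.2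
  left_inv P := by cases P <;> rfl
  right_inv q := by rcases q with _ | ⟨⟨x, y⟩, h⟩ <;> rfl

end Fermat.Agent.Root
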