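import Fermat.Agent.Root.Genus
import Fermat.Agent.Root.Lifting
import Fermat.Agent.Root.Switch
import Fermat.Agent.SwitchGen.Main

/-!
# Residual modularity modulo 3 of semistable curves (the statement of S50)

If `W` is bad at 2 or `a₂ = 0` one switch at 3 reaches a genus curve.  Otherwise a switch at 3
followed by a switch at 5 reaches `W''`, modular by lifting at 3 from a genus curve; lifting at 5
makes the intermediate curve modular.
-/

set_option autoImplicit false

noncomputable section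

open WeierstrassCurve WeierstrassCurve.Affine.Point
open scoped WeierstrassCurve.Affine

namespace Fermat.Agent.Root

/-- A modular model with the same mod 3 representation at squarefree level. -/
theorem exists_modular_congr3 (W : WeierstrassCurve ℤ) (hΔ : W.Δ ≠ 0) (hW : W.IsSemistableModel)
    (h3 : W.ModRepIsIrreducible 3) :
    ∃ W' : WeierstrassCurve ℤ, Semistable W' ∧
      SwitchThree.Congr3 (W.map (Int.castRingHom ℚ)) (W'.map (Int.castRingHom ℚ)) ∧
      ((3 : ℤ) ∣ W.Δ ↔ (3 : ℤ) ∣ W'.Δ) ∧ W'.IsModularModelOfLevel W'.conductorLevel := by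
  by_cases h : (2 : ℤ) ∣ W.Δ ∨ ((2 : ℤ) ∣ W.a₁ ∧ (2 : ℤ) ∣ W.b₈)
  · obtain ⟨W', hG, hC, ht⟩ := SwitchGen.exists_genusCurve_congr3 W hΔ hW h
    exact ⟨W', hG.semistable, hC, ht, genus_modular W' hG⟩
  obtain ⟨W₁, W₂, hC, hW₁, -, h15, hW₂, h22, h2v, h23, hc12, ht5, ht3⟩ :=
    SwitchGen.exists_double_switch W hΔ hW h3 h
  obtain ⟨W₃, hW₃, hc23, ht23⟩ := exists_switch_three W₂ hW₂ h22 h23
  have hmod₂ : W₂.IsModularModelOfLevel W₂.conductorLevel :=
    lifting W₂ W₃ hW₂ hW₃.semistable 3 Nat.prime_three (by norm_num) h23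
      (adjointIrreducible_three W₂ hW₂ h22 h2v h23) hc23
      (by exact_mod_cast ht23) (genus_modular W₃ hW₃)
  exact ⟨W₁, hW₁, hC, ht3, lifting W₁ W₂ hW₁ hW₂ 5 (by norm_num) (by norm_num) h15
    (adjointIrreducible_of_five_le _ hW₁ 5 (by norm_num) le_rfl h15) hc12 (by exact_mod_cast ht5)
    hmod₂⟩

/-- **The statement of S50.** -/
theorem residual_three (W : WeierstrassCurve ℤ) (hΔ : W.Δ ≠ 0) (hW : W.IsSemistableModel)
    (h3 : W.ModRepIsIrreducible 3) :
    ∃ M : ℕ, 0 < M ∧ W.IsResiduallyModularOfLevel 3 M ∧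
      (∀ q : ℕ, q.Prime → q ≠ 3 → ¬ q ^ 3 ∣ M) ∧
      (3 ^ 2 ∣ M →
        ∀ A : ValuationSubring (AlgebraicClosure ℚ), A.LiesOverPrime 3 →
          ∀ x : Submodule.torsionBy ℤ
              ((W.map (Int.castRingHom ℚ))⁄(AlgebraicClosure ℚ)).Point (3 : ℕ),
            (∀ σ ∈ A.inertiaSubgroupIn ℚ, σ • x = x) → x = 0) := by
  obtain ⟨W', hW', hC, -, hmod⟩ := exists_modular_congr3 W hΔ hW h3
  have hsq := W'.squarefree_conductorLevel
  refine ⟨W'.conductorLevel, W'.conductorLevel_pos,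
    SwitchGen.isResiduallyModularOfLevel_conductor hC hW'.ne hmod, fun q hq _ hd => ?_,
    fun h9 => absurd (hsq 3 (by simpa [sq] using h9)) (by norm_num [Nat.isUnit_iff])⟩
  exact hq.one_lt.ne' (Nat.isUnit_iff.1 (hsq q ((pow_dvd_pow q (by norm_num : 2 ≤ 3)).trans hd |>
    fun h => by rwa [sq] at h)))

end Fermat.Agent.Root
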