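import Fermat.Agent.Root.Patched.TowerDescent
import Fermat.Agent.Root.Patched.ResidualExists

/-!
# The coefficient at `p` of a congruent form of level prime to `p`

A form of level prime to `p` congruent to a semistable curve with bad reduction at `p` is ordinary
and has `a_p ^ 2 ≡ 1` (`exists_coeff_sq_sub_one_mem`): this is
`Patched.ResidualData.exists_coeff_sq_sub_one_mem` for the residual data of the curve.
-/

set_option autoImplicit false

noncomputable section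

namespace Fermat.Agent.Root

open ModularFormClass (qCoeff)

local notation "Zbar" => integralClosure ℤ ℂ

/-- **`a_p ^ 2 ≡ 1` at a bad `p` outside the level.** -/
theorem exists_coeff_sq_sub_one_mem (W : WeierstrassCurve ℤ) (hW : Semistable W) (p : ℕ)
    (hp : p.Prime) (hp2 : p ≠ 2) (hpΔ : (p : ℤ) ∣ W.Δ) {M : ℕ} [NeZero M]
    {G : CuspForm (CongruenceSubgroup.Gamma0 M) 2} (hG : G.IsNormalizedEigenform)
    (𝔪 : Ideal Zbar) (h𝔪 : 𝔪.IsMaximal) (hp𝔪 : (p : Zbar) ∈ 𝔪) (hpM : ¬ p ∣ M)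
    (hGW : ∀ ℓ : ℕ, ℓ.Prime → W.IsGoodPrimeFor ℓ → ¬ ℓ ∣ M → ℓ ≠ p →
      ∃ a : Zbar, (a : ℂ) = qCoeff ⇑G ℓ ∧ a - ((W.apOfModel ℓ : ℤ) : Zbar) ∈ 𝔪) :
    ∃ a : Zbar, (a : ℂ) = qCoeff ⇑G p ∧ a ^ 2 - 1 ∈ 𝔪 := by
  classical
  have : Fact p.Prime := ⟨hp⟩
  obtain ⟨O, _, _, _, _, _, _, ⟨D⟩⟩ := Patched.exists_residualData W hW p hp2
  set S : Finset ℕ := insert p (M.primeFactors ∪ W.Δ.natAbs.primeFactors) with hS
  have hpS : p ∈ S := Finset.mem_insert_self _ _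
  have hMS : ∀ q : ℕ, q.Prime → q ∣ M → q ∈ S := fun q hq hd => by
    simp [hS, hq, hd, NeZero.ne M]
  have hWS : ∀ q : ℕ, q.Prime → (q : ℤ) ∣ W.Δ → q ∈ S := fun q hq hd => by
    simp [hS, hq, Int.natCast_dvd.mp hd, hW.ne]
  exact D.exists_coeff_sq_sub_one_mem hp2 hpΔ hG 𝔪 hp𝔪 hpM hpS hMS hWS fun l hl hlS =>
    hGW l hl (fun hd => hlS (hWS l hl hd)) (fun hd => hlS (hMS l hl hd)) fun e => hlS (e ▸ hpS)

end Fermat.Agent.Root
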