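import Fermat.Agent.Root.Defs

/-!
# Auxiliary primes at `p = 3`

A prime `s ≡ 2 (mod 3)` of good reduction with `a_s ≢ 0 (mod 3)`: no form congruent to `W` is new
at `s`, and there are no elliptic points of order 3 at a level divisible by `s`.
-/

set_option autoImplicit false

namespace Fermat.Agent.Root

/-- An auxiliary prime of `W` modulo 3. -/
structure AuxThree (W : WeierstrassCurve ℤ) (s : ℕ) : Prop where
  prime : s.Prime
  mod : s % 3 = 2
  good : ¬ (s : ℤ) ∣ W.Δ
  ap : ¬ (3 : ℤ) ∣ W.apOfModel s

end Fermat.Agent.Root
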