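import Fermat.Agent.MazurPrinciple.GenusPoints
import Fermat.Agent.MazurPrinciple.Step

/-!
# Modularity of genus curves

A curve satisfying `GenusCurve` is modular at its conductor (`genus_modular`).
-/

set_option autoImplicit false

noncomputable section

namespace Fermat.Agent.Root

/-- **Genus-theory modularity.** -/
theorem genus_modular (W : WeierstrassCurve ℤ) (hW : GenusCurve W) :
    W.IsModularModelOfLevel W.conductorLevel :=
  MazurPrinciple.genus_modular_of_step MazurPrinciple.step hW

end Fermat.Agent.Root
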