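import Fermat.Statements.S01
import Fermat.Agent.Root.Switch
import Fermat.Agent.Root.Genus
import Fermat.Agent.Root.Lifting
import Fermat.Agent.S02
import Fermat.Agent.S05
import Fermat.Agent.S07
import Fermat.Agent.EC.Reducible.FreyModel
import Fermat.Prelude.Def_FreyPackage_IsConductorLevel

/-!
# The chain from the Frey curve to Fermat's Last Theorem

Given irreducibility of the Frey representation (`FreyIrreducible`) and lowering at `p`
(`LevelLowerAtP`), the Frey curve is modular, its level lowers to a divisor of `2p`, so there is no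
Frey package and Fermat's Last Theorem follows (`flt`).
-/

set_option autoImplicit false

noncomputable section

open CongruenceSubgroup WeierstrassCurve.Affine.Point

namespace Fermat.Agent.Root

/-- Irreducibility of `E[P]`: the statement of S09. -/
def FreyIrreducible : Prop :=
  ∀ P : FreyPackage,
    GaloisRepIsIrreducible (K := AlgebraicClosure ℚ) ℚ P.freyCurve P.p

/-- Level lowering at `P`: the statement of S44. -/
def LevelLowerAtP : Prop :=
  ∀ (P : FreyPackage) {N : ℕ}, P.IsConductorLevel N → P.p ∣ N →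
    GaloisRepIsIrreducible (K := AlgebraicClosure ℚ) ℚ P.freyCurve P.p →
    P.ModularRepOfLevel N → ∃ M : ℕ, M ∣ N ∧ ¬ P.p ∣ M ∧ P.ModularRepOfLevel M

theorem semistable_frey (P : FreyPackage) : Semistable P.freyCurveInt :=
  ⟨EC.Reducible.freyCurveInt_Δ_ne_zero P, EC.Reducible.freyCurveInt_isSemistableModel P⟩

theorem isIntegralModelOf_frey (P : FreyPackage) :
    P.freyCurveInt.IsIntegralModelOf P.freyCurve :=
  ⟨1, by rw [one_smul, EC.Reducible.freyCurve_eq_map]⟩

/-- **The Frey curve is modular** at its conductor. -/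
theorem frey_modular (P : FreyPackage) :
    P.freyCurveInt.IsModularModelOfLevel P.freyCurveInt.conductorLevel := by
  have hE := semistable_frey P
  have hE5 := frey_irreducible_five P
  obtain ⟨W₁, hW₁, h12, h1v, h13, hc15, h15, h133⟩ :=
    exists_switch_five P.freyCurveInt hE (EC.Reducible.two_dvd_freyCurveInt_Δ P) hE5
  obtain ⟨W₂, hW₂, hc23, h23⟩ := exists_switch_three W₁ hW₁ h12 h13
  have hmod₁ : W₁.IsModularModelOfLevel W₁.conductorLevel :=
    lifting W₁ W₂ hW₁ hW₂.semistable 3 Nat.prime_three (by norm_num) h13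
      (adjointIrreducible_three W₁ hW₁ h12 h1v h13) hc23 (by exact_mod_cast h23)
      (genus_modular W₂ hW₂)
  exact lifting P.freyCurveInt W₁ hE hW₁ 5 (by norm_num) (by norm_num) hE5
    (adjointIrreducible_of_five_le _ hE 5 (by norm_num) le_rfl hE5) hc15 (by exact_mod_cast h15)
    hmod₁

theorem frey_irreducible_int (P : FreyPackage)
    (hirr : GaloisRepIsIrreducible (K := AlgebraicClosure ℚ) ℚ P.freyCurve P.p) :
    P.freyCurveInt.ModRepIsIrreducible P.p := by
  have h := hirr
  rw [EC.Reducible.freyCurve_eq_map] at h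
  exact h

theorem unramifiedMod_frey (P : FreyPackage) {q : ℕ} (hq : q.Prime) (hq2 : q ≠ 2)
    (hqp : q ≠ P.p) : UnramifiedMod P.p P.freyCurveInt q := by
  have h := Fermat.Agent.S05.result P hq hq2 hqp
  rw [FreyPackage.GaloisRepUnramifiedAt, EC.Reducible.freyCurve_eq_map] at h
  exact h

theorem modularRepOfLevel_of_resNewform (P : FreyPackage) {M : ℕ}
    (h : ResNewform P.p P.freyCurveInt M) : P.ModularRepOfLevel M := by
  obtain ⟨f, 𝔪, hf, hmax, hpm, hc, -⟩ := h
  exact ⟨f, P.freyCurveInt, 𝔪, hf.1, isIntegralModelOf_frey P, hmax, hpm, hc⟩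

/-- Lower the level to a divisor of `2P`. -/
theorem exists_level_dvd_two_mul (P : FreyPackage)
    (hirr : GaloisRepIsIrreducible (K := AlgebraicClosure ℚ) ℚ P.freyCurve P.p) :
    ∀ M : ℕ, Squarefree M → (P.p ∣ M → (P.p : ℤ) ∣ P.freyCurveInt.Δ) →
      ResNewform P.p P.freyCurveInt M →
      ∃ M' : ℕ, M' ∣ M ∧ M' ∣ 2 * P.p ∧ ResNewform P.p P.freyCurveInt M' := by
  intro M
  induction M using Nat.strong_induction_on with
  | _ M ih =>
    intro hM hpM h
    by_cases hall : ∀ q : ℕ, q.Prime → q ∣ M → q = 2 ∨ q = P.p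
    · refine ⟨M, dvd_rfl, ?_, h⟩
      rw [← Nat.prod_primeFactors_of_squarefree hM]
      refine Finset.prod_primes_dvd _ (fun q hq => (Nat.prime_of_mem_primeFactors hq).prime)
        fun q hq => ?_
      rcases hall q (Nat.prime_of_mem_primeFactors hq) (Nat.dvd_of_mem_primeFactors hq) with
        rfl | rfl
      · exact dvd_mul_right 2 _
      · exact dvd_mul_left _ 2
    · push Not at hall
      obtain ⟨q, hq, hqM, hq2, hqp⟩ := hall
      obtain ⟨M₁, hd, h₁⟩ := lowering P.freyCurveInt (semistable_frey P) P.p M q P.pp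
        (by have := P.hp5; omega)
        (frey_irreducible_int P hirr) hM hq hqM hqp hpM (unramifiedMod_frey P hq hq2 hqp) h
      have hd' : M₁ ∣ M := hd.trans (Nat.div_dvd_of_dvd hqM)
      have hlt : M₁ < M :=
        lt_of_le_of_lt (Nat.le_of_dvd (Nat.div_pos (Nat.le_of_dvd (Nat.pos_of_ne_zero hM.ne_zero)
          hqM) hq.pos) hd) (Nat.div_lt_self (Nat.pos_of_ne_zero hM.ne_zero) hq.one_lt)
      obtain ⟨M₂, hd₂, h22, h₂⟩ :=
        ih M₁ hlt (hM.squarefree_of_dvd hd') (fun hp => hpM (hp.trans hd')) h₁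
      exact ⟨M₂, hd₂.trans hd', h22, h₂⟩

theorem no_form_of_dvd_two {M : ℕ} (hM : M ∣ 2) (f : CuspForm (Gamma0 M) 2) : f = 0 := by
  rcases (Nat.dvd_prime Nat.prime_two).mp hM with rfl | rfl
  · exact Elem.cuspForm_two_eq_zero_of_index_lt 1 (by
      rw [show Gamma0 1 = ⊤ from by ext g; simp [Gamma0_mem, eq_iff_true_of_subsingleton]]
      simp) f
  · exact Fermat.Agent.S07.result f

/-- **No Frey package.** -/
theorem frey_false (h44 : LevelLowerAtP) (P : FreyPackage)
    (hirr : GaloisRepIsIrreducible (K := AlgebraicClosure ℚ) ℚ P.freyCurve P.p) : False := by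
  have hE := semistable_frey P
  obtain ⟨M, hMd, h⟩ := resNewform_of_modular P.freyCurveInt P.freyCurveInt hE hE P.p P.pp
    (by have := P.hp5; omega) (frey_irreducible_int P hirr) (fun _ _ _ _ _ => by simp) Iff.rfl
    (frey_modular P)
  obtain ⟨M', hd, h2p, h'⟩ := exists_level_dvd_two_mul P hirr M
    ((P.freyCurveInt.squarefree_conductorLevel).squarefree_of_dvd hMd)
    (fun hp => (P.freyCurveInt.prime_dvd_conductorLevel_iff hE.ne P.pp).mp (hp.trans hMd)) h
  have hmod := modularRepOfLevel_of_resNewform P h'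
  have hzero : ∀ M'' : ℕ, M'' ∣ 2 → ¬ P.ModularRepOfLevel M'' := by
    rintro M'' h2 ⟨f, W, 𝔪, hf, -⟩
    exact hf.ne_zero (no_form_of_dvd_two h2 f)
  by_cases hpM : P.p ∣ M'
  · have hne : M' ≠ 0 := fun h0 => by
      rw [h0] at h2p
      exact (mul_ne_zero two_ne_zero P.hp0) (zero_dvd_iff.mp h2p)
    have hsq : Squarefree (2 * P.p) := (Nat.squarefree_mul
      ((Nat.coprime_primes Nat.prime_two P.pp).mpr (by have := P.hp5; omega))).mpr
      ⟨Nat.prime_two.prime.squarefree, P.pp.prime.squarefree⟩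
    have hdiv : ∀ q : ℕ, q.Prime → q ∣ M' → (q : ℤ) ∣ P.a * P.b * P.c := by
      intro q hq hqM
      have hqN : (q : ℤ) ∣ P.freyCurveInt.Δ :=
        (P.freyCurveInt.prime_dvd_conductorLevel_iff hE.ne hq).mp (hqM.trans (hd.trans hMd))
      have hqprime : Prime (q : ℤ) := Nat.prime_iff_prime_int.mp hq
      exact hqprime.dvd_of_dvd_pow
        ((EC.Reducible.freyCurveInt_Δ P) ▸ Dvd.dvd.mul_right hqN _)
    obtain ⟨M'', hd'', hpM'', hmod''⟩ := h44 P
      ⟨Nat.pos_of_ne_zero hne, hsq.squarefree_of_dvd h2p, hdiv⟩ hpM hirr hmod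
    refine hzero M'' ?_ hmod''
    exact (Nat.Coprime.dvd_of_dvd_mul_right
      ((P.pp.coprime_iff_not_dvd.mpr hpM'').symm) (hd''.trans h2p))
  · exact hzero M' (Nat.Coprime.dvd_of_dvd_mul_right
      ((P.pp.coprime_iff_not_dvd.mpr hpM).symm) h2p) hmod

/-- **Fermat's Last Theorem**, given S09 and S44. -/
theorem flt (hirr : FreyIrreducible) (h44 : LevelLowerAtP) (n : ℕ) (hn : 3 ≤ n) (a b c : ℕ)
    (ha : 0 < a) (hb : 0 < b) (hc : 0 < c) : a ^ n + b ^ n ≠ c ^ n := by
  refine FermatLastTheorem.of_odd_primes (fun p hp hodd => ?_) n hn a b c ha.ne' hb.ne' hc.ne'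
  by_cases h3 : p = 3
  · subst h3; exact fermatLastTheoremThree
  have h5 : 5 ≤ p := by
    rcases hodd with ⟨k, rfl⟩
    have := hp.two_le
    omega
  rw [fermatLastTheoremFor_iff_int]
  intro a b c ha hb hc habc
  obtain ⟨P⟩ := Fermat.Agent.S02.result a b c ha hb hc p hp h5 habc
  exact frey_false h44 P (hirr P)

end Fermat.Agent.Root
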