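import Fermat.Agent.Root.GenusCoeffRing
import Fermat.Agent.GalRep.ReducedTensor

/-!
# The rank of the coefficient ring of the class

The local quotient of the mod 2 Hecke ring from twisted theta products lifts to members, so the
class has rank at least `h₂ 2^|Q|`.
-/

set_option autoImplicit false

noncomputable section

open IsLocalRing CongruenceSubgroup WeierstrassCurve
open scoped TensorProduct

namespace Fermat.Agent.Root

local notation "Zbar" => integralClosure ℤ ℂ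

section Family

variable {M : ℕ} [NeZero M] {ι : Type}

theorem EigenFamily.a_eq_coeffInt (F : EigenFamily M ι) (i : ι) (n : ℕ) :
    F.a i n = coeffInt (F.eigen i) n :=
  Subtype.ext (F.coe_a i n)

theorem EigenFamily.moduleFinite_ringAway [Fintype ι] (F : EigenFamily M ι) (p₀ : ℕ) :
    Module.Finite ℤ (F.ringAway p₀) := by
  classical
  have := Fermat.Agent.S22.result M 2 (∅ : Set ℕ)
  let Ψ : CuspForm.heckeAlgebra M 2 (∅ : Set ℕ) →+* (ι → Zbar) :=
    RingHom.pi fun i => awayCharacter (F.eigen i) ∅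
  have hle : F.ringAway p₀ ≤ Ψ.range := by
    refine Subring.closure_le.mpr ?_
    rintro _ ⟨⟨l, hl⟩, -, rfl⟩
    exact ⟨Hecke.heckeTn M l, funext fun i =>
      (awayCharacter_heckeTn (F.eigen i) l).trans (F.a_eq_coeffInt i l).symm⟩
  let N : Submodule ℤ (ι → Zbar) := LinearMap.range Ψ.toAddMonoidHom.toIntLinearMap
  let e : F.ringAway p₀ →ₗ[ℤ] N :=
    AddMonoidHom.toIntLinearMap
      { toFun := fun y => ⟨(y : ι → Zbar), hle y.2⟩
        map_zero' := rfl
        map_add' := fun _ _ => rfl }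
  exact Module.Finite.of_injective e fun x y h =>
    Subtype.ext (congrArg (fun z : N => (z : ι → Zbar)) h)

end Family

/-- A local ring killed by two that is a linear image of a free module of rank `d` has at most
`2 ^ d` elements. -/
theorem card_le_two_pow_of_surjective {X Λ : Type*} [AddCommGroup X] [Module ℤ_[2] X]
    [Module.Finite ℤ_[2] X] [Module.Free ℤ_[2] X] [AddCommGroup Λ] [Module ℤ_[2] Λ]
    (h2 : ∀ y : Λ, (2 : ℤ_[2]) • y = 0) (f : X →ₗ[ℤ_[2]] Λ) (hf : Function.Surjective f) :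
    Nat.card Λ ≤ 2 ^ Module.finrank ℤ_[2] X := by
  let b := Module.finBasis ℤ_[2] X
  let g : (Fin (Module.finrank ℤ_[2] X) → ZMod 2) → Λ := fun v =>
    ∑ k, ((v k).val : ℤ_[2]) • f (b k)
  have hg : Function.Surjective g := by
    intro y
    obtain ⟨x, rfl⟩ := hf y
    refine ⟨fun k => PadicInt.toZMod (b.repr x k), ?_⟩
    conv_rhs => rw [← b.sum_repr x, map_sum]
    refine Finset.sum_congr rfl fun k _ => ?_
    rw [map_smul, eq_comm, ← sub_eq_zero, ← sub_smul]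
    have hmem : b.repr x k - ((PadicInt.toZMod (b.repr x k)).val : ℤ_[2]) ∈
        maximalIdeal ℤ_[2] := by
      rw [← PadicInt.ker_toZMod, RingHom.mem_ker, map_sub, map_natCast, ZMod.natCast_zmod_val,
        sub_self]
    rw [PadicInt.maximalIdeal_eq_span_p, Ideal.mem_span_singleton] at hmem
    obtain ⟨w, hw⟩ := hmem
    rw [hw, Nat.cast_ofNat, mul_comm, mul_smul, h2, smul_zero]
  refine (Nat.card_le_card_of_surjective g hg).trans (le_of_eq ?_)
  simp

variable {W : WeierstrassCurve ℤ} {Q : Finset ℕ}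

theorem omega2_algebraMap_injective :
    Function.Injective (algebraMap ℤ_[2] Omega2) := fun x y h => by
  rw [IsScalarTower.algebraMap_apply ℤ_[2] (FractionRing ℤ_[2]) Omega2,
    IsScalarTower.algebraMap_apply ℤ_[2] (FractionRing ℤ_[2]) Omega2] at h
  exact IsFractionRing.injective ℤ_[2] (FractionRing ℤ_[2]) ((algebraMap _ Omega2).injective h)

/-- A finite domain over `ℤ₂` embeds in `Omega2` compatibly with its residual characters. -/
theorem exists_embedding (C : Type) [CommRing C] [IsDomain C] [Algebra ℤ_[2] C]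
    [Module.Finite ℤ_[2] C] (hinj : Function.Injective (algebraMap ℤ_[2] C)) :
    ∃ gI : C →ₐ[ℤ_[2]] Int2, Function.Injective gI ∧
      ∀ r : C →+* ZMod 2, ∀ x, r x = 0 ↔ gI x ∈ int2Ideal := by
  have : IsLocalRing C := GalRep.isLocalRing_of_finite_domain (R := ℤ_[2]) C
  have : Algebra.IsIntegral ℤ_[2] C := Algebra.IsIntegral.of_finite ℤ_[2] C
  obtain ⟨gC, hgC⟩ := GalRep.exists_ringHom_extension (algebraMap ℤ_[2] C) hinj
    (fun x => Algebra.IsIntegral.isIntegral x) (algebraMap ℤ_[2] Omega2)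
  let gA : C →ₐ[ℤ_[2]] Omega2 := { gC with commutes' := fun r => DFunLike.congr_fun hgC r }
  let gI : C →ₐ[ℤ_[2]] Int2 := gA.codRestrict _ fun x =>
    (Algebra.IsIntegral.isIntegral (R := ℤ_[2]) x).map gA
  have hker : RingHom.ker gC = ⊥ := by
    have : (RingHom.ker gC).IsPrime := RingHom.ker_isPrime _
    refine Ideal.eq_bot_of_comap_eq_bot (R := ℤ_[2]) (eq_bot_iff.mpr fun a ha => ?_)
    rw [Ideal.mem_comap, RingHom.mem_ker, ← RingHom.comp_apply, hgC] at ha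
    exact (Submodule.mem_bot ℤ_[2]).mpr (omega2_algebraMap_injective (ha.trans (map_zero _).symm))
  refine ⟨gI, fun x y h => (RingHom.injective_iff_ker_eq_bot gC).mpr hker
    (congrArg (fun z : Int2 => (z : Omega2)) h), fun r x => ?_⟩
  have : (RingHom.ker r).IsPrime := RingHom.ker_isPrime r
  have h2 : ((2 : ℕ) : C) ∈ RingHom.ker r := by
    rw [RingHom.mem_ker, map_natCast]; decide
  have heq : RingHom.ker r = int2Ideal.comap gI :=
    (GalRep.eq_maximalIdeal_of_mem 2 _ h2).trans (GalRep.eq_maximalIdeal_of_mem 2 _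
      (by rw [Ideal.mem_comap, map_natCast]; exact two_mem_int2Ideal)).symm
  rw [← RingHom.mem_ker, heq, Ideal.mem_comap]

/-- A minimal prime of `ℤ₂ ⊗ Y` below a residual kernel factors through one of the jointly
injective characters of `Y`, composed with an endomorphism of the algebraic integers. -/
theorem exists_point_of_minimalPrime {Y : Type} [CommRing Y] [Module.Finite ℤ Y] [Module.Free ℤ Y]
    {ι : Type} [Fintype ι] (ev : ι → Y →+* Zbar) (hev : ∀ y, (∀ i, ev i y = 0) → y = 0)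
    (res : ℤ_[2] ⊗[ℤ] Y →+* ZMod 2) (I : Ideal (ℤ_[2] ⊗[ℤ] Y))
    (hI : I ∈ minimalPrimes (ℤ_[2] ⊗[ℤ] Y)) (hIle : I ≤ RingHom.ker res) :
    ∃ (i : ι) (σ : Zbar →+* Zbar) (τ : ℤ_[2] ⊗[ℤ] Y →ₐ[ℤ_[2]] Omega2),
      RingHom.ker τ = I ∧ (∀ y, τ (1 ⊗ₜ y) = placeHom (σ (ev i y))) ∧
        ∀ y, res (1 ⊗ₜ y) = 0 → σ (ev i y) ∈ placeIdeal := by
  classical
  have : I.IsPrime := hI.1.1
  have hfinC : Module.Finite ℤ_[2] ((ℤ_[2] ⊗[ℤ] Y) ⧸ I) :=
    Module.Finite.of_surjective (Ideal.Quotient.mkₐ ℤ_[2] I).toLinearMap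
      Ideal.Quotient.mk_surjective
  obtain ⟨gI, hgI, hres⟩ := exists_embedding ((ℤ_[2] ⊗[ℤ] Y) ⧸ I)
    (GalRep.injective_quotient_minimalPrime (𝒪 := ℤ_[2]) _ I hI)
  let τ : ℤ_[2] ⊗[ℤ] Y →ₐ[ℤ_[2]] Omega2 :=
    ((integralClosure ℤ_[2] Omega2).val.comp gI).comp (Ideal.Quotient.mkₐ ℤ_[2] I)
  let τY : Y →+* Omega2 :=
    τ.toRingHom.comp (Algebra.TensorProduct.includeRight (R := ℤ) (A := ℤ_[2]) (B := Y)).toRingHom
  have : (RingHom.ker τY).IsPrime := RingHom.ker_isPrime _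
  have hinf : (Finset.univ.inf fun i : ι => RingHom.ker (ev i)) ≤ RingHom.ker τY := by
    intro y hy
    rw [Submodule.mem_finsetInf] at hy
    rw [hev y fun i => hy i (Finset.mem_univ i)]
    exact zero_mem _
  obtain ⟨i, -, hi⟩ := (Ideal.IsPrime.inf_le' (by infer_instance)).mp hinf
  let τ' : (ev i).range →+* Omega2 := RingHom.liftOfSurjective (ev i).rangeRestrict
    (ev i).rangeRestrict_surjective ⟨τY, fun y hy => hi (by
      rw [RingHom.mem_ker] at hy ⊢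
      exact congrArg Subtype.val hy)⟩
  obtain ⟨gz, hgz⟩ := GalRep.exists_ringHom_extension (ev i).range.subtype Subtype.val_injective
    (fun x => by
      obtain ⟨p, hp, hpx⟩ := Algebra.IsIntegral.isIntegral (R := ℤ) x
      refine ⟨p.map (Int.castRingHom (ev i).range), hp.map _, ?_⟩
      rw [Polynomial.eval₂_map, Subsingleton.elim ((ev i).range.subtype.comp (Int.castRingHom _))
        (algebraMap ℤ Zbar)]
      exact hpx) τ'
  obtain ⟨σ, hσ⟩ := exists_endo gz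
  have hτ : ∀ y : Y, τ (1 ⊗ₜ y) = placeHom (σ (ev i y)) := fun y => by
    have h1 : τ' ((ev i).rangeRestrict y) = τY y :=
      RingHom.liftOfRightInverse_comp_apply _ _ _ _ y
    have h2 : gz (ev i y) = τ' ((ev i).rangeRestrict y) :=
      DFunLike.congr_fun hgz ((ev i).rangeRestrict y)
    rw [show placeHom (σ (ev i y)) = gz (ev i y) from DFunLike.congr_fun hσ _, h2, h1]
    rfl
  refine ⟨i, σ, τ, Ideal.ext fun z => ?_, hτ, fun y hy => ?_⟩
  · rw [RingHom.mem_ker]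
    change ((gI (Ideal.Quotient.mk I z) : Int2) : Omega2) = 0 ↔ _
    rw [ZeroMemClass.coe_eq_zero, map_eq_zero_iff gI hgI, Ideal.Quotient.eq_zero_iff_mem]
  · rw [placeIdeal, Ideal.mem_comap]
    have h : placeInt (σ (ev i y)) = gI (Ideal.Quotient.mk I (1 ⊗ₜ y)) :=
      Subtype.ext (hτ y).symm
    rw [h]
    exact (hres (Ideal.Quotient.lift I res fun a ha => RingHom.mem_ker.mp (hIle ha)) _).mp hy

/-- A minimal prime below the residual kernel gives a member. -/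
theorem exists_member_point [NeZero (classLevel W Q)] {p₀ : ℕ} (hp₀Δ : (p₀ : ℤ) ∣ W.Δ)
    (P : ClassPlace W Q p₀) {ι : Type} [Fintype ι] (F : EigenFamily (classLevel W Q) ι)
    (hFsq : ∀ (i : ι) (q : ℕ), q.Prime → (q ∈ Q ∨ ((q : ℤ) ∣ W.Δ ∧ q ≠ p₀)) →
      ModularFormClass.qCoeff (F.g i) q ^ 2 = 1)
    [Module.Finite ℤ (F.ringAway p₀)] [Module.Free ℤ (F.ringAway p₀)]
    (res : ℤ_[2] ⊗[ℤ] F.ringAway p₀ →+* ZMod 2)
    (hres : ∀ (ℓ : ℕ) (hℓ : ℓ.Prime) (hne : ℓ ≠ p₀), W.IsGoodPrimeFor ℓ → ℓ ∉ Q → ℓ ≠ 2 → ℓ ≠ 3 →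
      res ((1 : ℤ_[2]) ⊗ₜ[ℤ] F.coeffAway p₀ ℓ hℓ hne) = (W.apOfModel ℓ : ZMod 2))
    (I : Ideal (ℤ_[2] ⊗[ℤ] F.ringAway p₀)) (hI : I ∈ minimalPrimes (ℤ_[2] ⊗[ℤ] F.ringAway p₀))
    (hIle : I ≤ RingHom.ker res) :
    ∃ (g : ↥(memberSet W Q p₀)) (τ : ℤ_[2] ⊗[ℤ] F.ringAway p₀ →ₐ[ℤ_[2]] Omega2),
      RingHom.ker τ = I ∧ ∀ (ℓ : ℕ) (hℓ : ℓ.Prime) (hne : ℓ ≠ p₀),
        τ (1 ⊗ₜ F.coeffAway p₀ ℓ hℓ hne) = (P.i (P.coeff g ℓ) : Omega2) := by
  obtain ⟨i, σ, τ, hker, hτ, hmemI⟩ := exists_point_of_minimalPrime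
    (fun i => (Pi.evalRingHom (fun _ : ι => Zbar) i).comp (F.ringAway p₀).subtype)
    (fun y h => Subtype.ext (funext h)) res I hI hIle
  obtain ⟨g, hg, hgn⟩ := exists_eigenform_endo (F.eigen i) σ
  have hcoef : ∀ n, coeffInt hg n = σ (F.a i n) := fun n => by
    rw [hgn, F.a_eq_coeffInt]
  have hmem : IsMember W Q p₀ g := by
    refine ⟨hg, fun ℓ hℓ hgood hℓQ hℓ2 hℓ3 => ?_, fun q hq hcase => ?_⟩
    · have hne : ℓ ≠ p₀ := fun h => hgood (h ▸ hp₀Δ)
      have hr : res ((1 : ℤ_[2]) ⊗ₜ[ℤ]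
          (F.coeffAway p₀ ℓ hℓ hne - ((W.apOfModel ℓ : ℤ) : F.ringAway p₀))) = 0 := by
        change res.comp (Algebra.TensorProduct.includeRight (R := ℤ) (A := ℤ_[2])
          (B := F.ringAway p₀)).toRingHom _ = 0
        rw [map_sub, map_intCast, sub_eq_zero]
        exact hres ℓ hℓ hne hgood hℓQ hℓ2 hℓ3
      have h := hmemI _ hr
      rw [map_sub, map_sub, map_intCast, map_intCast] at h
      rw [hcoef]
      exact h
    · have h' : F.a i q ^ 2 = 1 := Subtype.ext (by push_cast; rw [F.coe_a]; exact hFsq i q hq hcase)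
      have h'' := congrArg Subtype.val (show coeffInt hg q ^ 2 = 1 by
        rw [hcoef, ← map_pow, h', map_one])
      simpa [coeffInt] using h''
  refine ⟨⟨g, mem_memberSet.mpr hmem⟩, τ, hker, fun ℓ hℓ hne => ?_⟩
  rw [hτ, P.i_coeff, coe_placeInt]
  congr 1
  exact (hcoef ℓ).symm

/-- What lies in every minimal prime below the residual kernel dies in a local quotient. -/
theorem map_eq_zero_of_mem_minimalPrimes {A Λ : Type*} [CommRing A] [IsNoetherianRing A]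
    [IsReduced A] [CommRing Λ] [IsLocalRing Λ] (φ : A →+* Λ) (π : Λ →+* ZMod 2)
    (hπ : Function.Surjective π) (z : A)
    (hz : ∀ I ∈ minimalPrimes A, I ≤ RingHom.ker (π.comp φ) → z ∈ I) : φ z = 0 := by
  classical
  let bad : Finset (Ideal A) :=
    (minimalPrimes.finite_of_isNoetherianRing A).toFinset.filter fun I =>
      ¬ I ≤ RingHom.ker (π.comp φ)
  have hbad : ∀ I ∈ bad, ∃ u ∈ I, u ∉ RingHom.ker (π.comp φ) := fun I hI =>
    SetLike.not_le_iff_exists.mp (Finset.mem_filter.mp hI).2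
  choose! u hu hu' using hbad
  have hall : (∏ I ∈ bad, u I) * z = 0 := by
    rw [← Ideal.mem_bot, ← Ideal.zero_eq_bot, ← nilradical_eq_zero A, nilradical_eq_sInf]
    refine Ideal.mem_sInf.mpr fun {J} hJ => ?_
    have : J.IsPrime := hJ
    obtain ⟨I, hI, hIJ⟩ := Ideal.exists_minimalPrimes_le (J := J) (I := ⊥) bot_le
    refine hIJ ?_
    by_cases h : I ≤ RingHom.ker (π.comp φ)
    · exact Ideal.mul_mem_left _ _ (hz I hI h)
    · have hmem : I ∈ bad := Finset.mem_filter.mpr ⟨(Set.Finite.mem_toFinset _).mpr hI, h⟩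
      exact Ideal.mul_mem_right _ _ (I.mem_of_dvd (Finset.dvd_prod_of_mem u hmem) (hu I hmem))
  have hunit : IsUnit (φ (∏ I ∈ bad, u I)) := by
    rw [← IsLocalRing.notMem_maximalIdeal,
      ← IsLocalRing.eq_maximalIdeal (RingHom.ker_isMaximal_of_surjective π hπ), RingHom.mem_ker,
      map_prod, map_prod, Finset.prod_eq_zero_iff]
    rintro ⟨I, hI, h0⟩
    exact hu' I hI h0
  have h0 := congrArg φ hall
  rw [map_mul, map_zero] at h0
  exact (hunit.mul_right_eq_zero).mp h0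

/-- The image of `ℤ₂ ⊗ Y` lies in a subalgebra containing the images of generators of `Y`. -/
theorem range_le_of_closure {R : Type*} [CommRing R] (s : Set R) {B : Type*} [CommRing B]
    [Algebra ℤ_[2] B] (Θ : ℤ_[2] ⊗[ℤ] Subring.closure s →ₐ[ℤ_[2]] B) (S : Subalgebra ℤ_[2] B)
    (hs : ∀ x (hx : x ∈ s), Θ (1 ⊗ₜ ⟨x, Subring.subset_closure hx⟩) ∈ S) : Θ.range ≤ S := by
  let ΘY : Subring.closure s →+* B :=
    Θ.toRingHom.comp (Algebra.TensorProduct.includeRight (R := ℤ) (A := ℤ_[2])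
      (B := Subring.closure s)).toRingHom
  have key : ∀ y, ΘY y ∈ S := by
    rintro ⟨y, hy⟩
    induction hy using Subring.closure_induction with
    | mem x hx => exact hs x hx
    | zero =>
      rw [show (⟨0, zero_mem _⟩ : Subring.closure s) = 0 from rfl, map_zero]; exact zero_mem _
    | one => rw [show (⟨1, one_mem _⟩ : Subring.closure s) = 1 from rfl, map_one]; exact one_mem _
    | add a b ha hb iha ihb =>
      rw [show (⟨a + b, add_mem ha hb⟩ : Subring.closure s) = ⟨a, ha⟩ + ⟨b, hb⟩ from rfl, map_add]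
      exact add_mem iha ihb
    | neg a ha iha =>
      rw [show (⟨-a, neg_mem ha⟩ : Subring.closure s) = -⟨a, ha⟩ from rfl, map_neg]
      exact neg_mem iha
    | mul a b ha hb iha ihb =>
      rw [show (⟨a * b, mul_mem ha hb⟩ : Subring.closure s) = ⟨a, ha⟩ * ⟨b, hb⟩ from rfl, map_mul]
      exact mul_mem iha ihb
  rintro _ ⟨z, rfl⟩
  induction z using TensorProduct.induction_on with
  | zero => rw [map_zero]; exact zero_mem _
  | add x y hx hy => rw [map_add]; exact add_mem hx hy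
  | tmul c y =>
    rw [show (c ⊗ₜ[ℤ] y : ℤ_[2] ⊗[ℤ] Subring.closure s) = c • ((1 : ℤ_[2]) ⊗ₜ[ℤ] y) by
      rw [TensorProduct.smul_tmul', smul_eq_mul, mul_one]]
    change Θ (c • ((1 : ℤ_[2]) ⊗ₜ[ℤ] y)) ∈ S
    rw [map_smul]
    exact S.smul_mem (key y) c

/-- **Lower bound**: away from some bad prime `p₀` the class has rank at least `h₂ 2^|Q|`. -/
theorem GenusCurve.exists_exceptional (hW : GenusCurve W) (hQ : ∀ q ∈ Q, AuxPrime W 3 q)
    [NeZero (classLevel W Q)] :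
    ∃ p₀ : ℕ, p₀.Prime ∧ p₀ ≠ 2 ∧ (p₀ : ℤ) ∣ W.Δ ∧
      ∀ P : ClassPlace W Q p₀, classTwoPart W * 2 ^ Q.card ≤ Module.finrank ℤ_[2] P.ring := by
  classical
  obtain ⟨p₀, hp₀, hp₀2, hp₀Δ, ι, _, F, hFsq, Λ, _, _, φ, π, hφ, h2Λ, hcard, hπ⟩ :=
    exists_brandt W hW Q hQ
  refine ⟨p₀, hp₀, hp₀2, hp₀Δ, fun P => ?_⟩
  let Y := F.ringAway p₀
  have : Module.Finite ℤ Y := F.moduleFinite_ringAway p₀
  have : Module.IsTorsionFree ℤ Y :=
    Function.Injective.moduleIsTorsionFree (Subtype.val : Y → (ι → Zbar)) Subtype.val_injective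
      fun _ _ => rfl
  have : Module.Free ℤ Y := Module.free_of_finite_type_torsion_free'
  have : IsReduced Y := isReduced_of_injective Y.subtype Subtype.val_injective
  have : IsReduced (ℤ_[2] ⊗[ℤ] Y) := GalRep.isReduced_tensor_int ℤ_[2] Y
  have : IsNoetherianRing (ℤ_[2] ⊗[ℤ] Y) := IsNoetherianRing.of_finite ℤ_[2] (ℤ_[2] ⊗[ℤ] Y)
  have : CharP Λ 2 := (CharP.charP_iff_prime_eq_zero Nat.prime_two).mpr h2Λ
  let _ : Algebra ℤ_[2] Λ :=
    ((ZMod.castHom (dvd_refl 2) Λ).comp PadicInt.toZMod).toAlgebra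
  let φh : (ℤ_[2] ⊗[ℤ] Y) →ₐ[ℤ_[2]] Λ :=
    Algebra.TensorProduct.lift (Algebra.ofId ℤ_[2] Λ) φ.toIntAlgHom fun _ _ => Commute.all _ _
  have hφh : ∀ y : Y, φh (1 ⊗ₜ y) = φ y := fun y => by
    change Algebra.TensorProduct.lift (Algebra.ofId ℤ_[2] Λ) φ.toIntAlgHom _ _ = _
    rw [Algebra.TensorProduct.lift_tmul, map_one, one_mul]
    rfl
  have hφhs : Function.Surjective φh := fun y => by
    obtain ⟨x, rfl⟩ := hφ y
    exact ⟨1 ⊗ₜ x, hφh x⟩
  have hπs : Function.Surjective π := fun z => by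
    rcases (show ∀ z : ZMod 2, z = 0 ∨ z = 1 by decide) z with rfl | rfl
    · exact ⟨0, map_zero π⟩
    · exact ⟨1, map_one π⟩
  let res : (ℤ_[2] ⊗[ℤ] Y) →+* ZMod 2 := π.comp φh.toRingHom
  let Pm := {I : Ideal (ℤ_[2] ⊗[ℤ] Y) // I ∈ minimalPrimes (ℤ_[2] ⊗[ℤ] Y) ∧ I ≤ RingHom.ker res}
  -- the member attached to a minimal prime
  have hmember : ∀ I : Pm, ∃ (g : ↥(memberSet W Q p₀)) (τ : (ℤ_[2] ⊗[ℤ] Y) →ₐ[ℤ_[2]] Omega2),
      RingHom.ker τ = I.1 ∧ ∀ (ℓ : ℕ) (hℓ : ℓ.Prime) (hne : ℓ ≠ p₀),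
        τ (1 ⊗ₜ F.coeffAway p₀ ℓ hℓ hne) = (P.i (P.coeff g ℓ) : Omega2) := fun I =>
    exists_member_point hp₀Δ P F hFsq res (fun ℓ hℓ hne h1 h2 h3 h4 =>
      (congrArg π (hφh _)).trans (hπ ℓ hℓ hne h1 h2 h3 h4)) I.1 I.2.1 I.2.2
  choose g τ hτker hτgen using hmember
  let Θ : (ℤ_[2] ⊗[ℤ] Y) →ₐ[ℤ_[2]] (Pm → Omega2) := AlgHom.pi fun I => τ I
  let Ψ : P.ring →ₐ[ℤ_[2]] (Pm → Omega2) := AlgHom.pi fun I =>
    (integralClosure ℤ_[2] Omega2).val.comp (P.i.comp (P.point (g I)))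
  have hrange : Θ.range ≤ Ψ.range := range_le_of_closure _ Θ _ fun x hx => by
    obtain ⟨⟨ℓ, hℓ⟩, hne, rfl⟩ := hx
    exact ⟨P.gen ℓ hℓ, funext fun I => (hτgen I ℓ hℓ hne).symm⟩
  have hkill : ∀ z, Θ z = 0 → φh z = 0 := fun z hz =>
    map_eq_zero_of_mem_minimalPrimes φh.toRingHom π hπs z fun I hI hIle => by
      exact (SetLike.ext_iff.mp (hτker ⟨I, hI, hIle⟩) z).mp (congrFun hz ⟨I, hI, hIle⟩)
  have : Module.IsTorsionFree ℤ_[2] Omega2 :=
    Module.isTorsionFree_iff_algebraMap_injective.mpr omega2_algebraMap_injective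
  have : Module.IsTorsionFree ℤ_[2] (LinearMap.range Θ.toLinearMap) :=
    Function.Injective.moduleIsTorsionFree
      (fun x : LinearMap.range Θ.toLinearMap => (x : Pm → Omega2))
      Subtype.val_injective fun _ _ => rfl
  have : Module.Free ℤ_[2] (LinearMap.range Θ.toLinearMap) :=
    Module.free_of_finite_type_torsion_free'
  let f : LinearMap.range Θ.toLinearMap →ₗ[ℤ_[2]] Λ :=
    ((LinearMap.ker Θ.toLinearMap).liftQ φh.toLinearMap fun z hz => hkill z hz).comp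
      (LinearMap.quotKerEquivRange Θ.toLinearMap).symm.toLinearMap
  have hf : Function.Surjective f := by
    intro y
    obtain ⟨z, rfl⟩ := hφhs y
    refine ⟨LinearMap.quotKerEquivRange Θ.toLinearMap (Submodule.Quotient.mk z), ?_⟩
    simp only [f, LinearMap.comp_apply, LinearEquiv.coe_coe, LinearEquiv.symm_apply_apply]
    rfl
  have h2s : ∀ y : Λ, (2 : ℤ_[2]) • y = 0 := fun y => by
    rw [Algebra.smul_def, map_ofNat, h2Λ, zero_mul]
  have hle := card_le_two_pow_of_surjective h2s f hf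
  rw [hcard, Nat.pow_le_pow_iff_right (by norm_num)] at hle
  calc classTwoPart W * 2 ^ Q.card ≤ Module.finrank ℤ_[2] (LinearMap.range Θ.toLinearMap) := hle
    _ ≤ Module.finrank ℤ_[2] (LinearMap.range Ψ.toLinearMap) :=
      Submodule.finrank_mono (fun x hx => hrange hx)
    _ ≤ Module.finrank ℤ_[2] P.ring := LinearMap.finrank_range_le _

end Fermat.Agent.Root
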