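import Fermat.Agent.Root.GenusSelmer
import Fermat.Agent.DihedralTwo.Weierstrass
import Fermat.Agent.Gal.Frobenius

/-!
# The quadratic field of a genus curve

The discriminant and degree of `K = ℚ(√Δ)`, inertness of auxiliary primes, and the largest
quotient of two-power order of a finite commutative group.
-/

set_option autoImplicit false

noncomputable section

namespace Fermat.Agent.Root

open scoped NumberField
open IsLocalRing (residue residue_eq_zero_iff)

local notation "ℚbar" => AlgebraicClosure ℚ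
local notation "Γ" => AlgebraicClosure ℚ ≃ₐ[ℚ] AlgebraicClosure ℚ

variable {W : WeierstrassCurve ℤ}

theorem GenusCurve.exists_m (hW : GenusCurve W) :
    ∃ m : ℕ, Odd m ∧ Squarefree m ∧ W.conductorLevel = 2 * m := by
  have hsf := W.squarefree_conductorLevel
  obtain ⟨m, hm⟩ : 2 ∣ W.conductorLevel :=
    (W.prime_dvd_conductorLevel_iff hW.neg.ne Nat.prime_two).mpr hW.two_dvd
  rw [hm] at hsf
  refine ⟨m, ?_, (Nat.squarefree_mul_iff.mp hsf).2.2, hm⟩
  exact Nat.coprime_two_left.mp (Nat.squarefree_mul_iff.mp hsf).1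

theorem GenusCurve.finrank_discField (hW : GenusCurve W) :
    Module.finrank ℚ (discField W) = 2 := by
  have hint : IsIntegral ℚ (sqrtDisc W) := (Algebra.IsIntegral.isIntegral _)
  rw [discField, IntermediateField.adjoin.finrank hint]
  refine le_antisymm ?_ ((minpoly.two_le_natDegree_iff hint).mpr ?_)
  · refine le_trans (Polynomial.natDegree_le_of_dvd
      (minpoly.dvd ℚ (sqrtDisc W) (p := Polynomial.X ^ 2 - Polynomial.C (W.Δ : ℚ)) ?_) ?_) ?_
    · simp [sqrtDisc_sq]
    · exact Polynomial.X_pow_sub_C_ne_zero two_pos _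
    · rw [Polynomial.natDegree_X_pow_sub_C]
  · rintro ⟨r, hr⟩
    have h : algebraMap ℚ ℚbar (r ^ 2) = algebraMap ℚ ℚbar (W.Δ : ℚ) := by
      rw [map_pow, hr, sqrtDisc_sq, map_intCast]
    have h' := (algebraMap ℚ ℚbar).injective h
    have : (W.Δ : ℚ) < 0 := by exact_mod_cast hW.neg
    nlinarith [sq_nonneg r]

theorem GenusCurve.discr_discField (hW : GenusCurve W) :
    NumberField.discr (discField W) = -4 * (W.conductorLevel : ℤ) := by
  obtain ⟨m, hm, -, hN⟩ := hW.exists_m
  obtain ⟨t, ht, hΔ⟩ := DihedralTwo.exists_disc_eq W hW.neg hW.odd_val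
  let δ : discField W := ⟨sqrtDisc W, IntermediateField.subset_adjoin ℚ _ rfl⟩
  have hδ : δ ^ 2 = (W.Δ : discField W) :=
    (algebraMap (discField W) ℚbar).injective (by
      rw [map_pow, map_intCast]
      exact sqrtDisc_sq W)
  refine DihedralTwo.discr_eq_of_sq _ hW.finrank_discField W.squarefree_conductorLevel
    (by obtain ⟨j, hj⟩ := hm; omega) (δ / (t : discField W)) ?_
  have ht' : (t : discField W) ≠ 0 := by exact_mod_cast ht
  rw [div_pow, hδ, hΔ, div_eq_iff (pow_ne_zero 2 ht')]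
  push_cast
  ring

theorem GenusCurve.not_dvd_of_auxPrime (hW : GenusCurve W) {n q : ℕ} (hq : AuxPrime W n q) :
    q ≠ 2 ∧ ¬ q ∣ W.conductorLevel := by
  refine ⟨?_, fun h => hq.good (dvd_mul_of_dvd_right
    ((W.prime_dvd_conductorLevel_iff hW.neg.ne hq.prime).mp h) 2)⟩
  rintro rfl
  exact hq.good (dvd_mul_right _ _)

/-- An auxiliary prime is inert in `K`. -/
theorem GenusCurve.not_isSquare_of_auxPrime (hW : GenusCurve W) {n q : ℕ} (hq : AuxPrime W n q) :
    ¬ IsSquare (-((4 * W.conductorLevel : ℕ) : ZMod q)) := by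
  rintro ⟨r, hr⟩
  have hqp : q.Prime := hq.prime
  have : Fact q.Prime := ⟨hqp⟩
  obtain ⟨t, -, hΔ⟩ := DihedralTwo.exists_disc_eq W hW.neg hW.odd_val
  obtain ⟨c, hc⟩ : ∃ c : ℤ, (q : ℤ) ∣ 4 * W.Δ - c ^ 2 := by
    refine ⟨(r.val : ℤ) * t, (ZMod.intCast_zmod_eq_zero_iff_dvd _ q).mp ?_⟩
    rw [hΔ]
    push_cast at hr ⊢
    rw [ZMod.natCast_zmod_val]
    linear_combination (t : ZMod q) ^ 2 * hr
  obtain ⟨A, hA⟩ := Gal.exists_liesOverPrime (L := ℚbar) hqp
  obtain ⟨σ, hσ⟩ := Gal.exists_isFrobeniusAt hqp hA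
  refine (hq.frob A hA σ hσ).1 ?_
  -- it suffices that `σ` fixes the square root
  have hsq : σ (sqrtDisc W) ^ 2 = sqrtDisc W ^ 2 := by
    rw [← map_pow, sqrtDisc_sq, map_intCast]
  rcases sq_eq_sq_iff_eq_or_eq_neg.mp hsq with h | h
  · rw [discGroup, IntermediateField.mem_fixingSubgroup_iff]
    intro x hx
    induction hx using IntermediateField.adjoin_induction with
    | mem y hy => rw [Set.mem_singleton_iff] at hy; rw [hy]; exact h
    | algebraMap r => exact σ.commutes r
    | add a b _ _ ha hb => rw [map_add, ha, hb]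
    | inv a _ ha => rw [map_inv₀, ha]
    | mul a b _ _ ha hb => rw [map_mul, ha, hb]
  exfalso
  have hint : IsIntegral ℤ (2 * sqrtDisc W) := by
    refine ⟨Polynomial.X ^ 2 - Polynomial.C (4 * W.Δ),
      Polynomial.monic_X_pow_sub_C _ two_ne_zero, ?_⟩
    rw [← Polynomial.aeval_def]
    simp [mul_pow, sqrtDisc_sq, map_ofNat]
    ring
  have hmem := Gal.mem_of_isIntegral A hint
  set x : A := ⟨_, hmem⟩ with hx
  obtain ⟨hσA, hfrob⟩ := (Gal.isFrobeniusAt_iff A σ q).mp hσ
  have hσx := hfrob _ hmem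
  have hneg : σ (2 * sqrtDisc W) = ((-x : A) : ℚbar) := by
    rw [map_mul, h, map_ofNat]
    simp [hx]
  rw [hneg, show (2 * sqrtDisc W) ^ q = ((x ^ q : A) : ℚbar) by simp [hx],
    ← Gal.residue_eq_residue_iff, map_neg, map_pow] at hσx
  have hq0 : ((q : ℕ) : IsLocalRing.ResidueField A) = 0 := by
    rw [← map_natCast (residue A), residue_eq_zero_iff, ← A.coe_mem_nonunits_iff]
    simpa [ValuationSubring.LiesOverPrime] using hA
  have : CharP (IsLocalRing.ResidueField A) q := (CharP.charP_iff_prime_eq_zero hqp).mpr hq0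
  have h1 : x ^ 2 = ((4 * W.Δ : ℤ) : A) := Subtype.ext (by
    change (2 * sqrtDisc W) ^ 2 = ((4 * W.Δ : ℤ) : ℚbar)
    rw [mul_pow, sqrtDisc_sq]
    push_cast
    ring)
  have hx2 : residue A x ^ 2 = ((c : ℤ) : IsLocalRing.ResidueField A) ^ 2 := by
    rw [← map_pow, h1, map_intCast, ← Int.cast_pow, ← sub_eq_zero, ← Int.cast_sub]
    exact (CharP.intCast_eq_zero_iff _ q _).mpr hc
  have hcq : ((c : ℤ) : IsLocalRing.ResidueField A) ^ q = (c : ℤ) := by
    rw [← map_intCast (ZMod.castHom (dvd_refl q) (IsLocalRing.ResidueField A)) c, ← map_pow,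
      ZMod.pow_card]
  have hxq : residue A x ^ q = residue A x := by
    rcases sq_eq_sq_iff_eq_or_eq_neg.mp hx2 with e | e
    · rw [e, hcq]
    · rw [e, Odd.neg_pow (hqp.odd_of_ne_two (hW.not_dvd_of_auxPrime hq).1), hcq]
  rw [hxq] at hσx
  have h16 : ((16 * W.Δ : ℤ) : IsLocalRing.ResidueField A) = 0 := by
    have : (2 * residue A x) ^ 2 = 0 := by
      rw [show 2 * residue A x = 0 by linear_combination -hσx, zero_pow two_ne_zero]
    rw [mul_pow, ← map_pow, h1, map_intCast] at this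
    push_cast at this ⊢
    linear_combination this
  have hd := (CharP.intCast_eq_zero_iff _ q _).mp h16
  rcases (Nat.prime_iff_prime_int.mp hqp).dvd_mul.mp hd with h' | h'
  · have h'' : q ∣ 2 ^ 4 := by exact_mod_cast h'
    exact (hW.not_dvd_of_auxPrime hq).1
      ((Nat.prime_dvd_prime_iff_eq hqp Nat.prime_two).mp (hqp.dvd_of_dvd_pow h''))
  · exact hq.good (dvd_mul_of_dvd_right h' 2)

/-- The largest quotient of two-power order of a finite commutative group. -/
theorem exists_twoQuotient (C : Type*) [CommGroup C] [Finite C] :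
    ∃ (G : Subgroup C) (u : C →* G), Function.Surjective u ∧
      (∀ g : G, g ^ 2 ^ (Nat.card C).factorization 2 = 1) ∧
      Nat.card G = 2 ^ (Nat.card C).factorization 2 := by
  set h := Nat.card C with hh
  set a := h.factorization 2
  set b := h / 2 ^ a
  have hab : 2 ^ a * b = h := Nat.ordProj_mul_ordCompl_eq_self h 2
  have hbodd : ¬ 2 ∣ b := Nat.not_dvd_ordCompl Nat.prime_two Nat.card_pos.ne'
  set f : C →* C := powMonoidHom b
  have hpow : ∀ g : f.range, g ^ 2 ^ a = 1 := by
    rintro ⟨_, c, rfl⟩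
    refine Subtype.ext ?_
    change (c ^ b) ^ 2 ^ a = 1
    rw [← pow_mul, mul_comm, hab, hh, pow_card_eq_one']
  refine ⟨f.range, f.rangeRestrict, f.rangeRestrict_surjective, hpow, ?_⟩
  obtain ⟨j, hj⟩ := (IsPGroup.iff_card (p := 2)).mp (fun g => ⟨a, hpow g⟩ : IsPGroup 2 f.range)
  have hker : ¬ 2 ∣ Nat.card f.ker := by
    intro hd
    obtain ⟨g, hg⟩ := exists_prime_orderOf_dvd_card' 2 hd
    have h1 : (g : C) ^ b = 1 := g.2
    rw [← Subgroup.orderOf_coe] at hg
    exact hbodd (hg ▸ orderOf_dvd_of_pow_eq_one h1)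
  have hcard : h = 2 ^ j * Nat.card f.ker := by
    rw [← hj, ← Subgroup.index_ker, hh, ← f.ker.card_mul_index, mul_comm]
  have ha : a = j := by
    change h.factorization 2 = j
    rw [hcard, Nat.factorization_mul (by positivity) Nat.card_pos.ne', Finsupp.add_apply,
      Nat.Prime.factorization_pow Nat.prime_two, Finsupp.single_eq_same,
      Nat.factorization_eq_zero_of_not_dvd hker, add_zero]
  rw [hj, ha]

end Fermat.Agent.Root
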