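import Fermat.Agent.Root.GenusMember
import Fermat.Agent.Hecke.Lattice
import Fermat.Agent.MFCore.Integral

/-!
# The residual class of a genus curve

The finite set of members, the transport of eigenforms by endomorphisms of the algebraic integers,
and closure under Galois conjugation.
-/

set_option autoImplicit false

noncomputable section

open CongruenceSubgroup WeierstrassCurve

namespace Fermat.Agent.Root

local notation "Zbar" => integralClosure ℤ ℂ

/-- Distinct characters of an algebra spanned by `d` elements are at most `d` in number. -/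
theorem finite_and_card_le_of_characters {A T K ι : Type*} [CommRing A] [CommRing T] [Field K]
    [Algebra A T] [Algebra A K] (χ : ι → T →ₐ[A] K) (hχ : Function.Injective χ) {d : ℕ}
    (b : Fin d → T) (hb : Submodule.span A (Set.range b) = ⊤) :
    Finite ι ∧ Nat.card ι ≤ d := by
  have hli : LinearIndependent K fun i : ι => fun k : Fin d => χ i (b k) := by
    rw [linearIndependent_iff']
    intro s c hc
    have hall : ∀ t : T, ∑ i ∈ s, c i * χ i t = 0 := by
      intro t
      have ht : t ∈ Submodule.span A (Set.range b) := hb ▸ Submodule.mem_top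
      induction ht using Submodule.span_induction with
      | mem x hx =>
        obtain ⟨k, rfl⟩ := hx
        simpa [Finset.sum_apply] using congrFun hc k
      | zero => simp
      | add x y _ _ hx hy => simp [mul_add, Finset.sum_add_distrib, hx, hy]
      | smul a x _ hx =>
        simp only [Algebra.smul_def, map_mul, AlgHom.commutes, mul_left_comm (c _)]
        rw [← Finset.mul_sum, hx, mul_zero]
    have hl := (linearIndependent_monoidHom T K).comp (fun i => ((χ i : T →+* K) : T →* K))
      fun i j hij => hχ (AlgHom.ext fun t => DFunLike.congr_fun hij t)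
    refine linearIndependent_iff'.mp hl s c ?_
    funext t
    simpa [Finset.sum_apply] using hall t
  have : Finite ι := hli.finite
  have := Fintype.ofFinite ι
  refine ⟨‹_›, ?_⟩
  rw [Nat.card_eq_fintype_card]
  simpa using hli.fintype_card_le_finrank

variable {M : ℕ} [NeZero M]

theorem coeffInt_injective {g g' : CuspForm (Gamma0 M) 2} (hg : g.IsNormalizedEigenform)
    (hg' : g'.IsNormalizedEigenform) (h : ∀ n, coeffInt hg n = coeffInt hg' n) : g = g' :=
  Hecke.ext_qCoeff fun n => congrArg Subtype.val (h n)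

theorem awayCharacter_congr {g g' : CuspForm (Gamma0 M) 2} (hg : g.IsNormalizedEigenform)
    (hg' : g'.IsNormalizedEigenform) (h : ∀ ℓ : ℕ, ℓ.Prime → coeffInt hg ℓ = coeffInt hg' ℓ)
    (t : CuspForm.heckeAlgebra M 2 (∅ : Set ℕ)) : awayCharacter hg ∅ t = awayCharacter hg' ∅ t := by
  let E : Subring (Zbar × Zbar) := RingHom.eqLocus (RingHom.fst Zbar Zbar) (RingHom.snd Zbar Zbar)
  refine heckeAlgebra_map_mem ((awayCharacter hg ∅).prod (awayCharacter hg' ∅)) E
    (fun l hl hlM hls => ?_) (fun q hq hqM hqs => ?_) t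
  · refine Subtype.ext ?_
    change Hecke.eigenCharacter hg ∅ _ = Hecke.eigenCharacter hg' ∅ _
    rw [Hecke.eigenCharacter_T hg hl hlM hls, Hecke.eigenCharacter_T hg' hl hlM hls]
    exact congrArg Subtype.val (h l hl)
  · refine Subtype.ext ?_
    change Hecke.eigenCharacter hg ∅ _ = Hecke.eigenCharacter hg' ∅ _
    rw [Hecke.eigenCharacter_U hg hq hqM hqs, Hecke.eigenCharacter_U hg' hq hqM hqs]
    exact congrArg Subtype.val (h q hq)

/-- An eigenform is determined by its prime coefficients. -/
theorem eq_of_coeffInt_prime {g g' : CuspForm (Gamma0 M) 2} (hg : g.IsNormalizedEigenform)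
    (hg' : g'.IsNormalizedEigenform) (h : ∀ ℓ : ℕ, ℓ.Prime → coeffInt hg ℓ = coeffInt hg' ℓ) :
    g = g' :=
  coeffInt_injective hg hg' fun n => by
    rw [← awayCharacter_heckeTn hg n, ← awayCharacter_heckeTn hg' n,
      awayCharacter_congr hg hg' h]

variable (M) in
theorem finite_normalizedEigenforms :
    {g : CuspForm (Gamma0 M) 2 | g.IsNormalizedEigenform}.Finite := by
  have := Fermat.Agent.S22.result M 2 (∅ : Set ℕ)
  obtain ⟨d, b, hb⟩ := Module.Finite.exists_fin
    (R := ℤ) (M := CuspForm.heckeAlgebra M 2 (∅ : Set ℕ))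
  refine Set.finite_coe_iff.mp (finite_and_card_le_of_characters
    (fun g : {g : CuspForm (Gamma0 M) 2 | g.IsNormalizedEigenform} =>
      (Hecke.eigenCharacter g.2 ∅).toIntAlgHom) (fun g g' h => Subtype.ext ?_) b hb).1
  refine coeffInt_injective g.2 g'.2 fun n => Subtype.ext ?_
  have h' := DFunLike.congr_fun h (Hecke.heckeTn M n)
  change Hecke.eigenCharacter g.2 ∅ _ = Hecke.eigenCharacter g'.2 ∅ _ at h'
  have e1 := congrArg Subtype.val (awayCharacter_heckeTn g.2 n)
  have e2 := congrArg Subtype.val (awayCharacter_heckeTn g'.2 n)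
  exact e1.symm.trans (h'.trans e2)

/-- Every complex character of the Hecke algebra comes from an eigenform. -/
theorem exists_eigenform_of_character (χ : CuspForm.heckeAlgebra M 2 (∅ : Set ℕ) →+* ℂ) :
    ∃ g : CuspForm (Gamma0 M) 2, g.IsNormalizedEigenform ∧
      ∀ n, ModularFormClass.qCoeff g n = χ (Hecke.heckeTn M n) := by
  obtain ⟨v, hv0, hv⟩ := Hecke.exists_eigenvector one_le_two (MFCore.hasIntegralStructure M 2) χ
  obtain ⟨g, hg, -, hn⟩ := Hecke.IsEigenvector.exists_normalizedEigenform (χ := χ) hv hv0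
  exact ⟨g, hg, hn⟩

/-- Transport of an eigenform by an endomorphism of the algebraic integers. -/
theorem exists_eigenform_endo {g : CuspForm (Gamma0 M) 2} (hg : g.IsNormalizedEigenform)
    (σ : Zbar →+* Zbar) :
    ∃ (g' : CuspForm (Gamma0 M) 2) (hg' : g'.IsNormalizedEigenform),
      ∀ n, coeffInt hg' n = σ (coeffInt hg n) := by
  obtain ⟨g', hg', hn⟩ := exists_eigenform_of_character
    (((integralClosure ℤ ℂ).toSubring.subtype).comp (σ.comp (awayCharacter hg ∅)))
  exact ⟨g', hg', fun n => Subtype.ext ((hn n).trans (by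
    change ((σ (awayCharacter hg ∅ _) : Zbar) : ℂ) = _
    rw [awayCharacter_heckeTn]))⟩

variable {W : WeierstrassCurve ℤ} {Q : Finset ℕ}

/-- The members of the residual class. -/
def memberSet (W : WeierstrassCurve ℤ) (Q : Finset ℕ) (p₀ : ℕ) [NeZero (classLevel W Q)] :
    Finset (CuspForm (Gamma0 (classLevel W Q)) 2) :=
  ((finite_normalizedEigenforms (classLevel W Q)).subset
    (fun _ hg => IsMember.eigen hg) : {g | IsMember W Q p₀ g}.Finite).toFinset

theorem mem_memberSet {p₀ : ℕ} [NeZero (classLevel W Q)]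
    {g : CuspForm (Gamma0 (classLevel W Q)) 2} :
    g ∈ memberSet W Q p₀ ↔ IsMember W Q p₀ g :=
  Set.Finite.mem_toFinset _

/-- The family of members. -/
def memberFamily (W : WeierstrassCurve ℤ) (Q : Finset ℕ) (p₀ : ℕ) [NeZero (classLevel W Q)] :
    EigenFamily (classLevel W Q) ↥(memberSet W Q p₀) :=
  EigenFamily.ofFinset (memberSet W Q p₀) fun _ hg => (mem_memberSet.mp hg).eigen

theorem memberFamily_a {p₀ : ℕ} [NeZero (classLevel W Q)] (i : ↥(memberSet W Q p₀)) (n : ℕ) :
    (memberFamily W Q p₀).a i n = coeffInt (mem_memberSet.mp i.2).eigen n :=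
  Subtype.ext rfl

/-- **The members form a class**: congruent to `W` and closed under Galois conjugation. -/
theorem memberFamily_isClass (hW : GenusCurve W) (D : ResidualMatrix W)
    (hQ : ∀ q ∈ Q, AuxPrime W 3 q) (p₀ : ℕ) [NeZero (classLevel W Q)] :
    (memberFamily W Q p₀).IsClass W Q placeIdeal where
  maximal := inferInstance
  two_mem := two_mem_placeIdeal
  congr i ℓ hℓ hgood hℓQ hℓ2 := by
    rw [memberFamily_a]
    exact (mem_memberSet.mp i.2).congr_three hW D hQ ℓ hℓ hgood hℓQ hℓ2
  closed i σ hσ := by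
    have hi := mem_memberSet.mp i.2
    obtain ⟨g', hg', hn⟩ := exists_eigenform_of_character
      ((σ : ℂ →+* ℂ).comp (Hecke.eigenCharacter hi.eigen ∅))
    have hcoe : ∀ n, ModularFormClass.qCoeff g' n = σ ((memberFamily W Q p₀).a i n) := fun n => by
      rw [hn, memberFamily_a]
      exact congrArg σ (congrArg Subtype.val (awayCharacter_heckeTn hi.eigen n))
    have hmem : IsMember W Q p₀ g' := by
      refine ⟨hg', fun ℓ hℓ hgood hℓQ hℓ2 hℓ3 => ?_, fun q hq hcase => ?_⟩
      · have h1 := hσ ℓ (coeffInt hg' ℓ) (hcoe ℓ)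
        have h2 := hi.congr ℓ hℓ hgood hℓQ hℓ2 hℓ3
        have h3 := placeIdeal.add_mem h1 h2
        convert h3 using 1
        rw [memberFamily_a]
        ring
      · rw [hcoe, memberFamily_a, ← map_pow]
        exact (congrArg σ (hi.sq q hq hcase)).trans (map_one σ)
    exact ⟨⟨g', mem_memberSet.mpr hmem⟩, fun n => hcoe n⟩

end Fermat.Agent.Root
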