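import Fermat.Agent.Root.Defs
import Fermat.Agent.Root.ClassField.CharBound

/-!
# Unramified two-power characters of `G_K`

An everywhere unramified character of `G_K` of two-power order takes at most `h₂` values
(`card_range_le_classTwoPart`).
-/

set_option autoImplicit false


noncomputable section

namespace Fermat.Agent.Root

local notation "ℚbar" => AlgebraicClosure ℚ
local notation "Γ" => AlgebraicClosure ℚ ≃ₐ[ℚ] AlgebraicClosure ℚ

/-- `ℚ(√Δ)` is totally complex for `Δ < 0`. -/
theorem isTotallyComplex_discField {W : WeierstrassCurve ℤ} (hΔ : W.Δ < 0) :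
    NumberField.IsTotallyComplex (discField W) := by
  refine ⟨fun v => v.not_isReal_iff_isComplex.1 fun hv => ?_⟩
  have hmem : sqrtDisc W ∈ discField W :=
    IntermediateField.subset_adjoin ℚ _ (Set.mem_singleton _)
  have hsq : (⟨sqrtDisc W, hmem⟩ : discField W) ^ 2 = (W.Δ : discField W) :=
    Subtype.ext (by push_cast; exact sqrtDisc_sq W)
  have h := congrArg (NumberField.InfinitePlace.embedding_of_isReal hv) hsq
  rw [map_pow, map_intCast] at h
  have h' : (0 : ℝ) ≤ (W.Δ : ℝ) := h ▸ sq_nonneg _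
  exact absurd (by exact_mod_cast h' : (0 : ℤ) ≤ W.Δ) (not_le.2 hΔ)

/-- An everywhere unramified character of `G_K` of two-power order has at most `h₂` values. -/
theorem card_range_le_classTwoPart (W : WeierstrassCurve ℤ) (hW : GenusCurve W) {A : Type}
    [CommMonoid A] (ψ : discGroup W →* A)
    (hloc : ∃ L : IntermediateField ℚ ℚbar, FiniteDimensional ℚ L ∧
      ∀ x : discGroup W, (∀ y ∈ L, (x : Γ) y = y) → ψ x = 1)
    (hunr : ∀ ℓ : ℕ, ℓ.Prime → ∀ V : ValuationSubring ℚbar, V.LiesOverPrime ℓ →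
      ∀ x : discGroup W, (x : Γ) ∈ V.inertiaSubgroupIn ℚ → ψ x = 1)
    (htwo : ∀ x, ∃ j : ℕ, ψ x ^ 2 ^ j = 1) :
    Nat.card (Set.range ψ) ≤ classTwoPart W := by
  have := isTotallyComplex_discField hW.neg
  set ψu : discGroup W →* Aˣ := ψ.toHomUnits
  have hψu : ∀ x, ψ x = 1 → ψu.rangeRestrict x = 1 := fun x hx =>
    Subtype.ext (Units.ext hx)
  obtain ⟨L, hL, hLψ⟩ := hloc
  have hlevel : ∀ x : discGroup W, (x : Γ) ∈ L.fixingSubgroup → ψu.rangeRestrict x = 1 :=
    fun x hx => hψu x (hLψ x fun y hy => ClassField.fixingSubgroup_apply hx hy)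
  have : Finite ψu.range := by
    have h1 : (L.fixingSubgroup.subgroupOf (discGroup W)).index ≠ 0 := fun e => by
      have h2 : L.fixingSubgroup.index ≠ 0 := by
        rw [← IntermediateField.finrank_eq_fixingSubgroup_index ℚbar L]
        exact Module.finrank_pos.ne'
      exact h2 (Subgroup.index_eq_zero_of_relIndex_eq_zero e)
    have hle : L.fixingSubgroup.subgroupOf (discGroup W) ≤ ψu.rangeRestrict.ker :=
      fun x hx => hlevel x hx
    have h3 : ψu.rangeRestrict.ker.index ≠ 0 := fun e =>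
      h1 (Nat.eq_zero_of_zero_dvd (e ▸ Subgroup.index_dvd_of_le hle))
    rw [Subgroup.index_ker, MonoidHom.range_eq_top.2 ψu.rangeRestrict_surjective,
      Subgroup.card_top] at h3
    exact Nat.finite_of_card_ne_zero h3
  have hG : IsPGroup 2 ψu.range := fun y => by
    obtain ⟨x, rfl⟩ := ψu.rangeRestrict_surjective y
    obtain ⟨j, hj⟩ := htwo x
    exact ⟨j, Subtype.ext (Units.ext hj)⟩
  have hdvd : Nat.card ψu.range ∣
      Nat.card (ClassGroup (NumberField.RingOfIntegers (discField W))) :=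
    ClassField.card_dvd_classNumber hG ψu.rangeRestrict ψu.rangeRestrict_surjective
      ⟨L, hL, hlevel⟩ fun q hq V hV x hx => hψu x (hunr q hq V hV x hx)
  obtain ⟨m, hm⟩ := IsPGroup.iff_card.1 hG
  have hcard : Nat.card (Set.range ψ) = Nat.card ψu.range := by
    refine (Nat.card_congr (Equiv.ofBijective
      (fun u : ψu.range => (⟨((u : Aˣ) : A), ?_⟩ : Set.range ψ)) ⟨?_, ?_⟩)).symm
    · obtain ⟨x, hx⟩ := u.2
      exact ⟨x, congrArg Units.val hx⟩
    · exact fun a b h => Subtype.ext (Units.ext (congrArg Subtype.val h))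
    · rintro ⟨_, x, rfl⟩
      exact ⟨ψu.rangeRestrict x, rfl⟩
  rw [hcard, hm, classTwoPart]
  refine Nat.pow_le_pow_right two_pos ?_
  exact (Nat.prime_two.pow_dvd_iff_le_factorization Nat.card_pos.ne').1 (hm ▸ hdvd)

end Fermat.Agent.Root
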