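import Fermat.Agent.Root.GenusClass

/-!
# The coefficient ring of the class over `ℤ₂`

The coefficients of the members generate a subring of finitely many discrete valuation rings; it
is local with residue field `𝔽₂`.
-/

set_option autoImplicit false

noncomputable section

open IsLocalRing CongruenceSubgroup WeierstrassCurve

namespace Fermat.Agent.Root

local notation "Zbar" => integralClosure ℤ ℂ

variable {W : WeierstrassCurve ℤ} {Q : Finset ℕ} {p₀ : ℕ} [NeZero (classLevel W Q)]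

/-- A discrete valuation ring receiving the coefficients of all members. -/
structure ClassPlace (W : WeierstrassCurve ℤ) (Q : Finset ℕ) (p₀ : ℕ)
    [NeZero (classLevel W Q)] where
  O : Type
  [commRing : CommRing O]
  [isDomain : IsDomain O]
  [isDVR : IsDiscreteValuationRing O]
  [complete : IsAdicComplete (maximalIdeal O) O]
  [finiteResidue : Finite (ResidueField O)]
  [charZero : CharZero O]
  [algebra : Algebra ℤ_[2] O]
  [moduleFinite : Module.Finite ℤ_[2] O]
  i : O →ₐ[ℤ_[2]] Int2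
  R : Subring Zbar
  ι : R →+* O
  i_injective : Function.Injective i
  two_mem : (2 : O) ∈ maximalIdeal O
  i_ι : ∀ x : R, i (ι x) = placeInt x
  max_iff : ∀ y : O, y ∈ maximalIdeal O ↔ i y ∈ int2Ideal
  mem : ∀ (g : ↥(memberSet W Q p₀)) (n : ℕ), coeffInt (mem_memberSet.mp g.2).eigen n ∈ R

attribute [instance] ClassPlace.commRing ClassPlace.isDomain ClassPlace.isDVR ClassPlace.complete
  ClassPlace.finiteResidue ClassPlace.charZero ClassPlace.algebra ClassPlace.moduleFinite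

variable (W Q p₀) in
theorem nonempty_classPlace : Nonempty (ClassPlace W Q p₀) := by
  classical
  choose F hF using fun g : ↥(memberSet W Q p₀) =>
    exists_finset_coeffInt (mem_memberSet.mp g.2).eigen
  let R : Subring Zbar :=
    Subring.closure (⋃ g : ↥(memberSet W Q p₀), Set.range (coeffInt (mem_memberSet.mp g.2).eigen))
  have hR : R ≤ Subring.closure ((Finset.univ.biUnion F : Finset Zbar) : Set Zbar) := by
    refine Subring.closure_le.mpr (Set.iUnion_subset fun g => Set.range_subset_iff.mpr fun n => ?_)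
    refine Subring.closure_mono ?_ (hF g ⟨Hecke.heckeTn _ n, awayCharacter_heckeTn _ n⟩)
    exact fun x hx => Finset.mem_biUnion.mpr ⟨g, Finset.mem_univ g, hx⟩
  obtain ⟨O, _, _, _, _, _, _, _, _, i, ι, hi, h2, hι, hmax⟩ := exists_placeRing R _ hR
  exact ⟨ClassPlace.mk O i R ι hi h2 hι hmax fun g n =>
    Subring.subset_closure (Set.mem_iUnion.mpr ⟨g, n, rfl⟩)⟩

namespace ClassPlace

variable (P : ClassPlace W Q p₀)

/-- The coefficient of a member in the discrete valuation ring. -/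
def coeff (g : ↥(memberSet W Q p₀)) (n : ℕ) : P.O := P.ι ⟨_, P.mem g n⟩

theorem i_coeff (g : ↥(memberSet W Q p₀)) (n : ℕ) :
    P.i (P.coeff g n) = placeInt (coeffInt (mem_memberSet.mp g.2).eigen n) := P.i_ι _

/-- The coefficient ring of the class. -/
def ring : Subalgebra ℤ_[2] (↥(memberSet W Q p₀) → P.O) :=
  Algebra.adjoin ℤ_[2] (Set.range fun ℓ : Nat.Primes => fun g => P.coeff g ℓ)

/-- The prime coefficient in the coefficient ring. -/
def gen (ℓ : ℕ) (hℓ : ℓ.Prime) : P.ring :=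
  ⟨fun g => P.coeff g ℓ, Algebra.subset_adjoin ⟨⟨ℓ, hℓ⟩, rfl⟩⟩

/-- The point of a member. -/
def point (g : ↥(memberSet W Q p₀)) : P.ring →ₐ[ℤ_[2]] P.O :=
  (Pi.evalAlgHom ℤ_[2] (fun _ => P.O) g).comp P.ring.val

theorem eq_zero_of_point {z : P.ring} (h : ∀ g, P.point g z = 0) : z = 0 :=
  Subtype.ext (funext h)

theorem ι_injective : Function.Injective P.ι := fun x y h => Subtype.ext (placeHom_injective (by
  have := congrArg (fun z => (P.i z : Omega2)) h
  simp only [P.i_ι, coe_placeInt] at this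
  exact this))

instance : Module.Finite ℤ_[2] P.ring :=
  Module.Finite.of_fg
    (IsNoetherian.noetherian (Subalgebra.toSubmodule P.ring))

theorem algebraMap_injective : Function.Injective (algebraMap ℤ_[2] P.O) := fun x y h => by
  have h' := congrArg (fun z => (P.i z : Omega2)) h
  simp only [AlgHom.commutes] at h'
  change algebraMap ℤ_[2] Omega2 x = algebraMap ℤ_[2] Omega2 y at h'
  rw [IsScalarTower.algebraMap_apply ℤ_[2] (FractionRing ℤ_[2]) Omega2,
    IsScalarTower.algebraMap_apply ℤ_[2] (FractionRing ℤ_[2]) Omega2] at h'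
  exact IsFractionRing.injective ℤ_[2] (FractionRing ℤ_[2]) ((algebraMap _ Omega2).injective h')

instance : Module.IsTorsionFree ℤ_[2] P.O :=
  Module.isTorsionFree_iff_algebraMap_injective.mpr P.algebraMap_injective

instance : Module.Free ℤ_[2] P.ring := by
  have : Module.IsTorsionFree ℤ_[2] P.ring :=
    Function.Injective.moduleIsTorsionFree (Subtype.val : P.ring → (↥(memberSet W Q p₀) → P.O))
      Subtype.val_injective fun _ _ => rfl
  exact Module.free_of_finite_type_torsion_free'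

/-- The members are no more numerous than the rank. -/
theorem card_le_finrank : (memberSet W Q p₀).card ≤ Module.finrank ℤ_[2] P.ring := by
  let χ : ↥(memberSet W Q p₀) → P.ring →ₐ[ℤ_[2]] FractionRing P.O := fun g =>
    (IsScalarTower.toAlgHom ℤ_[2] P.O (FractionRing P.O)).comp (P.point g)
  have hχ : Function.Injective χ := fun g g' h => Subtype.ext (by
    refine eq_of_coeffInt_prime (mem_memberSet.mp g.2).eigen (mem_memberSet.mp g'.2).eigen
      fun ℓ hℓ => ?_
    have h' := DFunLike.congr_fun h (P.gen ℓ hℓ)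
    exact congrArg Subtype.val (P.ι_injective (IsFractionRing.injective P.O (FractionRing P.O) h')))
  let b := Module.finBasis ℤ_[2] P.ring
  have h := (finite_and_card_le_of_characters χ hχ b b.span_eq).2
  rwa [Nat.card_eq_fintype_card, Fintype.card_coe] at h

theorem sub_one_mem_of_sq {x : P.O} (h : x ^ 2 = 1) : x - 1 ∈ maximalIdeal P.O := by
  refine (maximalIdeal.isMaximal P.O).isPrime.mem_of_pow_mem 2 ?_
  rw [show (x - 1) ^ 2 = 2 * (1 - x) by linear_combination h]
  exact Ideal.mul_mem_right _ _ P.two_mem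

theorem coeff_sub_mem (hW : GenusCurve W) (D : ResidualMatrix W) (hQ : ∀ q ∈ Q, AuxPrime W 3 q)
    (g : ↥(memberSet W Q p₀)) {ℓ : ℕ} (hℓ : ℓ.Prime) (hgood : W.IsGoodPrimeFor ℓ) (hℓQ : ℓ ∉ Q)
    (hℓ2 : ℓ ≠ 2) : P.coeff g ℓ - ((W.apOfModel ℓ : ℤ) : P.O) ∈ maximalIdeal P.O := by
  rw [P.max_iff, map_sub, map_intCast, P.i_coeff, ← map_intCast placeInt, ← map_sub]
  exact (mem_memberSet.mp g.2).congr_three hW D hQ ℓ hℓ hgood hℓQ hℓ2

theorem coeff_sq (hW : GenusCurve W) (D : ResidualMatrix W) (hQ : ∀ q ∈ Q, AuxPrime W 3 q)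
    (hp₀ : p₀.Prime) (hp₀2 : p₀ ≠ 2) (hp₀Δ : (p₀ : ℤ) ∣ W.Δ) (g : ↥(memberSet W Q p₀)) {q : ℕ}
    (hq : q.Prime) (hcase : q ∈ Q ∨ (q : ℤ) ∣ W.Δ) : P.coeff g q ^ 2 = 1 := by
  have h : coeffInt (mem_memberSet.mp g.2).eigen q ^ 2 = 1 := Subtype.ext (by
    push_cast
    by_cases h0 : q = p₀
    · subst h0; exact (mem_memberSet.mp g.2).sq_exceptional hW D hQ hp₀ hp₀2 hp₀Δ
    · exact (mem_memberSet.mp g.2).sq q hq (hcase.imp_right fun h => ⟨h, h0⟩))
  refine P.i_injective ?_
  rw [map_pow, P.i_coeff, ← map_pow, h, map_one, map_one]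

/-- All elements of the coefficient ring reduce to `𝔽₂`, the same at every member. -/
theorem exists_int_sub_mem (hW : GenusCurve W) (D : ResidualMatrix W)
    (hQ : ∀ q ∈ Q, AuxPrime W 3 q) (hp₀ : p₀.Prime) (hp₀2 : p₀ ≠ 2) (hp₀Δ : (p₀ : ℤ) ∣ W.Δ)
    (z : P.ring) : ∃ c : ℤ, ∀ g, P.point g z - (c : P.O) ∈ maximalIdeal P.O := by
  suffices ∀ y ∈ P.ring, ∃ c : ℤ, ∀ g, y g - (c : P.O) ∈ maximalIdeal P.O from this _ z.2
  intro y hy
  induction hy using Algebra.adjoin_induction with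
  | mem y hy =>
    obtain ⟨⟨ℓ, hℓ⟩, rfl⟩ := hy
    by_cases hcase : ℓ ∈ Q ∨ (ℓ : ℤ) ∣ W.Δ
    · exact ⟨1, fun g => by
        simpa using P.sub_one_mem_of_sq (P.coeff_sq hW D hQ hp₀ hp₀2 hp₀Δ g hℓ hcase)⟩
    · rw [not_or] at hcase
      refine ⟨W.apOfModel ℓ, fun g => P.coeff_sub_mem hW D hQ g hℓ hcase.2 hcase.1 ?_⟩
      rintro rfl
      exact hcase.2 hW.two_dvd
  | algebraMap r =>
    obtain ⟨c, -, hc⟩ := PadicInt.exists_mem_range r
    refine ⟨(c : ℤ), fun g => ?_⟩
    rw [Pi.algebraMap_apply, Int.cast_natCast, ← map_natCast (algebraMap ℤ_[2] P.O), ← map_sub]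
    rw [PadicInt.maximalIdeal_eq_span_p, Ideal.mem_span_singleton] at hc
    obtain ⟨w, hw⟩ := hc
    rw [hw, map_mul, map_natCast]
    exact Ideal.mul_mem_right _ _ P.two_mem
  | add x y _ _ hx hy =>
    obtain ⟨c, hc⟩ := hx
    obtain ⟨d, hd⟩ := hy
    refine ⟨c + d, fun g => ?_⟩
    rw [Pi.add_apply, Int.cast_add, show x g + y g - ((c : P.O) + d) =
      (x g - c) + (y g - d) by ring]
    exact add_mem (hc g) (hd g)
  | mul x y _ _ hx hy =>
    obtain ⟨c, hc⟩ := hx
    obtain ⟨d, hd⟩ := hy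
    refine ⟨c * d, fun g => ?_⟩
    rw [Pi.mul_apply, Int.cast_mul, show x g * y g - ((c : P.O) * d) =
      (x g - c) * y g + (c : P.O) * (y g - d) by ring]
    exact add_mem (Ideal.mul_mem_right _ _ (hc g)) (Ideal.mul_mem_left _ _ (hd g))

theorem isUnit_of_point {z : P.ring} (h : ∀ g, IsUnit (P.point g z)) : IsUnit z := by
  have : Module.Finite P.ring (↥(memberSet W Q p₀) → P.O) :=
    Module.Finite.of_restrictScalars_finite ℤ_[2] _ _
  have : IsLocalHom (algebraMap P.ring (↥(memberSet W Q p₀) → P.O)) :=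
    RingHom.IsIntegral.isLocalHom
      (fun x => (Algebra.IsIntegral.isIntegral (R := P.ring) x)) Subtype.val_injective
  exact isUnit_of_map_unit (algebraMap P.ring (↥(memberSet W Q p₀) → P.O)) z
    (Pi.isUnit_iff.mpr h)

theorem isLocalRing (hW : GenusCurve W) (D : ResidualMatrix W) (hQ : ∀ q ∈ Q, AuxPrime W 3 q)
    (hp₀ : p₀.Prime) (hp₀2 : p₀ ≠ 2) (hp₀Δ : (p₀ : ℤ) ∣ W.Δ)
    (hne : (memberSet W Q p₀).Nonempty) : IsLocalRing P.ring := by
  obtain ⟨g₀, hg₀⟩ := hne
  have : Nontrivial P.ring := ⟨0, 1, fun h => zero_ne_one (α := P.O)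
    (by simpa using DFunLike.congr_arg (P.point ⟨g₀, hg₀⟩) h)⟩
  have key : ∀ z : P.ring, ¬ IsUnit z → ∀ g, P.point g z ∈ maximalIdeal P.O := by
    intro z hz g
    obtain ⟨c, hc⟩ := P.exists_int_sub_mem hW D hQ hp₀ hp₀2 hp₀Δ z
    by_contra hg
    refine hz (P.isUnit_of_point fun g' => IsLocalRing.notMem_maximalIdeal.mp fun hg' => hg ?_)
    have h1 : (c : P.O) ∈ maximalIdeal P.O := by simpa using Ideal.sub_mem _ hg' (hc g')
    simpa using add_mem (hc g) h1
  refine IsLocalRing.of_nonunits_add fun a b ha hb hu => ?_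
  exact (maximalIdeal.isMaximal P.O).ne_top ((Ideal.eq_top_of_isUnit_mem _
    (add_mem (key a ha ⟨g₀, hg₀⟩) (key b hb ⟨g₀, hg₀⟩))
    (by rw [← map_add]; exact hu.map (P.point ⟨g₀, hg₀⟩))))

/-- The residual character of the coefficient ring. -/
theorem exists_residual_iff (hW : GenusCurve W) (D : ResidualMatrix W)
    (hQ : ∀ q ∈ Q, AuxPrime W 3 q) (hp₀ : p₀.Prime) (hp₀2 : p₀ ≠ 2) (hp₀Δ : (p₀ : ℤ) ∣ W.Δ)
    [IsLocalRing P.ring] (z : P.ring) :
    ∃ c : ℤ, z - (c : P.ring) ∈ maximalIdeal P.ring := by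
  obtain ⟨c, hc⟩ := P.exists_int_sub_mem hW D hQ hp₀ hp₀2 hp₀Δ z
  refine ⟨c, fun hu => ?_⟩
  obtain ⟨g₀⟩ : Nonempty ↥(memberSet W Q p₀) := by
    by_contra h
    exact one_ne_zero (α := P.ring) (P.eq_zero_of_point fun g => absurd ⟨g⟩ h)
  have h1 := hu.map (P.point g₀)
  rw [map_sub, map_intCast] at h1
  exact (hc g₀) h1

end ClassPlace

end Fermat.Agent.Root
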