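import Fermat.Agent.Root.GenusFrame
import Fermat.Agent.Root.GenusClassBound
import Fermat.Agent.Dihedral.Local
import Fermat.Agent.Dihedral.Carayol

/-!
# The counting argument

A finite deformation of `E[2]` of the local type of the genus-theory `R = T`, generated by traces
and signs, has reduction mod two of rank at most `h₂ 2^|Q|` when the Selmer group vanishes.
-/

set_option autoImplicit false

noncomputable section

open IsLocalRing
open scoped TensorProduct

namespace Fermat.Agent.Root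

open Fermat.Agent.Deformation

local notation "ℚbar" => AlgebraicClosure ℚ
local notation "Γ" => AlgebraicClosure ℚ ≃ₐ[ℚ] AlgebraicClosure ℚ

/-- A sign character at a place for which `ρ` has the rank one local condition. -/
def IsSign {A : Type} [CommRing A] (ρ : GQ →* M2 A) (V : ValuationSubring ℚbar)
    (s : V.decompositionSubgroup ℚ →* A) : Prop :=
  (∀ a, s a * s a = 1) ∧
  (∀ a : V.decompositionSubgroup ℚ, (a : Γ) ∈ V.inertiaSubgroupIn ℚ → s a = 1) ∧
  ∀ a b : V.decompositionSubgroup ℚ,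
    (ρ a - ((ρ a).det * s a) • (1 : M2 A)) * (ρ b - s b • (1 : M2 A)) = 0

/-- A deformation of `E[2]` of the local type of the genus-theory `R = T`, generated by traces
and signs. -/
structure GenusDeformation {W : WeierstrassCurve ℤ} (D : ResidualMatrix W) (Q : Finset ℕ)
    (A : Type) [CommRing A] where
  ε : A →+* ZMod 2
  ρ : GQ →* M2 A
  residual : ∀ σ : Γ, (ρ σ).map ε = D.M σ
  det_one : ∀ σ : Γ, ∃ y : A, (ρ σ).det = 1 + 2 * y
  level : ∃ L : IntermediateField ℚ ℚbar, FiniteDimensional ℚ L ∧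
    ∀ σ : Γ, (∀ x ∈ L, σ x = x) → ρ σ = 1
  good : ∀ ℓ : ℕ, ℓ.Prime → ℓ ∉ Q → ¬ (ℓ : ℤ) ∣ W.Δ → ∀ V : ValuationSubring ℚbar,
    V.LiesOverPrime ℓ → ∀ σ ∈ V.inertiaSubgroupIn ℚ, ρ σ = 1
  loc : ∀ q : ℕ, q.Prime → (q ∈ Q ∨ (q : ℤ) ∣ W.Δ) → ∀ V : ValuationSubring ℚbar,
    V.LiesOverPrime q → ∃ s : V.decompositionSubgroup ℚ →* A, IsSign ρ V s
  u : ↥Q → A
  u_sq : ∀ q, u q * u q = 1
  gen : Subring.closure (Set.range (fun σ : Γ => (ρ σ).trace) ∪
    {a | ∃ p : ℕ, p.Prime ∧ (p : ℤ) ∣ W.Δ ∧ ∃ V : ValuationSubring ℚbar, V.LiesOverPrime p ∧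
      ∃ s : V.decompositionSubgroup ℚ →* A, IsSign ρ V s ∧ ∃ g, a = s g} ∪ Set.range u) = ⊤

set_option synthInstance.maxSize 2048 in
theorem isRot_mul_mul : ∀ a b c : M2 (ZMod 2), a * c = 1 → IsRot b → IsRot (a * b * c) := by
  unfold IsRot rotMat
  decide

set_option synthInstance.maxSize 2048 in
theorem isRot_mul_inv : ∀ a b c : M2 (ZMod 2), b * c = 1 → ¬ IsRot a → ¬ IsRot b → a.det = 1 →
    IsRot (a * c) := by
  unfold IsRot rotMat
  decide

theorem conj_sub_smul {R : Type} [CommRing R] (U : (M2 R)ˣ) (Y : M2 R) (c : R) :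
    (U : M2 R) * Y * ((U⁻¹ : (M2 R)ˣ) : M2 R) - c • (1 : M2 R) =
      (U : M2 R) * (Y - c • 1) * ((U⁻¹ : (M2 R)ˣ) : M2 R) := by
  simp only [mul_sub, sub_mul, mul_smul_comm, smul_mul_assoc, mul_one, Units.mul_inv]

theorem trace_smul_one_mul {R : Type} [CommRing R] (Y : M2 R) (c : R) :
    ((c • (1 : M2 R)) * Y).trace = c * Y.trace := by
  rw [smul_mul_assoc, one_mul, Matrix.trace_smul, smul_eq_mul]

/-- A ring with a surjection onto a field with nilpotent kernel is local. -/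
theorem isLocalRing_of_nilpotent_ker {R K : Type*} [CommRing R] [Field K] (f : R →+* K)
    (hs : Function.Surjective f) (hn : ∀ x, f x = 0 → IsNilpotent x) : IsLocalRing R := by
  refine IsLocalRing.of_unique_max_ideal ⟨RingHom.ker f, RingHom.ker_isMaximal_of_surjective f hs,
    fun M hM => ?_⟩
  refine ((RingHom.ker_isMaximal_of_surjective f hs).eq_of_le hM.ne_top fun x hx => ?_).symm
  obtain ⟨m, hm⟩ := hn x hx
  exact hM.isPrime.mem_of_pow_mem m (hm ▸ M.zero_mem)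

variable {W : WeierstrassCurve ℤ} {D : ResidualMatrix W} {Q : Finset ℕ} {A : Type} [CommRing A]

/-- **The counting argument.** -/
theorem GenusDeformation.card_quotient_le [Finite A] [IsLocalRing A]
    (E : GenusDeformation D Q A) (hW : GenusCurve W) (hQ : ∀ q ∈ Q, AuxPrime W 3 q)
    (hsel : ∀ f : discGroup W → F4, SelmerCocycle D.discChar Q f →
      ∃ a : F4, ∀ h, f h = (D.discChar.χ h ^ 2 - 1) * a) :
    Nat.card (A ⧸ Ideal.span {(2 : A)}) ≤ 2 ^ (classTwoPart W * 2 ^ Q.card) := by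
  classical
  let I : Ideal A := Ideal.span {(2 : A)}
  have hI : I ≤ RingHom.ker E.ε := by
    rw [Ideal.span_singleton_le_iff_mem, RingHom.mem_ker, map_ofNat]; decide
  have : Nontrivial (A ⧸ I) := Ideal.Quotient.nontrivial_iff.mpr fun h => by
    have := (RingHom.ker_ne_top E.ε) (top_le_iff.mp (h ▸ hI))
    exact this
  have hI2 : (2 : A ⧸ I) = 0 := by
    rw [← map_ofNat (Ideal.Quotient.mk I) 2, Ideal.Quotient.eq_zero_iff_mem]
    exact Ideal.mem_span_singleton_self _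
  have : CharP (A ⧸ I) 2 := CharTwo.of_one_ne_zero_of_two_eq_zero one_ne_zero hI2
  let _ : Algebra (ZMod 2) (A ⧸ I) := ZMod.algebra _ 2
  let εb : A ⧸ I →ₐ[ZMod 2] F4 :=
    { (algebraMap (ZMod 2) F4).comp (Ideal.Quotient.lift I E.ε fun a ha => hI ha) with
      commutes' := fun r => RingHom.congr_fun (Subsingleton.elim
        (((algebraMap (ZMod 2) F4).comp (Ideal.Quotient.lift I E.ε fun a ha => hI ha)).comp
          (algebraMap (ZMod 2) (A ⧸ I))) (algebraMap (ZMod 2) F4)) r }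
  -- the base change to `F4`
  let ι : A →+* F4 ⊗[ZMod 2] (A ⧸ I) :=
    (Algebra.TensorProduct.includeRight (R := ZMod 2) (A := F4) (B := A ⧸ I)).toRingHom.comp
      (Ideal.Quotient.mk I)
  let εk : F4 ⊗[ZMod 2] (A ⧸ I) →ₐ[F4] F4 :=
    Algebra.TensorProduct.lift (AlgHom.id F4 F4) εb fun _ _ => Commute.all _ _
  have hει : ∀ a, εk (ι a) = algebraMap (ZMod 2) F4 (E.ε a) := fun a => by
    change Algebra.TensorProduct.lift (AlgHom.id F4 F4) εb _
      ((1 : F4) ⊗ₜ[ZMod 2] (Ideal.Quotient.mk I a)) = _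
    rw [Algebra.TensorProduct.lift_tmul, map_one, one_mul]
    rfl
  have hεsurj : Function.Surjective εk := fun c =>
    ⟨algebraMap F4 _ c, εk.commutes c⟩
  have : IsArtinianRing A := inferInstance
  have hεA : Function.Surjective E.ε := fun z => by
    rcases (show ∀ z : ZMod 2, z = 0 ∨ z = 1 by decide) z with rfl | rfl
    · exact ⟨0, map_zero _⟩
    · exact ⟨1, map_one _⟩
  obtain ⟨N₀, hN₀⟩ : IsNilpotent (maximalIdeal A) := by
    have := IsArtinianRing.isNilpotent_jacobson_bot (R := A)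
    rwa [IsLocalRing.jacobson_eq_maximalIdeal ⊥ bot_ne_top] at this
  have hnilA : ∀ a, E.ε a = 0 → IsNilpotent a := fun a ha => ⟨N₀, by
    have h : a ∈ maximalIdeal A := by
      rw [← IsLocalRing.eq_maximalIdeal (RingHom.ker_isMaximal_of_surjective _ hεA)]; exact ha
    have h' := Ideal.pow_mem_pow h N₀
    rwa [hN₀] at h'⟩
  have hnil : ∀ x : F4 ⊗[ZMod 2] (A ⧸ I),
      IsNilpotent (x - algebraMap F4 _ (εk x)) := by
    intro x
    induction x using TensorProduct.induction_on with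
    | zero => simp
    | add x y hx hy =>
      rw [map_add, map_add, add_sub_add_comm]
      exact (Commute.all _ _).isNilpotent_add hx hy
    | tmul c a =>
      obtain ⟨a, rfl⟩ := Ideal.Quotient.mk_surjective a
      obtain ⟨k, hk⟩ : ∃ k : ℕ, (k : ZMod 2) = E.ε a := ⟨_, ZMod.natCast_zmod_val _⟩
      have he : (c ⊗ₜ[ZMod 2] Ideal.Quotient.mk I a : F4 ⊗[ZMod 2] (A ⧸ I)) =
          algebraMap F4 _ c * ι a := by
        change _ = (c ⊗ₜ[ZMod 2] (1 : A ⧸ I)) * ((1 : F4) ⊗ₜ[ZMod 2] Ideal.Quotient.mk I a)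
        rw [Algebra.TensorProduct.tmul_mul_tmul, mul_one, one_mul]
      rw [he, map_mul, AlgHom.commutes, hει, ← hk, map_natCast, map_mul, map_natCast,
        Algebra.algebraMap_self, RingHom.id_apply, ← map_natCast ι, ← mul_sub, ← map_sub]
      refine (Commute.all _ _).isNilpotent_mul_left ((hnilA _ ?_).map ι)
      rw [map_sub, map_natCast, hk, sub_self]
  have : IsLocalRing (F4 ⊗[ZMod 2] (A ⧸ I)) :=
    isLocalRing_of_nilpotent_ker εk.toRingHom hεsurj fun x hx => by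
      simpa [show εk x = 0 from hx] using hnil x
  have hmax : maximalIdeal (F4 ⊗[ZMod 2] (A ⧸ I)) = RingHom.ker εk.toRingHom :=
    (IsLocalRing.eq_maximalIdeal (RingHom.ker_isMaximal_of_surjective _ hεsurj)).symm
  have hmem : ∀ x : F4 ⊗[ZMod 2] (A ⧸ I),
      x ∈ maximalIdeal (F4 ⊗[ZMod 2] (A ⧸ I)) ↔ εk x = 0 := fun x => by
    rw [hmax]; exact Iff.rfl
  have hunit : ∀ x : F4 ⊗[ZMod 2] (A ⧸ I), εk x ≠ 0 → IsUnit x := fun x hx =>
    IsLocalRing.notMem_maximalIdeal.mp (mt (hmem x).mp hx)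
  have : Finite (A ⧸ I) := Finite.of_surjective (Ideal.Quotient.mk I) Ideal.Quotient.mk_surjective
  have : Module.Finite (ZMod 2) (A ⧸ I) := Module.Finite.of_finite
  have : Finite (F4 ⊗[ZMod 2] (A ⧸ I)) := Module.finite_of_finite F4
  obtain ⟨N, hN⟩ : IsNilpotent (maximalIdeal (F4 ⊗[ZMod 2] (A ⧸ I))) := by
    have := IsArtinianRing.isNilpotent_jacobson_bot (R := F4 ⊗[ZMod 2] (A ⧸ I))
    rwa [IsLocalRing.jacobson_eq_maximalIdeal ⊥ bot_ne_top] at this
  have h2 : (2 : F4 ⊗[ZMod 2] (A ⧸ I)) = 0 := by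
    rw [← map_ofNat (algebraMap F4 (F4 ⊗[ZMod 2] (A ⧸ I))) 2,
      (CharTwo.two_eq_zero : (2 : F4) = 0), map_zero]
  -- the frame
  let φ := algebraMap F4 (F4 ⊗[ZMod 2] (A ⧸ I))
  let F : (M2 (F4 ⊗[ZMod 2] (A ⧸ I)))ˣ :=
    ⟨frame4Inv.map φ, frame4.map φ,
      by rw [← Matrix.map_mul, frame4Inv_mul, Matrix.map_one _ (map_zero φ) (map_one φ)],
      by rw [← Matrix.map_mul, frame4_mul, Matrix.map_one _ (map_zero φ) (map_one φ)]⟩
  let ρ₁ : GQ →* M2 (F4 ⊗[ZMod 2] (A ⧸ I)) := conjRep F (mapRep ι E.ρ)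
  have hres₁ : ∀ σ, (ρ₁ σ).map εk = frameRes (D.M σ) := fun σ => by
    change ((frame4Inv.map φ) * (E.ρ σ).map ι * (frame4.map φ)).map εk.toRingHom = _
    rw [Matrix.map_mul, Matrix.map_mul, Matrix.map_map, Matrix.map_map, Matrix.map_map, frameRes,
      ← E.residual σ, Matrix.map_map]
    congr 2
    · exact (Matrix.map_id' _).symm.trans (Matrix.ext fun i j => (εk.commutes _).symm) |>.symm
    · exact Matrix.ext fun i j => hει _
    · exact Matrix.ext fun i j => εk.commutes _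
  obtain ⟨γ, hγ⟩ := D.exists_rot
  obtain ⟨w, hw⟩ := D.exists_upper
  have hγH : γ ∈ discGroup W := (D.disc_iff γ).mpr (Or.inr (Or.inl hγ))
  have hwrot : ¬ IsRot (D.M w) := by
    rw [hw]; unfold IsRot rotMat; decide
  have hγ₁ : ∀ i j, εk (ρ₁ γ i j) = (!![omega4, 0; 0, omega4 ^ 2] : M2 F4) i j := fun i j => by
    rw [← frameRes_rot, ← hγ, ← hres₁ γ]; rfl
  have homega : omega4 - omega4 ^ 2 ≠ 0 := fun h => omega4_ne_one
    (by
      have h' : omega4 * (1 - omega4) = 0 := by linear_combination h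
      exact (sub_eq_zero.mp ((mul_eq_zero.mp h').resolve_left omega4_ne_zero)).symm)
  obtain ⟨P, Dg, hD01, hD10, hP, hP1, -, -⟩ := Dihedral.exists_conj_diag hN (ρ₁ γ)
    ((hmem _).mpr (by rw [hγ₁]; rfl)) ((hmem _).mpr (by rw [hγ₁]; rfl))
    (hunit _ (by rw [map_sub, hγ₁, hγ₁]; exact homega))
  let ρ₂ : GQ →* M2 (F4 ⊗[ZMod 2] (A ⧸ I)) := conjRep P⁻¹ ρ₁
  have hP' : (P : M2 (F4 ⊗[ZMod 2] (A ⧸ I))).map εk.toRingHom = 1 := Matrix.ext fun i j => by
    have h := (hmem _).mp (hP1 i j)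
    rw [map_sub, sub_eq_zero] at h
    refine h.trans ?_
    by_cases hij : i = j <;> simp [Matrix.one_apply, hij]
  have hres : ∀ σ, (ρ₂ σ).map εk = frameRes (D.M σ) := fun σ => by
    have hPi : ((P⁻¹ : (M2 (F4 ⊗[ZMod 2] (A ⧸ I)))ˣ) : M2 _).map εk.toRingHom = 1 := by
      have h := congrArg (fun X : M2 (F4 ⊗[ZMod 2] (A ⧸ I)) => X.map εk.toRingHom) P.inv_mul
      simp only [Matrix.map_mul, hP', mul_one] at h
      rw [h, Matrix.map_one _ (map_zero _) (map_one _)]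
    change ((((P⁻¹ : (M2 (F4 ⊗[ZMod 2] (A ⧸ I)))ˣ) : M2 _) * ρ₁ σ *
      ((P⁻¹⁻¹ : (M2 (F4 ⊗[ZMod 2] (A ⧸ I)))ˣ) : M2 _))).map εk.toRingHom = _
    rw [inv_inv, Matrix.map_mul, Matrix.map_mul, hP', hPi, one_mul, mul_one]
    exact hres₁ σ
  have hres' : ∀ σ i j, εk (ρ₂ σ i j) = frameRes (D.M σ) i j := fun σ i j => by
    rw [← hres σ]; rfl
  let U : (M2 (F4 ⊗[ZMod 2] (A ⧸ I)))ˣ := P⁻¹ * F
  have hρ₂ : ∀ σ, ρ₂ σ = (U : M2 _) * (E.ρ σ).map ι * ((U⁻¹ : (M2 _)ˣ) : M2 _) := fun σ => by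
    simp [ρ₂, ρ₁, U, conjRep_apply, mapRep_apply, mul_assoc]
  have hdet : ∀ σ, (ρ₂ σ).det = 1 := fun σ => by
    rw [hρ₂, Matrix.det_units_conj, ← RingHom.mapMatrix_apply, ← RingHom.map_det]
    obtain ⟨y, hy⟩ := E.det_one σ
    rw [hy, map_add, map_mul, map_one, map_ofNat, h2, zero_mul, add_zero]
  have htrace : ∀ σ, (ρ₂ σ).trace = ι (E.ρ σ).trace := fun σ => by
    rw [hρ₂, Matrix.trace_units_conj]
    exact (AddMonoidHom.map_trace ι.toAddMonoidHom _).symm
  have hone : ∀ σ, E.ρ σ = 1 → ρ₂ σ = 1 := fun σ hσ => by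
    rw [hρ₂, hσ, Matrix.map_one _ (map_zero ι) (map_one ι), mul_one, Units.mul_inv]
  have hρ₂γ : ρ₂ γ = Dg := by
    simp only [ρ₂, conjRep_apply, inv_inv, mul_assoc, hP, Units.inv_mul_cancel_left]
  have hframe : Dihedral.DihedralFrame ρ₂ (discGroup W) γ w :=
    { det_eq := hdet
      mem := hγH
      upper := by rw [hρ₂γ, hD01]
      lower := by rw [hρ₂γ, hD10]
      distinct := hunit _ (by
        rw [map_sub, hres', hres', hγ, frameRes_rot]; exact homega)
      residual := fun h hh => (hmem _).mpr (by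
        rw [hres']; exact (frameRes_of_isRot ((D.disc_iff h).mp hh)).1)
      conj_mem := fun h hh => (D.disc_iff _).mpr (by
        rw [map_mul, map_mul]
        exact isRot_mul_mul _ _ _ (by rw [← map_mul, mul_inv_cancel, map_one])
          ((D.disc_iff h).mp hh))
      index_two := fun g hg => (D.disc_iff _).mpr (by
        rw [map_mul]
        exact isRot_mul_inv _ _ _ (by rw [← map_mul, mul_inv_cancel, map_one])
          (fun h => hg ((D.disc_iff g).mpr h)) hwrot (D.det_eq g))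
      swap := hunit _ (by
        rw [hres']; exact (frameRes_of_not_isRot (D.det_eq w) hwrot).2.2) }
  have hloc : ∀ (V : ValuationSubring ℚbar) (s : V.decompositionSubgroup ℚ →* A),
      IsSign E.ρ V s → Dihedral.LocalType ρ₂ (V.decompositionSubgroup ℚ)
        ((ι : A →* F4 ⊗[ZMod 2] (A ⧸ I)).comp s) := by
    intro V s hs
    refine ⟨fun a => ?_, fun a b => ?_⟩
    · change ι (s a) * ι (s a) = 1
      rw [← map_mul, hs.1, map_one]
    · have h := congrArg (fun X : M2 A => X.map ι) (hs.2.2 a b)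
      have e : ∀ (X : M2 A) (c : A), (X - c • (1 : M2 A)).map ι = X.map ι - ι c • 1 := fun X c => by
        refine Matrix.ext fun i j => ?_
        by_cases hij : i = j <;> simp [hij]
      simp only [Matrix.map_mul, e, Matrix.map_zero ι (map_zero ι)] at h
      obtain ⟨y, hy⟩ := E.det_one (a : Γ)
      rw [hy, map_mul, map_add, map_mul, map_one, map_ofNat, h2, zero_mul, add_zero, one_mul] at h
      change (ρ₂ (a : Γ) - ι (s a) • 1) * (ρ₂ (b : Γ) - ι (s b) • 1) = 0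
      rw [hρ₂, hρ₂, conj_sub_smul, conj_sub_smul]
      calc _ = (U : M2 _) * (((E.ρ a).map ι - ι (s a) • 1) * ((E.ρ b).map ι - ι (s b) • 1)) *
            ((U⁻¹ : (M2 _)ˣ) : M2 _) := by simp only [mul_assoc, Units.inv_mul_cancel_left]
        _ = 0 := by rw [h, mul_zero, zero_mul]
  -- vanishing
  have hvanish : Dihedral.SelmerVanish ρ₂ (discGroup W) γ := by
    intro f hf hfγ hfker
    let e : (F4 ⊗[ZMod 2] (A ⧸ I)) ⧸ maximalIdeal (F4 ⊗[ZMod 2] (A ⧸ I)) →+* F4 :=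
      Ideal.Quotient.lift _ εk.toRingHom fun x hx => (hmem x).mp hx
    have he : Function.Injective e := RingHom.lift_injective_of_ker_le_ideal _ _ hmax.ge
    have hcoc : ∀ g h, e (f (g * h)) = e (f g) + D.discChar.χ g ^ 2 * e (f h) := fun g h => by
      rw [hf g h, map_add, map_mul]
      congr 2
      change εk (ρ₂ (g : Γ) 0 0 ^ 2) = _
      rw [map_pow, hres']
      rfl
    obtain ⟨a, ha⟩ := hsel (fun h => e (f h)) <| by
      refine ⟨hcoc, ?_, fun ℓ hℓ hℓQ hℓΔ V hV x hx => ?_, fun ℓ hℓ hcase V hV g hg _ x hxg => ?_,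
        fun ℓ hℓ hcase V hV g hg _ h x hh hxg => ?_⟩
      · obtain ⟨L, hL, hL1⟩ := E.level
        refine ⟨L, hL, fun h x hx => ?_⟩
        rw [hcoc, hfker x (hone _ (hL1 _ hx)), map_zero, mul_zero, add_zero]
      · rw [hfker x (hone _ (E.good ℓ hℓ hℓQ hℓΔ V hV _ hx)), map_zero]
      · obtain ⟨s, hs⟩ := E.loc ℓ hℓ hcase V hV
        rw [hfker x (by rw [hxg]; exact (hloc V s hs).map_sq h2 ⟨g, hg⟩), map_zero]
      · obtain ⟨s, hs⟩ := E.loc ℓ hℓ hcase V hV
        rw [hfker x (by rw [hxg]; exact (hloc V s hs).map_mul_conj h2 ⟨g, hg⟩ ⟨_, hh⟩), map_zero]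
    have ha0 : a = 0 := by
      have h := ha ⟨γ, hγH⟩
      have hfg : f ⟨γ, hγH⟩ = 0 := hfγ _ rfl
      simp only [hfg, map_zero] at h
      rcases mul_eq_zero.mp h.symm with h' | h'
      · exfalso
        change frameRes (D.M γ) 0 0 ^ 2 - 1 = 0 at h'
        rw [hγ, frameRes_rot] at h'
        simp only [Matrix.cons_val', Matrix.of_apply, Matrix.cons_val_zero] at h'
        exact omega4_ne_zero (by linear_combination -h' + omega4_spec -
          (CharTwo.two_eq_zero : (2 : F4) = 0))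
      · exact h'
    funext h
    refine he ?_
    rw [ha h, ha0, mul_zero]
    exact (map_zero e).symm
  have h0 := hframe.upperIn_bot hvanish ⟨N, hN⟩
  obtain ⟨ψ, hψker, hψtwo, hψspan⟩ := Dihedral.exists_twoPowerChar (k := F4) hframe h0 h2
    (fun x => ⟨εk x, (hmem _).mpr (by rw [map_sub, AlgHom.commutes, Algebra.algebraMap_self,
      RingHom.id_apply, sub_self])⟩) hN
  -- inertia
  have hinert : ∀ q : ℕ, q.Prime → (q ∈ Q ∨ (q : ℤ) ∣ W.Δ) → ∀ V : ValuationSubring ℚbar,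
      V.LiesOverPrime q → ∃ τ : V.decompositionSubgroup ℚ, (τ : Γ) ∉ discGroup W ∧
        ((q : ℤ) ∣ W.Δ → (τ : Γ) ∈ V.inertiaSubgroupIn ℚ) := by
    intro q hq hcase V hV
    by_cases hqΔ : (q : ℤ) ∣ W.Δ
    · obtain ⟨τ, hτ, hτH⟩ := exists_inertia_not_mem hW hq hqΔ hV
      obtain ⟨t, -, ht⟩ := id hτ
      exact ⟨⟨τ, ht ▸ t.2⟩, hτH, fun _ => hτ⟩
    · obtain ⟨σ, hσ⟩ := Gal.exists_isFrobeniusAt hq hV
      exact ⟨⟨σ, hσ.mem_decompositionSubgroup⟩,
        ((hQ q (hcase.resolve_right hqΔ)).frob V hV σ hσ).1, fun h => absurd h hqΔ⟩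
  have hψcard : Nat.card (Set.range ψ) ≤ classTwoPart W := by
    refine card_range_le_classTwoPart W hW ψ ?_ (fun ℓ hℓ V hV x hx => hψker x ?_)
      fun x => ⟨N, hψtwo x⟩
    · obtain ⟨L, hL, hL1⟩ := E.level
      exact ⟨L, hL, fun x hx => hψker x (hone _ (hL1 _ hx))⟩
    · by_cases hcase : ℓ ∈ Q ∨ (ℓ : ℤ) ∣ W.Δ
      · obtain ⟨s, hs⟩ := E.loc ℓ hℓ hcase V hV
        obtain ⟨τ, hτH, -⟩ := hinert ℓ hℓ hcase V hV
        obtain ⟨t, -, ht⟩ := id hx
        refine (hloc V s hs).map_eq_one hframe h0 hτH (g := ⟨(x : Γ), ht ▸ t.2⟩) x.2 ?_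
        change ι (s _) = 1
        rw [hs.2.1 _ hx, map_one]
      · rw [not_or] at hcase
        exact hone _ (E.good ℓ hℓ hcase.1 hcase.2 V hV _ hx)
  -- the span
  let SA := Algebra.adjoin F4 (Set.range ψ)
  have hSA : Subalgebra.toSubmodule SA = Submodule.span F4 (Set.range ψ) := by
    rw [Algebra.adjoin_eq_span, ← MonoidHom.coe_mrange, Submonoid.closure_eq, MonoidHom.coe_mrange]
  have htrSA : ∀ σ, ι (E.ρ σ).trace ∈ SA := fun σ => by
    rw [← Subalgebra.mem_toSubmodule, hSA, ← htrace]; exact hψspan σ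
  have hsignSA : ∀ p : ℕ, p.Prime → (p : ℤ) ∣ W.Δ → ∀ V : ValuationSubring ℚbar,
      V.LiesOverPrime p → ∀ s : V.decompositionSubgroup ℚ →* A, IsSign E.ρ V s →
        ∀ g, ι (s g) ∈ SA := by
    intro p hp hpΔ V hV s hs g
    obtain ⟨τ, hτH, hτI⟩ := hinert p hp (Or.inr hpΔ) V hV
    obtain ⟨g', hg', hgg⟩ : ∃ g' : V.decompositionSubgroup ℚ,
        (g' : Γ) ∈ discGroup W ∧ s g' = s g := by
      by_cases hgH : (g : Γ) ∈ discGroup W
      · exact ⟨g, hgH, rfl⟩
      · refine ⟨g * τ⁻¹, (D.disc_iff _).mpr ?_, ?_⟩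
        · rw [Subgroup.coe_mul, Subgroup.coe_inv, map_mul]
          exact isRot_mul_inv _ _ _ (by rw [← map_mul, mul_inv_cancel, map_one])
            (fun h => hgH ((D.disc_iff _).mpr h)) (fun h => hτH ((D.disc_iff _).mpr h))
            (D.det_eq _)
        · rw [map_mul, hs.2.1 τ⁻¹ (by rw [Subgroup.coe_inv]; exact inv_mem (hτI hpΔ)), mul_one]
    have hsm := (hloc V s hs).map_eq_smul hframe h0 hτH hg'
    have hc : IsUnit (ρ₂ γ).trace := hunit _ (by
      rw [Matrix.trace_fin_two, map_add, hres', hres', hγ, frameRes_rot]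
      simp only [Matrix.cons_val', Matrix.of_apply, Matrix.cons_val_zero, Matrix.cons_val_one,
        Matrix.cons_val_fin_one]
      intro h
      exact one_ne_zero (α := F4) (by linear_combination omega4_spec - h))
    have hprod : (ρ₂ ((g' : Γ) * γ)).trace = ι (s g) * (ρ₂ γ).trace := by
      rw [map_mul, hsm, trace_smul_one_mul]
      change ι (s g') * _ = _
      rw [hgg]
    obtain ⟨c, hc⟩ := hc
    have hinv : ((c⁻¹ : (F4 ⊗[ZMod 2] (A ⧸ I))ˣ) : F4 ⊗[ZMod 2] (A ⧸ I)) ∈ SA := by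
      have e : c⁻¹ = c ^ (orderOf c - 1) := by
        refine inv_eq_of_mul_eq_one_right ?_
        rw [← pow_succ', Nat.sub_add_cancel (orderOf_pos c), pow_orderOf_eq_one]
      rw [e, Units.val_pow_eq_pow_val, hc, htrace]
      exact pow_mem (htrSA γ) _
    have : ι (s g) = (ρ₂ ((g' : Γ) * γ)).trace * ((c⁻¹ : (_)ˣ) : F4 ⊗[ZMod 2] (A ⧸ I)) := by
      rw [hprod, ← hc, mul_assoc, Units.mul_inv, mul_one]
    rw [this, htrace]
    exact mul_mem (htrSA _) hinv
  let S : Set (F4 ⊗[ZMod 2] (A ⧸ I)) := ι '' (Set.range (fun σ : Γ => (E.ρ σ).trace) ∪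
    {a | ∃ p : ℕ, p.Prime ∧ (p : ℤ) ∣ W.Δ ∧ ∃ V : ValuationSubring ℚbar, V.LiesOverPrime p ∧
      ∃ s : V.decompositionSubgroup ℚ →* A, IsSign E.ρ V s ∧ ∃ g, a = s g})
  have hS : S ⊆ Submodule.span F4 (Set.range ψ) := by
    rw [← hSA]
    rintro _ ⟨a, (⟨σ, rfl⟩ | ⟨p, hp, hpΔ, V, hV, s, hs, g, rfl⟩), rfl⟩
    · exact htrSA σ
    · exact hsignSA p hp hpΔ V hV s hs g
  have hfinr := Dihedral.finrank_le_of_adjoin (k := F4) ψ (Set.toFinite _) (fun q => ι (E.u q))
    (fun q => by rw [← map_mul, E.u_sq, map_one]) S hS (by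
      refine eq_top_iff.mpr fun x _ => ?_
      have hιmem : ∀ a, ι a ∈ Algebra.adjoin F4 (S ∪ Set.range fun q => ι (E.u q)) := by
        intro a
        have ha : a ∈ Subring.closure (Set.range (fun σ : Γ => (E.ρ σ).trace) ∪
          {a | ∃ p : ℕ, p.Prime ∧ (p : ℤ) ∣ W.Δ ∧ ∃ V : ValuationSubring ℚbar, V.LiesOverPrime p ∧
            ∃ s : V.decompositionSubgroup ℚ →* A, IsSign E.ρ V s ∧ ∃ g, a = s g} ∪
          Set.range E.u) := E.gen ▸ Subring.mem_top a
        induction ha using Subring.closure_induction with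
        | mem y hy =>
          rcases hy with hy | ⟨q, rfl⟩
          · exact Algebra.subset_adjoin (Or.inl ⟨y, hy, rfl⟩)
          · exact Algebra.subset_adjoin (Or.inr ⟨q, rfl⟩)
        | zero => rw [map_zero]; exact zero_mem _
        | one => rw [map_one]; exact one_mem _
        | add y z _ _ hy hz => rw [map_add]; exact add_mem hy hz
        | neg y _ hy => rw [map_neg]; exact neg_mem hy
        | mul y z _ _ hy hz => rw [map_mul]; exact mul_mem hy hz
      induction x using TensorProduct.induction_on with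
      | zero => exact zero_mem _
      | add y z hy hz => exact add_mem (hy trivial) (hz trivial)
      | tmul c a =>
        obtain ⟨a, rfl⟩ := Ideal.Quotient.mk_surjective a
        have he : (c ⊗ₜ[ZMod 2] Ideal.Quotient.mk I a : F4 ⊗[ZMod 2] (A ⧸ I)) =
            algebraMap F4 _ c * ι a := by
          change _ = (c ⊗ₜ[ZMod 2] (1 : A ⧸ I)) * ((1 : F4) ⊗ₜ[ZMod 2] Ideal.Quotient.mk I a)
          rw [Algebra.TensorProduct.tmul_mul_tmul, mul_one, one_mul]
        rw [he]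
        exact mul_mem (Subalgebra.algebraMap_mem _ c) (hιmem a))
  rw [Module.finrank_baseChange, Fintype.card_coe] at hfinr
  rw [show Nat.card (A ⧸ Ideal.span {(2 : A)}) = Nat.card (ZMod 2) ^ Module.finrank (ZMod 2) (A ⧸ I)
    from Module.natCard_eq_pow_finrank, Nat.card_zmod]
  exact Nat.pow_le_pow_right two_pos (hfinr.trans (Nat.mul_le_mul_right _ hψcard))

end Fermat.Agent.Root
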