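import Fermat.Agent.Root.Selmer.Translate
import Fermat.Agent.Root.Selmer.AuxExists
import Fermat.Agent.Root.Selmer.Drop

/-!
# Auxiliary primes killing the Selmer group of `St`

The statement: `exists_selmer_primes`.  Cocycles give square classes of the cubic field
(`Selmer.Translate`), every nontrivial class is detected by an auxiliary prime
(`Selmer.AuxExists`), and each auxiliary prime halves the group (`Selmer.Drop`).
-/

set_option autoImplicit false

noncomputable section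

namespace Fermat.Agent.Root

open Selmer Selmer.Frame

/-- There are auxiliary sets of bounded size, at every level, with trivial Selmer group. -/
theorem exists_selmer_primes (W : WeierstrassCurve ℤ) (hW : GenusCurve W) {k : Type} [Field k]
    [CharP k 2] [Finite k] (C : DiscChar W k) :
    ∃ r : ℕ, ∀ n : ℕ, 3 ≤ n → ∃ Q : Finset ℕ, Q.card = r ∧ (∀ q ∈ Q, AuxPrime W n q) ∧
      ∀ f : discGroup W → k, SelmerCocycle C Q f →
        ∃ a : k, ∀ h, f h = (C.χ h ^ 2 - 1) * a := by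
  obtain ⟨R⟩ := exists_frame W hW.neg
  obtain ⟨σ, hσ, hσ0⟩ := R.exists_rot hW.irr
  let T : R.Rot := ⟨σ, hσ, hσ0⟩
  obtain ⟨r, hr⟩ := exists_relIndex_empty hW T
  refine ⟨r, fun n hn => ?_⟩
  have hS : ∀ Q : Finset ℕ, (∀ q ∈ Q, AuxPrime W n q) →
      ∀ ℓ : ℕ, ℓ.Prime → (ℓ ∈ Q ∨ (ℓ : ℤ) ∣ W.Δ) → R.Splits ℓ := fun Q hQ ℓ hℓ h =>
    h.elim (fun h => R.splits_of_aux (hQ ℓ h))
      fun h => R.splits_of_dvd hW.ss hℓ h (hW.odd_val ℓ hℓ h)
  have key : ∀ j ≤ r, ∃ Q : Finset ℕ, Q.card = j ∧ (∀ q ∈ Q, AuxPrime W n q) ∧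
      R.squares.relIndex (sel T Q) = 2 ^ (r - j) := by
    intro j
    induction j with
    | zero => exact fun _ => ⟨∅, rfl, by simp, by simpa using hr⟩
    | succ j ih =>
      intro hj
      obtain ⟨Q, hcard, hQ, hidx⟩ := ih (by omega)
      have hnt : ¬ sel T Q ≤ R.squares := fun h => by
        rw [Subgroup.relIndex_eq_one.mpr h, eq_comm, Nat.pow_eq_one] at hidx
        omega
      obtain ⟨ψ, hψ, hψ'⟩ := SetLike.not_le_iff_exists.mp hnt
      obtain ⟨q, hqQ, hq, hloc⟩ := exists_aux hW T hψ hψ' hn Q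
      have hqΔ : ¬ (q : ℤ) ∣ W.Δ := fun h => hq.good (dvd_mul_of_dvd_right h 2)
      obtain ⟨hle, h2⟩ := relIndex_insert hW T (hS Q hQ) hq.prime hqQ hqΔ (R.splits_of_aux hq)
        hψ hloc
      refine ⟨insert q Q, by rw [Finset.card_insert_of_notMem hqQ, hcard],
        Finset.forall_mem_insert _ _ _ |>.mpr ⟨hq, hQ⟩, ?_⟩
      have h := Subgroup.relIndex_mul_relIndex _ _ _ (squares_le_sel T (insert q Q)) hle
      rw [h2, hidx, show r - j = r - (j + 1) + 1 by omega, pow_succ] at h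
      exact Nat.eq_of_mul_eq_mul_right two_pos h
  obtain ⟨Q, hcard, hQ, hidx⟩ := key r le_rfl
  rw [Nat.sub_self, pow_zero, Subgroup.relIndex_eq_one] at hidx
  exact ⟨Q, hcard, hQ, fun f hf => R.exists_const hf hW T (hS Q hQ) hidx⟩

end Fermat.Agent.Root
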