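import Fermat.Agent.Root.GenusResidualProps
import Fermat.Agent.Root.GenusSelmer

/-!
# The eigenframe of the residual representation over `𝔽₄`

Over `𝔽₄` the rotation is diagonal and the cubic character of `G_K` is read off it
(`ResidualMatrix.discChar`).
-/

set_option autoImplicit false

noncomputable section

open WeierstrassCurve WeierstrassCurve.Affine.Point
open scoped WeierstrassCurve.Affine

namespace Fermat.Agent.Root

open Fermat.Agent.Deformation

local notation "ℚbar" => AlgebraicClosure ℚ
local notation "Γ" => AlgebraicClosure ℚ ≃ₐ[ℚ] AlgebraicClosure ℚ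

/-- The field with four elements. -/
abbrev F4 : Type := GaloisField 2 2

instance : Finite F4 := Nat.finite_of_card_ne_zero (by
  rw [GaloisField.card 2 2 two_ne_zero]; norm_num)

theorem exists_omega : ∃ ω : F4, ω ^ 2 + ω + 1 = 0 := by
  classical
  have : Fintype F4 := Fintype.ofFinite _
  have h4 : Fintype.card F4 = 4 := by
    rw [← Nat.card_eq_fintype_card, GaloisField.card 2 2 two_ne_zero]; norm_num
  obtain ⟨x, hx⟩ : ∃ x : F4, x ∉ ({0, 1} : Finset F4) := by
    by_contra h
    push Not at h
    have := Finset.card_le_card (s := (Finset.univ : Finset F4)) fun x _ => h x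
    rw [Finset.card_univ, h4] at this
    exact absurd this (by
      rw [Finset.card_insert_of_notMem (by simp), Finset.card_singleton]; norm_num)
  simp only [Finset.mem_insert, Finset.mem_singleton, not_or] at hx
  have hx4 : x ^ 4 = x := h4 ▸ FiniteField.pow_card x
  exact ⟨x, (mul_eq_zero.mp ((by linear_combination hx4 :
    (x * (x - 1)) * (x ^ 2 + x + 1) = 0))).resolve_left
      (mul_ne_zero hx.1 (sub_ne_zero.mpr hx.2))⟩

/-- A cube root of unity. -/
def omega4 : F4 := exists_omega.choose

theorem omega4_spec : omega4 ^ 2 + omega4 + 1 = 0 := exists_omega.choose_spec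

theorem omega4_ne_one : omega4 ≠ 1 := fun h => by
  have e := omega4_spec
  rw [h] at e
  exact one_ne_zero (α := F4) (by linear_combination e - (CharTwo.two_eq_zero : (2 : F4) = 0))

/-- The eigenvectors of `rotMat`. -/
def frame4 : M2 F4 := !![1, 1; omega4, omega4 ^ 2]

/-- The inverse of `frame4`. -/
def frame4Inv : M2 F4 := !![omega4 ^ 2, 1; omega4, 1]

theorem frame4Inv_mul : frame4Inv * frame4 = 1 := by
  have e := omega4_spec
  have t : (2 : F4) = 0 := CharTwo.two_eq_zero
  ext i j
  fin_cases i <;> fin_cases j <;>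
    simp [frame4, frame4Inv, Matrix.mul_apply, Fin.sum_univ_two]
  · linear_combination e - t
  · linear_combination omega4 ^ 2 * t
  · linear_combination omega4 * t
  · linear_combination e - t

theorem frame4_mul : frame4 * frame4Inv = 1 := mul_eq_one_comm.mp frame4Inv_mul

/-- The residual representation in the eigenframe. -/
def frameRes (m : M2 (ZMod 2)) : M2 F4 :=
  frame4Inv * m.map (algebraMap (ZMod 2) F4) * frame4

theorem frameRes_mul (m n : M2 (ZMod 2)) : frameRes (m * n) = frameRes m * frameRes n := by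
  simp only [frameRes, Matrix.map_mul, mul_assoc]
  rw [← mul_assoc frame4 frame4Inv, frame4_mul, one_mul]

theorem frameRes_one : frameRes 1 = 1 := by
  rw [frameRes, Matrix.map_one _ (_root_.map_zero _) (map_one _), mul_one, frame4Inv_mul]

theorem frameRes_det (m : M2 (ZMod 2)) : (frameRes m).det = algebraMap (ZMod 2) F4 m.det := by
  rw [frameRes, Matrix.det_mul, Matrix.det_mul, mul_comm, ← mul_assoc, ← Matrix.det_mul,
    frame4_mul, Matrix.det_one, one_mul, RingHom.map_det, RingHom.mapMatrix_apply]

theorem frameRes_trace (m : M2 (ZMod 2)) : (frameRes m).trace = algebraMap (ZMod 2) F4 m.trace := by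
  rw [frameRes, Matrix.trace_mul_comm, ← mul_assoc, frame4_mul, one_mul]
  exact (AddMonoidHom.map_trace (algebraMap (ZMod 2) F4).toAddMonoidHom m).symm

theorem frameRes_rot : frameRes rotMat = !![omega4, 0; 0, omega4 ^ 2] := by
  have e := omega4_spec
  have t : (2 : F4) = 0 := CharTwo.two_eq_zero
  have h : rotMat.map (algebraMap (ZMod 2) F4) * frame4 =
      frame4 * !![omega4, 0; 0, omega4 ^ 2] := by
    ext i j
    fin_cases i <;> fin_cases j <;>
      simp [frame4, rotMat, Matrix.mul_apply, Fin.sum_univ_two]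
    · linear_combination -e + (1 + omega4) * t
    · linear_combination (1 + omega4 - omega4 ^ 2) * e - omega4 * t
  rw [frameRes, mul_assoc, h, ← mul_assoc, frame4Inv_mul, one_mul]

theorem frameRes_swap : frameRes !![0, 1; 1, 0] = !![0, omega4 ^ 2; omega4, 0] := by
  have e := omega4_spec
  have h : (!![0, 1; 1, 0] : M2 (ZMod 2)).map (algebraMap (ZMod 2) F4) * frame4 =
      frame4 * !![0, omega4 ^ 2; omega4, 0] := by
    ext i j
    fin_cases i <;> fin_cases j <;>
      simp [frame4, Matrix.mul_apply, Fin.sum_univ_two]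
    · linear_combination (1 - omega4) * e
    · linear_combination (1 - omega4) * e
  rw [frameRes, mul_assoc, h, ← mul_assoc, frame4Inv_mul, one_mul]

theorem frameRes_of_isRot {m : M2 (ZMod 2)} (h : IsRot m) :
    frameRes m 0 1 = 0 ∧ frameRes m 1 0 = 0 := by
  rcases h with rfl | rfl | rfl <;>
    simp [frameRes_one, frameRes_mul, frameRes_rot, Matrix.mul_apply, Fin.sum_univ_two]

theorem exists_swap_mul : ∀ m : M2 (ZMod 2), m.det = 1 → ¬ IsRot m →
    ∃ r, IsRot r ∧ m = r * !![0, 1; 1, 0] := by
  unfold IsRot rotMat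
  decide

theorem omega4_ne_zero : omega4 ≠ 0 := fun h => by
  have e := omega4_spec
  rw [h] at e
  simp at e

theorem frameRes_of_not_isRot {m : M2 (ZMod 2)} (hdet : m.det = 1) (h : ¬ IsRot m) :
    frameRes m 0 0 = 0 ∧ frameRes m 1 1 = 0 ∧ frameRes m 0 1 ≠ 0 := by
  obtain ⟨r, hr, rfl⟩ := exists_swap_mul m hdet h
  obtain ⟨h01, h10⟩ := frameRes_of_isRot hr
  have hdet' := frameRes_det (r * !![0, 1; 1, 0])
  rw [hdet, map_one] at hdet'
  have h00 : frameRes (r * !![0, 1; 1, 0]) 0 0 = 0 := by
    simp [frameRes_mul, frameRes_swap, Matrix.mul_apply, Fin.sum_univ_two, h01]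
  have h11 : frameRes (r * !![0, 1; 1, 0]) 1 1 = 0 := by
    simp [frameRes_mul, frameRes_swap, Matrix.mul_apply, Fin.sum_univ_two, h10]
  refine ⟨h00, h11, fun h0 => ?_⟩
  rw [Matrix.det_fin_two, h00, h0] at hdet'
  simp at hdet'

variable {W : WeierstrassCurve ℤ}

/-- The cubic character in the eigenframe. -/
def ResidualMatrix.frameChar (D : ResidualMatrix W) : discGroup W →* F4 where
  toFun h := frameRes (D.M (h : Γ)) 0 0
  map_one' := by rw [OneMemClass.coe_one, map_one, frameRes_one, Matrix.one_apply_eq]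
  map_mul' g h := by
    rw [Subgroup.coe_mul, map_mul, frameRes_mul, Matrix.mul_apply, Fin.sum_univ_two,
      (frameRes_of_isRot ((D.disc_iff _).mp g.2)).1, zero_mul, add_zero]

theorem ResidualMatrix.frameChar_mul_diag (D : ResidualMatrix W) (h : discGroup W) :
    D.frameChar h * frameRes (D.M (h : Γ)) 1 1 = 1 := by
  have hd := frameRes_det (D.M (h : Γ))
  rw [D.det_eq, map_one, Matrix.det_fin_two, (frameRes_of_isRot ((D.disc_iff _).mp h.2)).1,
    zero_mul, sub_zero] at hd
  exact hd

/-- The cubic character of a residual matrix. -/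
def ResidualMatrix.discChar (D : ResidualMatrix W) : DiscChar W F4 where
  χ := D.frameChar
  trace_eq h := by
    obtain ⟨b, hb⟩ := D.torsion
    have ht : galoisTrace (K := ℚbar) ℚ (W.map (Int.castRingHom ℚ)).toAffine 2 (h : Γ) =
        (D.M (h : Γ)).trace := by
      rw [galoisTrace_def, LinearMap.trace_eq_matrix_trace (ZMod 2) b, hb]
    have h11 : frameRes (D.M (h : Γ)) 1 1 = D.frameChar h⁻¹ := by
      have e1 := D.frameChar_mul_diag h
      have e2 : D.frameChar h * D.frameChar h⁻¹ = 1 := by rw [← map_mul, mul_inv_cancel, map_one]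
      have h0 : D.frameChar h ≠ 0 := fun h0 => by simp [h0] at e1
      exact mul_left_cancel₀ h0 (e1.trans e2.symm)
    have hval : ∀ z : ZMod 2, ((z.val : ℕ) : F4) = algebraMap (ZMod 2) F4 z := fun z => by
      rw [← map_natCast (algebraMap (ZMod 2) F4), ZMod.natCast_zmod_val]
    rw [hval, ht, ← frameRes_trace, Matrix.trace_fin_two, h11]
    rfl
  nontrivial := by
    obtain ⟨γ, hγ⟩ := D.exists_rot
    refine ⟨⟨γ, (D.disc_iff γ).mpr (Or.inr (Or.inl hγ))⟩, ?_⟩
    change frameRes (D.M γ) 0 0 ≠ 1
    rw [hγ, frameRes_rot]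
    simpa using omega4_ne_one

end Fermat.Agent.Root
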