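import Fermat.Agent.Root.GenusBound
import Fermat.Agent.Gal.Decomposition

/-!
# The representation over the coefficient ring of the class

The representations at the members glue to one over the coefficient ring, with the rank one local
condition at every prime of `Q` and every bad prime.
-/

set_option autoImplicit false

noncomputable section

open IsLocalRing CongruenceSubgroup WeierstrassCurve

namespace Fermat.Agent.Root

open Fermat.Agent.Deformation

local notation "ℚbar" => AlgebraicClosure ℚ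
local notation "Γ" => AlgebraicClosure ℚ ≃ₐ[ℚ] AlgebraicClosure ℚ

/-- A matrix congruent to one modulo eight cannot satisfy the local relation with sign `-1`. -/
theorem eq_one_of_rel {O : Type} [CommRing O] [IsDomain O] [IsLocalRing O] [CharZero O]
    (h2 : (2 : O) ∈ maximalIdeal O) {X : M2 O} {s : O}
    (hX : ∀ i j, X i j - (1 : M2 O) i j ∈ Ideal.span {(8 : O)}) (hs : s * s = 1)
    (hrel : (X - (X.det * s) • (1 : M2 O)) * (X - s • (1 : M2 O)) = 0) : s = 1 := by
  rcases mul_self_eq_one_iff.mp hs with h | h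
  · exact h
  exfalso
  simp only [Ideal.mem_span_singleton] at hX
  obtain ⟨a, ha⟩ := hX 0 0
  obtain ⟨b, hb⟩ := hX 0 1
  obtain ⟨c, hc⟩ := hX 1 0
  obtain ⟨d, hd⟩ := hX 1 1
  simp at ha hb hc hd
  rw [sub_eq_iff_eq_add] at ha hd
  have h00 := congrArg (fun Y => Y 0 0) hrel
  simp [h, Matrix.mul_apply, Fin.sum_univ_two, Matrix.det_fin_two, ha, hb, hc, hd] at h00
  set u : O := (1 + 4 * (a + (a + d + 8 * (a * d - b * c)))) * (1 + 4 * a) + 16 * b * c
  have hu : (4 : O) * u = 0 := by rw [← h00]; ring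
  have hu' : IsUnit u := IsLocalRing.notMem_maximalIdeal.mp fun hm => by
    refine (maximalIdeal.isMaximal O).ne_top ((Ideal.eq_top_iff_one _).mpr ?_)
    have h' := Ideal.sub_mem _ hm (Ideal.mul_mem_right
      (2 * (a + (a + d + 8 * (a * d - b * c))) +
        2 * a * (1 + 4 * (a + (a + d + 8 * (a * d - b * c)))) + 8 * b * c) _ h2)
    convert h' using 1
    ring
  exact (mul_ne_zero (by norm_num : (4 : O) ≠ 0) hu'.ne_zero) hu

variable {W : WeierstrassCurve ℤ} {Q : Finset ℕ} {p₀ : ℕ} [NeZero (classLevel W Q)]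

/-- The local relation at the image of a ring hom. -/
theorem map_rel {R S : Type} [CommRing R] [CommRing S] (f : R →+* S) {X Y : M2 R} {c d : R}
    (h : (X.map f - ((X.map f).det * f c) • (1 : M2 S)) * (Y.map f - f d • (1 : M2 S)) = 0) :
    ((X - (X.det * c) • (1 : M2 R)) * (Y - d • (1 : M2 R))).map f = 0 := by
  have e : ∀ (Z : M2 R) (k : R), (Z - k • (1 : M2 R)).map f = Z.map f - f k • (1 : M2 S) :=
    fun Z k => by
      refine Matrix.ext fun i j => ?_
      by_cases hij : i = j <;> simp [hij]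
  rw [Matrix.map_mul, e, e, map_mul, RingHom.map_det, RingHom.mapMatrix_apply]
  exact h

/-- The local condition over the coefficient ring at one place. -/
theorem exists_localSign (P : ClassPlace W Q p₀) (R : GQ →* M2 P.ring)
    (hR8 : ∃ L : IntermediateField ℚ ℚbar, FiniteDimensional ℚ L ∧ ∀ σ : Γ, (∀ x ∈ L, σ x = x) →
      ∀ i j, R σ i j - (1 : M2 P.ring) i j ∈ Ideal.span {(8 : P.ring)})
    {q : ℕ} (hq : q.Prime) {A : ValuationSubring ℚbar} (hA : A.LiesOverPrime q)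
    (hUsq : P.gen q hq * P.gen q hq = 1)
    {O : ↥(memberSet W Q p₀) → Type} [∀ g, CommRing (O g)] [∀ g, IsDomain (O g)]
    [∀ g, IsLocalRing (O g)] [∀ g, CharZero (O g)] [∀ g, Algebra ℤ_[2] (O g)]
    (h2 : ∀ g, (2 : O g) ∈ maximalIdeal (O g))
    (x : ∀ g, P.ring →ₐ[ℤ_[2]] O g) (hx : ∀ z, (∀ g, x g z = 0) → z = 0)
    (hs : ∀ g, ∃ s : A.decompositionSubgroup ℚ →* O g,
      (∀ a, s a * s a = 1) ∧
      (∀ a : A.decompositionSubgroup ℚ, (a : Γ) ∈ A.inertiaSubgroupIn ℚ → s a = 1) ∧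
      (∀ a : A.decompositionSubgroup ℚ, A.IsFrobeniusAt (a : Γ) q → s a = x g (P.gen q hq)) ∧
      ∀ a b : A.decompositionSubgroup ℚ,
        (mapRep (x g : P.ring →+* O g) R a -
            ((mapRep (x g : P.ring →+* O g) R a).det * s a) • (1 : M2 (O g))) *
          (mapRep (x g : P.ring →+* O g) R b - s b • (1 : M2 (O g))) = 0) :
    ∃ s : A.decompositionSubgroup ℚ →* P.ring,
      (∀ a, s a = 1 ∨ s a = P.gen q hq) ∧ (∀ a, s a * s a = 1) ∧
      (∀ a : A.decompositionSubgroup ℚ, (a : Γ) ∈ A.inertiaSubgroupIn ℚ → s a = 1) ∧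
      (∀ a : A.decompositionSubgroup ℚ, A.IsFrobeniusAt (a : Γ) q → s a = P.gen q hq) ∧
      (∃ L : IntermediateField ℚ ℚbar, FiniteDimensional ℚ L ∧
        ∀ a : A.decompositionSubgroup ℚ, (∀ y ∈ L, (a : Γ) y = y) → s a = 1) ∧
      ∀ a b : A.decompositionSubgroup ℚ,
        (R a - ((R a).det * s a) • (1 : M2 P.ring)) * (R b - s b • (1 : M2 P.ring)) = 0 := by
  classical
  have : Fact q.Prime := ⟨hq⟩
  choose s hs1 hsI hsF hrel using hs
  obtain ⟨L₀, hL₀, hL⟩ := hR8
  set N := IntermediateField.normalClosure ℚ L₀ ℚbar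
  have : Normal ℚ N := normalClosure.normal ℚ L₀ ℚbar
  have hLN : L₀ ≤ N := L₀.le_normalClosure
  have hfix : ∀ a : A.decompositionSubgroup ℚ, (∀ y ∈ N, (a : Γ) y = y) → ∀ g, s g a = 1 :=
    fun a ha g => eq_one_of_rel (h2 g) (fun i j => by
      have h := hL a (fun y hy => ha y (hLN hy)) i j
      have h' := Ideal.mem_map_of_mem (x g : P.ring →+* O g) h
      rw [Ideal.map_span, Set.image_singleton, map_ofNat, map_sub] at h'
      have e : (1 : M2 (O g)) i j = x g ((1 : M2 P.ring) i j) := by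
        by_cases hij : i = j <;> simp [Matrix.one_apply, hij]
      rw [e]
      exact h') (hs1 g a) (hrel g a a)
  obtain ⟨F, hF⟩ := Gal.exists_isFrobeniusAt hq hA
  have hkey : ∀ a : A.decompositionSubgroup ℚ,
      ∃ u : P.ring, (u = 1 ∨ u = P.gen q hq) ∧ ∀ g, s g a = x g u := by
    intro a
    obtain ⟨m, τ, hτ, hm⟩ := Gal.exists_pow_mul_inertia_eqOn Fact.out N hA hF (d := (a : Γ)) a.2
    let F' : A.decompositionSubgroup ℚ := ⟨F, hF.mem_decompositionSubgroup⟩
    have hτD : τ ∈ A.decompositionSubgroup ℚ := by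
      obtain ⟨t, -, ht⟩ := hτ
      exact ht ▸ t.2
    let τ' : A.decompositionSubgroup ℚ := ⟨τ, hτD⟩
    have hh : ∀ y ∈ N, (((F' ^ m * τ')⁻¹ * a : A.decompositionSubgroup ℚ) : Γ) y = y := by
      intro y hy
      have e : (((F' ^ m * τ')⁻¹ * a : A.decompositionSubgroup ℚ) : Γ) = (F ^ m * τ)⁻¹ * (a : Γ) :=
        rfl
      rw [e, AlgEquiv.mul_apply, hm y hy, ← AlgEquiv.mul_apply, inv_mul_cancel, AlgEquiv.one_apply]
    refine ⟨P.gen q hq ^ m, ?_, fun g => ?_⟩
    · rcases m.even_or_odd with ⟨j, rfl⟩ | ⟨j, rfl⟩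
      · left; rw [← two_mul, pow_mul, pow_two, hUsq, one_pow]
      · right; rw [pow_succ, pow_mul, pow_two, hUsq, one_pow, one_mul]
    · have e : a = F' ^ m * τ' * ((F' ^ m * τ')⁻¹ * a) := by group
      rw [e, map_mul, hfix _ hh g, mul_one, map_mul, hsI g τ' hτ, mul_one, map_pow, hsF g F' hF,
        map_pow]
  choose u hu1 hu using hkey
  have hinj : ∀ {y z : P.ring}, (∀ g, x g y = x g z) → y = z := fun {y z} h =>
    sub_eq_zero.mp (hx _ fun g => by rw [map_sub, h, sub_self])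
  refine ⟨{ toFun := u, map_one' := hinj fun g => by rw [← hu, map_one, map_one],
            map_mul' := fun a b => hinj fun g => by rw [map_mul, ← hu, ← hu, ← hu, map_mul] },
    hu1, fun a => hinj fun g => ?_, fun a ha => hinj fun g => ?_, fun a ha => hinj fun g => ?_,
    ⟨N, inferInstance, fun a ha => hinj fun g => ?_⟩, fun a b => ?_⟩
  · change x g (u a * u a) = x g 1
    rw [map_mul, ← hu, hs1, map_one]
  · change x g (u a) = x g 1
    rw [← hu, hsI g a ha, map_one]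
  · change x g (u a) = _
    rw [← hu, hsF g a ha]
  · change x g (u a) = x g 1
    rw [← hu, hfix a ha g, map_one]
  · refine Matrix.ext fun i j => hinj fun g => ?_
    have h := hrel g a b
    rw [hu, hu] at h
    exact (congrFun (congrFun (map_rel (x g : P.ring →+* O g) h) i) j).trans (map_zero (x g)).symm

/-- The representation over the coefficient ring. -/
structure ClassRep (P : ClassPlace W Q p₀) (D : ResidualMatrix W) where
  R : GQ →* M2 P.ring
  ε : P.ring →+* ZMod 2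
  residual : ∀ σ : Γ, (R σ).map ε = D.M σ
  level : ∀ n : ℕ, ∃ L : IntermediateField ℚ ℚbar, FiniteDimensional ℚ L ∧
    ∀ σ : Γ, (∀ x ∈ L, σ x = x) →
      ∀ i j, R σ i j - (1 : M2 P.ring) i j ∈ Ideal.span {(2 : P.ring) ^ n}
  good : ∀ (ℓ : ℕ) (hℓ : ℓ.Prime), ¬ ℓ ∣ classLevel W Q * 2 →
    ∀ A : ValuationSubring ℚbar, A.LiesOverPrime ℓ →
      (∀ σ ∈ A.inertiaSubgroupIn ℚ, R σ = 1) ∧
      ∀ σ : Γ, A.IsFrobeniusAt σ ℓ → (R σ).trace = P.gen ℓ hℓ ∧ (R σ).det = (ℓ : P.ring)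
  loc : ∀ (q : ℕ) (hq : q.Prime), (q ∈ Q ∨ (q : ℤ) ∣ W.Δ) →
    ∀ A : ValuationSubring ℚbar, A.LiesOverPrime q →
    ∃ s : A.decompositionSubgroup ℚ →* P.ring,
      (∀ a, s a = 1 ∨ s a = P.gen q hq) ∧ (∀ a, s a * s a = 1) ∧
      (∀ a : A.decompositionSubgroup ℚ, (a : Γ) ∈ A.inertiaSubgroupIn ℚ → s a = 1) ∧
      (∀ a : A.decompositionSubgroup ℚ, A.IsFrobeniusAt (a : Γ) q → s a = P.gen q hq) ∧
      (∃ L : IntermediateField ℚ ℚbar, FiniteDimensional ℚ L ∧
        ∀ a : A.decompositionSubgroup ℚ, (∀ y ∈ L, (a : Γ) y = y) → s a = 1) ∧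
      ∀ a b : A.decompositionSubgroup ℚ,
        (R a - ((R a).det * s a) • (1 : M2 P.ring)) * (R b - s b • (1 : M2 P.ring)) = 0

/-- **The representation over the coefficient ring of the class exists.** -/
theorem ClassPlace.nonempty_classRep (P : ClassPlace W Q p₀) (hW : GenusCurve W)
    (D : ResidualMatrix W) (hQ : ∀ q ∈ Q, AuxPrime W 3 q) (hp₀ : p₀.Prime) (hp₀2 : p₀ ≠ 2)
    (hp₀Δ : (p₀ : ℤ) ∣ W.Δ) [IsLocalRing P.ring] : Nonempty (ClassRep P D) := by
  classical
  obtain ⟨g₀⟩ : Nonempty ↥(memberSet W Q p₀) := by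
    by_contra h
    exact one_ne_zero (α := P.ring) (P.eq_zero_of_point fun g => absurd ⟨g⟩ h)
  have : IsLocalHom (algebraMap ℤ_[2] P.ring) :=
    RingHom.IsIntegral.isLocalHom (Algebra.IsIntegral.of_finite ℤ_[2] P.ring).isIntegral
      fun a b h => P.algebraMap_injective (by simpa using congrArg (P.point g₀) h)
  have : IsAdicComplete (maximalIdeal P.ring) P.ring :=
    IsLocalRing.isAdicComplete_of_module_finite (𝒪 := ℤ_[2])
  have : IsNoetherianRing P.ring := IsNoetherianRing.of_finite ℤ_[2] P.ring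
  choose O cO dO vO aO fO zO algO finO lhO j hj N hNc hres hfrob hloc using
    fun g : ↥(memberSet W Q p₀) =>
    exists_pointRep hW D (g : CuspForm (Gamma0 (classLevel W Q)) 2) (mem_memberSet.mp g.2).eigen
      (coeffInt (mem_memberSet.mp g.2).eigen) (fun n => rfl) P.R (P.mem g) P.i P.ι P.two_mem P.i_ι
      P.max_iff Q fun ℓ hℓ hgood hℓQ hℓ2 =>
        ⟨fun h => ((hW.dvd_classLevel_iff hQ hℓ).mp h).elim hgood hℓQ,
          (mem_memberSet.mp g.2).congr_three hW D hQ ℓ hℓ hgood hℓQ hℓ2⟩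
  let x : ∀ g, P.ring →ₐ[ℤ_[2]] O g := fun g => (j g).comp (P.point g)
  have hxinj : ∀ z, (∀ g, x g z = 0) → z = 0 := fun z hz =>
    P.eq_zero_of_point fun g => hj g ((hz g).trans (map_zero (j g)).symm)
  obtain ⟨R₂, c, hR₂, hc, -⟩ := D.exists_rigidData
  let t : ℕ → P.ring := fun ℓ => if h : ℓ.Prime then P.gen ℓ h else 0
  obtain ⟨R, hRc, hRn, hRf, hRconj⟩ := GalRep.Glue.exists_glue R₂ c hc x hxinj N hNc
    (fun g => hR₂ ▸ hres g) {ℓ | ℓ ∣ classLevel W Q * 2}
    ((classLevel W Q * 2).divisors.finite_toSet.subset fun ℓ hℓ =>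
      Finset.mem_coe.mpr (Nat.mem_divisors.mpr ⟨hℓ, mul_ne_zero (NeZero.ne _) two_ne_zero⟩))
    t fun g ℓ hℓ hℓS A hA σ hσ => by
      obtain ⟨h1, h2⟩ := (hfrob g ℓ hℓ hℓS A hA).2 σ hσ
      refine ⟨h1.trans ?_, h2⟩
      simp only [t, dif_pos hℓ]
      rfl
  -- the residual character
  let κ : ZMod 2 →+* ResidueField P.ring :=
    (ResidueField.map (algebraMap ℤ_[2] P.ring)).comp residueTwo
  have hκ : Function.Bijective κ := ⟨κ.injective, fun y => by
    obtain ⟨z, rfl⟩ := residue_surjective y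
    obtain ⟨c, hc⟩ := P.exists_residual_iff hW D hQ hp₀ hp₀2 hp₀Δ z
    refine ⟨(c : ZMod 2), ?_⟩
    rw [map_intCast, eq_comm, ← sub_eq_zero, ← map_intCast (residue P.ring), ← map_sub,
      residue_eq_zero_iff]
    exact hc⟩
  let ε : P.ring →+* ZMod 2 := (RingEquiv.ofBijective κ hκ).symm.toRingHom.comp (residue P.ring)
  have hε : ∀ σ : Γ, (R σ).map ε = D.M σ := fun σ => by
    have h := DFunLike.congr_fun hRn.lift σ
    rw [hR₂, mapRep_apply, mapRep_apply, mapRep_apply] at h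
    refine Matrix.ext fun a b => hκ.1 ?_
    have h' := congrFun (congrFun h a) b
    exact ((RingEquiv.ofBijective κ hκ).apply_symm_apply _).trans h'
  -- levels
  obtain ⟨e, he⟩ := GalRep.Glue.exists_pow_le_map (𝒪 := ℤ_[2]) P.ring
  rw [PadicInt.maximalIdeal_eq_span_p, Ideal.map_span, Set.image_singleton, map_natCast] at he
  have hlev : ∀ n : ℕ, ∃ L : IntermediateField ℚ ℚbar, FiniteDimensional ℚ L ∧
      ∀ σ : Γ, (∀ y ∈ L, σ y = y) →
        ∀ a b, R σ a b - (1 : M2 P.ring) a b ∈ Ideal.span {(2 : P.ring) ^ n} := by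
    intro n
    obtain ⟨L, hL, h⟩ := hRc (e * n)
    refine ⟨L, hL, fun σ hσ a b => ?_⟩
    have h' := h σ hσ a b
    rw [pow_mul] at h'
    have := Ideal.pow_right_mono he n h'
    rwa [Ideal.span_singleton_pow, Nat.cast_ofNat] at this
  refine ⟨⟨R, ε, hε, hlev, fun ℓ hℓ hℓM A hA => ⟨fun σ hσ => ?_, fun σ hσ => ?_⟩,
    fun q hq hcase A hA => ?_⟩⟩
  · refine Matrix.ext fun a b => sub_eq_zero.mp (hxinj _ fun g => ?_)
    obtain ⟨U, hU⟩ := hRconj g
    have hN := (hfrob g ℓ hℓ hℓM A hA).1 σ hσ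
    have h1 : mapRep (x g : P.ring →+* O g) R σ = 1 := by
      refine U.isUnit.mul_right_cancel ?_
      rw [← hU, hN, mul_one, one_mul]
    rw [map_sub, sub_eq_zero]
    refine (congrFun (congrFun h1 a) b).trans ?_
    by_cases hab : a = b <;> simp [Matrix.one_apply, hab]
  · obtain ⟨h1, h2⟩ := hRf ℓ hℓ hℓM A hA σ hσ
    exact ⟨h1.trans (dif_pos hℓ), h2⟩
  · have h2g : ∀ g, (2 : O g) ∈ maximalIdeal (O g) := fun g => by
      rw [← map_ofNat (algebraMap ℤ_[2] (O g)) 2]
      refine map_nonunit _ _ ?_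
      rw [PadicInt.maximalIdeal_eq_span_p]
      exact Ideal.mem_span_singleton_self _
    have hqM : q ∣ classLevel W Q := (hW.dvd_classLevel_iff hQ hq).mpr hcase.symm
    have hqM2 : ¬ q ^ 2 ∣ classLevel W Q := fun h => hq.ne_one
      (Nat.isUnit_iff.mp ((hW.squarefree_classLevel hQ) q (by rwa [← pow_two])))
    have hsq := fun g => P.coeff_sq hW D hQ hp₀ hp₀2 hp₀Δ g hq hcase
    have hUsq : P.gen q hq * P.gen q hq = 1 := Subtype.ext (funext fun g => by
      change P.coeff g q * P.coeff g q = 1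
      rw [← pow_two]; exact hsq g)
    obtain ⟨L, hL, h8⟩ := hlev 3
    have hR8 : ∃ L : IntermediateField ℚ ℚbar, FiniteDimensional ℚ L ∧
        ∀ σ : Γ, (∀ y ∈ L, σ y = y) →
          ∀ i j, R σ i j - (1 : M2 P.ring) i j ∈ Ideal.span {(8 : P.ring)} :=
      ⟨L, hL, fun σ hσ i j => by
        have := h8 σ hσ i j
        norm_num at this
        exact this⟩
    refine exists_localSign (O := O) P R hR8 hq hA hUsq h2g x hxinj fun g => ?_
    have haq : coeffInt (mem_memberSet.mp g.2).eigen q ^ 2 = 1 := placeHom_injective (by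
      have := congrArg (fun z => (P.i z : Omega2)) (hsq g)
      simp only [map_pow, map_one, P.i_coeff, SubmonoidClass.coe_pow, OneMemClass.coe_one,
        coe_placeInt] at this
      rw [map_pow, this, map_one])
    obtain ⟨s, hs1, hs2, hs3, hs4⟩ := hloc g q hq hqM hqM2 haq A hA
    refine ⟨s, hs1, hs2, fun a ha => (hs3 a ha).trans rfl, fun a b => ?_⟩
    obtain ⟨U, hU⟩ := hRconj g
    have e : ∀ σ, mapRep (x g : P.ring →+* O g) R σ =
        (U : M2 (O g)) * N g σ * (↑U⁻¹ : M2 (O g)) := fun σ => by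
      rw [hU, mul_assoc, Units.mul_inv, mul_one]
    have hdet : (mapRep (x g : P.ring →+* O g) R a).det = (N g a).det := by
      rw [e, Matrix.det_units_conj]
    have e1 : ∀ (Y : M2 (O g)) (c : O g),
        (U : M2 (O g)) * Y * (↑U⁻¹ : M2 (O g)) - c • (1 : M2 (O g)) =
          (U : M2 (O g)) * (Y - c • 1) * (↑U⁻¹ : M2 (O g)) := fun Y c => by
      rw [mul_sub, sub_mul, mul_smul_comm, mul_one, smul_mul_assoc, Units.mul_inv]
    rw [hdet, e, e, e1, e1]
    calc _ = (U : M2 (O g)) * ((N g a - ((N g a).det * s a) • 1) * (N g b - s b • 1)) *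
          (↑U⁻¹ : M2 (O g)) := by simp only [mul_assoc, Units.inv_mul_cancel_left]
      _ = 0 := by rw [hs4 a b, mul_zero, zero_mul]

end Fermat.Agent.Root
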