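import Fermat.Agent.Root.GenusPoint
import Fermat.Agent.Newform.Decomposition
import Fermat.Agent.Newform.BadCoeff

/-!
# Members of the residual class

Eigenforms of level `N · ∏ Q` congruent to `W` with `U² = 1` away from one bad prime `p₀` are
congruent at `3` as well and have `U² = 1` at `p₀`.
-/

set_option autoImplicit false

noncomputable section

open IsLocalRing CongruenceSubgroup WeierstrassCurve

namespace Fermat.Agent.Root

open Fermat.Agent.Deformation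

local notation "ℚbar" => AlgebraicClosure ℚ
local notation "Γ" => AlgebraicClosure ℚ ≃ₐ[ℚ] AlgebraicClosure ℚ
local notation "Zbar" => integralClosure ℤ ℂ

variable {W : WeierstrassCurve ℤ}

/-- The level of the class. -/
abbrev classLevel (W : WeierstrassCurve ℤ) (Q : Finset ℕ) : ℕ :=
  W.conductorLevel * ∏ q ∈ Q, q

theorem GenusCurve.classLevel_ne_zero (_hW : GenusCurve W) {Q : Finset ℕ}
    (hQ : ∀ q ∈ Q, AuxPrime W 3 q) : classLevel W Q ≠ 0 :=
  mul_ne_zero W.conductorLevel_pos.ne'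
    (Finset.prod_ne_zero_iff.mpr fun q hq => (hQ q hq).prime.ne_zero)

theorem GenusCurve.dvd_classLevel_iff (hW : GenusCurve W) {Q : Finset ℕ}
    (hQ : ∀ q ∈ Q, AuxPrime W 3 q) {p : ℕ} (hp : p.Prime) :
    p ∣ classLevel W Q ↔ (p : ℤ) ∣ W.Δ ∨ p ∈ Q := by
  rw [classLevel, hp.dvd_mul, W.prime_dvd_conductorLevel_iff hW.neg.ne hp,
    Prime.dvd_finsetProd_iff hp.prime]
  refine or_congr Iff.rfl ⟨?_, fun h => ⟨p, h, dvd_rfl⟩⟩
  rintro ⟨q, hq, hd⟩
  exact (Nat.prime_dvd_prime_iff_eq hp (hQ q hq).prime).mp hd ▸ hq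

theorem GenusCurve.squarefree_classLevel (hW : GenusCurve W) {Q : Finset ℕ}
    (hQ : ∀ q ∈ Q, AuxPrime W 3 q) : Squarefree (classLevel W Q) := by
  refine (Nat.squarefree_mul ?_).mpr ⟨W.squarefree_conductorLevel, ?_⟩
  · exact Nat.Coprime.prod_right fun q hq => Nat.Coprime.symm
      ((hQ q hq).prime.coprime_iff_not_dvd.mpr (hW.not_dvd_of_auxPrime (hQ q hq)).2)
  · clear hW
    induction Q using Finset.induction_on with
    | empty => simp
    | insert a s ha ih =>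
      rw [Finset.prod_insert ha]
      refine (Nat.squarefree_mul ?_).mpr
        ⟨(hQ a (Finset.mem_insert_self a s)).prime.squarefree,
          ih fun q hq => hQ q (Finset.mem_insert_of_mem hq)⟩
      exact Nat.Coprime.prod_right fun q hq =>
        (Nat.coprime_primes (hQ a (Finset.mem_insert_self a s)).prime
          (hQ q (Finset.mem_insert_of_mem hq)).prime).mpr fun e => ha (e ▸ hq)

/-- A coefficient of an eigenform as an algebraic integer. -/
def coeffInt {M : ℕ} [NeZero M] {g : CuspForm (Gamma0 M) 2} (hg : g.IsNormalizedEigenform)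
    (n : ℕ) : Zbar :=
  ⟨ModularFormClass.qCoeff g n, isIntegral_qCoeff_eigen hg n⟩

theorem awayCharacter_heckeTn {M : ℕ} [NeZero M] {g : CuspForm (Gamma0 M) 2}
    (hg : g.IsNormalizedEigenform) (n : ℕ) :
    awayCharacter hg ∅ (Hecke.heckeTn M n) = coeffInt hg n :=
  Subtype.ext (Hecke.qCoeff_one_heckeTn n g)

/-- The coefficients of an eigenform generate a finitely generated ring. -/
theorem exists_finset_coeffInt {M : ℕ} [NeZero M] {g : CuspForm (Gamma0 M) 2}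
    (hg : g.IsNormalizedEigenform) :
    ∃ F : Finset Zbar, (awayCharacter hg ∅).range ≤ Subring.closure (F : Set Zbar) := by
  classical
  have := Fermat.Agent.S22.result M 2 (∅ : Set ℕ)
  obtain ⟨s, hs⟩ : (⊤ : Submodule ℤ (CuspForm.heckeAlgebra M 2 (∅ : Set ℕ))).FG :=
    Module.Finite.fg_top
  refine ⟨s.image (awayCharacter hg ∅), ?_⟩
  rintro _ ⟨t, rfl⟩
  have ht : t ∈ Submodule.span ℤ (s : Set (CuspForm.heckeAlgebra M 2 (∅ : Set ℕ))) := hs ▸ trivial
  induction ht using Submodule.span_induction with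
  | mem x hx => exact Subring.subset_closure (Finset.mem_image_of_mem (awayCharacter hg ∅) hx)
  | zero => simp
  | add x y _ _ hx hy => rw [map_add]; exact add_mem hx hy
  | smul c x _ hx => rw [map_zsmul]; exact zsmul_mem hx c

theorem areConj_trace {A : Type} [CommRing A] {N N' : GQ →* M2 A} (h : AreConj N N') (σ : GQ) :
    (N σ).trace = (N' σ).trace := by
  obtain ⟨U, hU⟩ := h
  rw [show N' σ = (U : M2 A) * N σ * ((U⁻¹ : (M2 A)ˣ) : M2 A) by
    rw [hU, mul_assoc, Units.mul_inv, mul_one], Matrix.trace_units_conj]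

/-- An eigenform congruent to `W` with `U² = 1` at `Q` and at the bad primes other than `p₀`. -/
structure IsMember (W : WeierstrassCurve ℤ) (Q : Finset ℕ) (p₀ : ℕ) [NeZero (classLevel W Q)]
    (g : CuspForm (Gamma0 (classLevel W Q)) 2) : Prop where
  eigen : g.IsNormalizedEigenform
  congr : ∀ ℓ : ℕ, ℓ.Prime → W.IsGoodPrimeFor ℓ → ℓ ∉ Q → ℓ ≠ 2 → ℓ ≠ 3 →
    coeffInt eigen ℓ - ((W.apOfModel ℓ : ℤ) : Zbar) ∈ placeIdeal
  sq : ∀ q : ℕ, q.Prime → (q ∈ Q ∨ ((q : ℤ) ∣ W.Δ ∧ q ≠ p₀)) →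
    ModularFormClass.qCoeff g q ^ 2 = 1

variable {Q : Finset ℕ} {p₀ : ℕ} [NeZero (classLevel W Q)]
  {g : CuspForm (Gamma0 (classLevel W Q)) 2}

theorem IsMember.congr_three (hW : GenusCurve W) (D : ResidualMatrix W)
    (hQ : ∀ q ∈ Q, AuxPrime W 3 q) (hg : IsMember W Q p₀ g) (ℓ : ℕ) (hℓ : ℓ.Prime)
    (hgood : W.IsGoodPrimeFor ℓ) (hℓQ : ℓ ∉ Q) (hℓ2 : ℓ ≠ 2) :
    coeffInt hg.eigen ℓ - ((W.apOfModel ℓ : ℤ) : Zbar) ∈ placeIdeal := by
  classical
  obtain ⟨F, hF⟩ := exists_finset_coeffInt hg.eigen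
  obtain ⟨O₀, _, _, _, _, _, _, _, _, i, ι, -, h2, hι, hmax⟩ :=
    exists_placeRing (awayCharacter hg.eigen ∅).range F hF
  have hR : ∀ n, coeffInt hg.eigen n ∈ (awayCharacter hg.eigen ∅).range := fun n =>
    ⟨Hecke.heckeTn _ n, awayCharacter_heckeTn hg.eigen n⟩
  have hnd : ∀ {l : ℕ}, l.Prime → W.IsGoodPrimeFor l → l ∉ Q → ¬ l ∣ classLevel W Q :=
    fun hl hgd hlQ h => ((hW.dvd_classLevel_iff hQ hl).mp h).elim hgd hlQ
  obtain ⟨O, _, _, _, _, _, _, _, _, _, j, hj, N, -, hres, hfrob, -⟩ :=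
    exists_pointRep hW D g hg.eigen (coeffInt hg.eigen) (fun n => rfl) _ hR i ι h2 hι hmax
      (insert 3 Q) fun l hl hgd hlS hl2 => by
        simp only [Finset.mem_insert, not_or] at hlS
        exact ⟨hnd hl hgd hlS.2, hg.congr l hl hgd hlS.2 hl2 hlS.1⟩
  have hℓM : ¬ ℓ ∣ classLevel W Q * 2 := fun h => (hℓ.dvd_mul.mp h).elim (hnd hℓ hgood hℓQ)
    fun h' => hℓ2 ((Nat.prime_dvd_prime_iff_eq hℓ Nat.prime_two).mp h')
  obtain ⟨A, hA⟩ := Gal.exists_liesOverPrime (L := ℚbar) hℓ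
  obtain ⟨σ, hσ⟩ := Gal.exists_isFrobeniusAt hℓ hA
  obtain ⟨htr, -⟩ := (hfrob ℓ hℓ hℓM A hA).2 σ hσ
  have htrM := (D.torsion.frobenius_two hℓ hgood hℓ2 hA).2 σ hσ
  have h := areConj_trace hres σ
  rw [mapRep_apply, mapRep_apply, mapRep_apply, ← AddMonoidHom.map_trace (residue O), htr,
    ← AddMonoidHom.map_trace (ResidueField.map (algebraMap ℤ_[2] O)),
    ← AddMonoidHom.map_trace residueTwo, htrM, map_intCast, map_intCast,
    ← map_intCast (residue O), ← sub_eq_zero, ← map_sub, residue_eq_zero_iff] at h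
  have h0 : ι ⟨coeffInt hg.eigen ℓ, hR ℓ⟩ - ((W.apOfModel ℓ : ℤ) : O₀) ∈ maximalIdeal O₀ := by
    by_contra hn
    have hu := (IsLocalRing.notMem_maximalIdeal.mp hn).map j
    rw [map_sub, map_intCast] at hu
    exact h hu
  have := (hmax _).mp h0
  rw [map_sub, hι, map_intCast, ← map_intCast placeInt, ← map_sub] at this
  exact this

/-- **Members have `U² = 1` at the exceptional prime.** -/
theorem IsMember.sq_exceptional (hW : GenusCurve W) (D : ResidualMatrix W)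
    (hQ : ∀ q ∈ Q, AuxPrime W 3 q) (hg : IsMember W Q p₀ g) (hp₀ : p₀.Prime) (hp₀2 : p₀ ≠ 2)
    (hp₀Δ : (p₀ : ℤ) ∣ W.Δ) : ModularFormClass.qCoeff g p₀ ^ 2 = 1 := by
  classical
  obtain ⟨M', hM', f, hf, hagree⟩ := Newform.exists_isNewform_goodEigensystem
    (N := (classLevel W Q)) hg.eigen
  have : NeZero M' := ⟨fun h => NeZero.ne (classLevel W Q) (by simpa [h] using hM')⟩
  have hsf := hW.squarefree_classLevel hQ
  have hS : ∀ ℓ : ℕ, ℓ.Prime → ℓ ∉ (classLevel W Q).primeFactors →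
      ModularFormClass.qCoeff g ℓ = ModularFormClass.qCoeff f ℓ := fun ℓ hℓ hℓM =>
    (hagree ℓ hℓ fun h => hℓM (Nat.mem_primeFactors.mpr ⟨hℓ, h, NeZero.ne (classLevel W Q)⟩)).symm
  by_cases hp₀M' : p₀ ∣ M'
  · have hdiv : ¬ p₀ ∣ (classLevel W Q) / M' := fun h => hp₀.ne_one (by
      have h2 : p₀ * p₀ ∣ (classLevel W Q) := by
        calc p₀ * p₀ ∣ M' * ((classLevel W Q) / M') := mul_dvd_mul hp₀M' h
          _ = (classLevel W Q) := Nat.mul_div_cancel' hM'
      exact Nat.isUnit_iff.mp (hsf p₀ h2))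
    rw [Newform.qCoeff_eq_of_not_dvd_div hg.eigen hf (classLevel W Q).primeFactors hS hp₀ hdiv]
    refine (Newform.newformBadPrimeCoeff M' f hf p₀ hp₀ hp₀M').1 fun h => ?_
    rw [pow_two] at h
    exact hp₀.ne_one (Nat.isUnit_iff.mp (hsf p₀ (h.trans hM')))
  exfalso
  obtain ⟨F, hF⟩ := exists_finset_coeffInt hf.1
  obtain ⟨O₀, _, _, _, _, _, _, _, _, i, ι, -, h2, hι, hmax⟩ :=
    exists_placeRing (awayCharacter hf.1 ∅).range F hF
  obtain ⟨O, _, _, _, _, _, _, _, _, _, j, hj, N, -, hres, hfrob, -⟩ :=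
    exists_pointRep hW D f hf.1 (coeffInt hf.1) (fun n => rfl) _
      (fun n => RingHom.mem_range.mpr ⟨Hecke.heckeTn _ n, awayCharacter_heckeTn hf.1 n⟩)
      i ι h2 hι hmax
      (insert 3 Q) fun l hl hgd hlS hl2 => by
        simp only [Finset.mem_insert, not_or] at hlS
        have hlM : ¬ l ∣ (classLevel W Q) := fun h =>
          ((hW.dvd_classLevel_iff hQ hl).mp h).elim hgd hlS.2
        refine ⟨fun h => hlM (h.trans hM'), ?_⟩
        rw [show coeffInt hf.1 l = coeffInt hg.eigen l from Subtype.ext (hagree l hl hlM)]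
        exact hg.congr l hl hgd hlS.2 hl2 hlS.1
  obtain ⟨A, hA⟩ := Gal.exists_liesOverPrime (L := ℚbar) hp₀
  obtain ⟨τ, hτ, hτM⟩ := D.exists_inertia hW hp₀ hp₀Δ hA
  have hp₀M2 : ¬ p₀ ∣ M' * 2 := fun h => (hp₀.dvd_mul.mp h).elim hp₀M'
    fun h' => hp₀2 ((Nat.prime_dvd_prime_iff_eq hp₀ Nat.prime_two).mp h')
  have hN := (hfrob p₀ hp₀ hp₀M2 A hA).1 τ hτ
  obtain ⟨U, hU⟩ := hres
  have h := hU τ
  rw [mapRep_apply, hN, Matrix.map_one _ (map_zero _) (map_one _), mul_one, mapRep_apply,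
    mapRep_apply] at h
  have h1 : ((D.M τ).map residueTwo).map (ResidueField.map (algebraMap ℤ_[2] O)) = 1 := by
    refine U.isUnit.mul_right_cancel ?_
    rw [one_mul]; exact h.symm
  refine hτM (Matrix.map_injective (f := residueTwo) residueTwo.injective ?_)
  refine Matrix.map_injective (f := ResidueField.map (algebraMap ℤ_[2] O)) (RingHom.injective _) ?_
  simpa using h1

end Fermat.Agent.Root
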