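import Fermat.Agent.Root.GenusSubring

/-!
# Pairing a finite deformation with `E[2ⁿ]`

If a deformation of `E[2]` over a ring free of rank `d ≥ h₂ 2^|Q|` over `ℤ/2ⁿ`, generated by traces
and signs, is paired with a representation over `ℤ/2ⁿ` of the same local type, the counting
argument makes the trace subring of the pair the graph of a ring hom to `ℤ/2ⁿ`.
-/

set_option autoImplicit false

noncomputable section

open IsLocalRing

namespace Fermat.Agent.Root

open Fermat.Agent.Deformation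

local notation "ℚbar" => AlgebraicClosure ℚ
local notation "Γ" => AlgebraicClosure ℚ ≃ₐ[ℚ] AlgebraicClosure ℚ

theorem map_sub_smul_one {A B : Type} [CommRing A] [CommRing B] (f : A →+* B) (X : M2 A) (c : A) :
    (X - c • (1 : M2 A)).map f = X.map f - f c • (1 : M2 B) := by
  refine Matrix.ext fun i j => ?_
  by_cases hij : i = j <;> simp [hij]

theorem ringHom_zmodTwo_eq_one {A : Type*} [CommRing A] (e : A →+* ZMod 2) {s : A}
    (hs : s * s = 1) : e s = 1 :=
  (show ∀ z : ZMod 2, z * z = 1 → z = 1 by decide) _ (by rw [← map_mul, hs, map_one])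

theorem card_le_of_card_mod_two {r : ℕ} : ∀ {n : ℕ} {M : Type} [AddCommGroup M] [Finite M],
    (∀ x : M, (2 ^ n : ℕ) • x = 0) →
    Nat.card (M ⧸ (nsmulAddMonoidHom (α := M) 2).range) ≤ 2 ^ r → Nat.card M ≤ 2 ^ (n * r) := by
  intro n
  induction n with
  | zero =>
    intro M _ _ hk _
    have : Subsingleton M := ⟨fun x y => by
      have hx := hk x
      have hy := hk y
      rw [pow_zero, one_nsmul] at hx hy
      rw [hx, hy]⟩
    simp
  | succ n ih =>
    intro M _ _ hk hM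
    set S := (nsmulAddMonoidHom (α := M) 2).range
    have hkS : ∀ x : S, (2 ^ n : ℕ) • x = 0 := by
      rintro ⟨_, y, rfl⟩
      refine Subtype.ext ?_
      change (2 ^ n : ℕ) • (2 • y) = 0
      rw [← mul_nsmul', ← pow_succ, hk]
    have hS := ih hkS (le_trans (Nat.card_le_card_of_surjective _
      (QuotientAddGroup.lift_surjective_of_surjective S
        ((QuotientAddGroup.mk' (nsmulAddMonoidHom (α := S) 2).range).comp
          (nsmulAddMonoidHom (α := M) 2).rangeRestrict)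
        ((QuotientAddGroup.mk'_surjective _).comp (AddMonoidHom.rangeRestrict_surjective _)) (by
          rintro _ ⟨y, rfl⟩
          rw [AddMonoidHom.mem_ker, AddMonoidHom.comp_apply, QuotientAddGroup.mk'_apply,
            QuotientAddGroup.eq_zero_iff]
          exact ⟨(nsmulAddMonoidHom (α := M) 2).rangeRestrict y,
            (map_nsmul (nsmulAddMonoidHom (α := M) 2).rangeRestrict 2 y).symm⟩))) hM)
    rw [AddSubgroup.card_eq_card_quotient_mul_card_addSubgroup S, add_mul, one_mul, pow_add,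
      mul_comm]
    exact Nat.mul_le_mul hS hM

section pair

variable {T : Type} [CommRing T] (εT : T →+* ZMod 2) (n : ℕ) [NeZero n]

/-- The reduction `ℤ/2ⁿ → ℤ/2`. -/
def zmodPowTwo : ZMod (2 ^ n) →+* ZMod 2 :=
  ZMod.castHom (dvd_pow_self 2 (NeZero.ne n)) _

/-- Pairs with the same residue. -/
def pairRing : Subring (T × ZMod (2 ^ n)) :=
  RingHom.eqLocus (εT.comp (RingHom.fst _ _)) ((zmodPowTwo n).comp (RingHom.snd _ _))

/-- The first projection. -/
def pairFst : pairRing εT n →+* T := (RingHom.fst _ _).comp (pairRing εT n).subtype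

/-- The second projection. -/
def pairSnd : pairRing εT n →+* ZMod (2 ^ n) := (RingHom.snd _ _).comp (pairRing εT n).subtype

variable {εT n}

/-- A pair. -/
def pairMk (x : T) (y : ZMod (2 ^ n)) (h : εT x = zmodPowTwo n y) : pairRing εT n := ⟨(x, y), h⟩

@[simp] theorem pairFst_mk (x : T) (y : ZMod (2 ^ n)) (h : εT x = zmodPowTwo n y) :
    pairFst εT n (pairMk x y h) = x := rfl

@[simp] theorem pairSnd_mk (x : T) (y : ZMod (2 ^ n)) (h : εT x = zmodPowTwo n y) :
    pairSnd εT n (pairMk x y h) = y := rfl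

theorem pair_ext {x y : pairRing εT n} (h1 : pairFst εT n x = pairFst εT n y)
    (h2 : pairSnd εT n x = pairSnd εT n y) : x = y :=
  Subtype.ext (Prod.ext h1 h2)

theorem pair_ext_matrix {X Y : M2 (pairRing εT n)}
    (h1 : X.map (pairFst εT n) = Y.map (pairFst εT n))
    (h2 : X.map (pairSnd εT n) = Y.map (pairSnd εT n)) : X = Y :=
  Matrix.ext fun i j => pair_ext (congrFun (congrFun h1 i) j) (congrFun (congrFun h2 i) j)

theorem isLocalRing_pairRing [Finite T] [IsLocalRing T] : IsLocalRing (pairRing εT n) := by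
  refine isLocalRing_of_nilpotent_ker (εT.comp (pairFst εT n)) (zmodTwo_ringHom_surjective _)
    fun x hx => ?_
  obtain ⟨N₁, hN₁⟩ : IsNilpotent (maximalIdeal T) := by
    have := IsArtinianRing.isNilpotent_jacobson_bot (R := T)
    rwa [IsLocalRing.jacobson_eq_maximalIdeal ⊥ bot_ne_top] at this
  have h1 : pairFst εT n x ∈ maximalIdeal T := by
    rw [← IsLocalRing.eq_maximalIdeal (RingHom.ker_isMaximal_of_surjective _
      (zmodTwo_ringHom_surjective εT))]
    exact hx
  have h1' := Ideal.pow_mem_pow h1 N₁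
  rw [hN₁] at h1'
  have h2 : zmodPowTwo n (pairSnd εT n x) = 0 := x.2.symm.trans hx
  rw [← ZMod.natCast_zmod_val (pairSnd εT n x), map_natCast, ZMod.natCast_eq_zero_iff] at h2
  obtain ⟨k, hk⟩ := h2
  have h2' : pairSnd εT n x ^ n = 0 := by
    rw [← ZMod.natCast_zmod_val (pairSnd εT n x), hk, ← Nat.cast_pow, ZMod.natCast_eq_zero_iff,
      mul_pow]
    exact dvd_mul_right _ _
  refine ⟨N₁ + n, pair_ext ?_ ?_⟩
  · rw [map_pow, map_zero, pow_add, show pairFst εT n x ^ N₁ = 0 from h1', zero_mul]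
  · rw [map_pow, map_zero, pow_add, h2', mul_zero]

/-- The pair of two representations with the same residue. -/
def pairRep (R : GQ →* M2 T) (X : GQ →* M2 (ZMod (2 ^ n)))
    (h : ∀ (σ : Γ) i j, εT (R σ i j) = zmodPowTwo n (X σ i j)) : GQ →* M2 (pairRing εT n) where
  toFun σ := Matrix.of fun i j => pairMk (R σ i j) (X σ i j) (h σ i j)
  map_one' := by
    refine pair_ext_matrix ?_ ?_
    · rw [Matrix.map_one _ (map_zero _) (map_one _)]
      exact map_one R
    · rw [Matrix.map_one _ (map_zero _) (map_one _)]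
      exact map_one X
  map_mul' σ τ := by
    refine pair_ext_matrix ?_ ?_
    · rw [Matrix.map_mul]
      exact map_mul R σ τ
    · rw [Matrix.map_mul]
      exact map_mul X σ τ

variable (R : GQ →* M2 T) (X : GQ →* M2 (ZMod (2 ^ n)))
  (h : ∀ (σ : Γ) i j, εT (R σ i j) = zmodPowTwo n (X σ i j))

theorem pairRep_fst (σ : Γ) : (pairRep R X h σ).map (pairFst εT n) = R σ := rfl

theorem pairRep_snd (σ : Γ) : (pairRep R X h σ).map (pairSnd εT n) = X σ := rfl

theorem pairRep_det_fst (σ : Γ) : pairFst εT n (pairRep R X h σ).det = (R σ).det := by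
  rw [RingHom.map_det]; rfl

theorem pairRep_det_snd (σ : Γ) : pairSnd εT n (pairRep R X h σ).det = (X σ).det := by
  rw [RingHom.map_det]; rfl

theorem pairRep_trace_fst (σ : Γ) : pairFst εT n (pairRep R X h σ).trace = (R σ).trace := by
  rw [Matrix.trace_fin_two, Matrix.trace_fin_two, map_add]; rfl

theorem pairRep_trace_snd (σ : Γ) : pairSnd εT n (pairRep R X h σ).trace = (X σ).trace := by
  rw [Matrix.trace_fin_two, Matrix.trace_fin_two, map_add]; rfl

theorem exists_pairSign {V : ValuationSubring ℚbar} {sT : V.decompositionSubgroup ℚ →* T}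
    {μ : V.decompositionSubgroup ℚ →* ZMod (2 ^ n)} (hT : IsSign R V sT) (hX : IsSign X V μ) :
    ∃ s : V.decompositionSubgroup ℚ →* pairRing εT n, IsSign (pairRep R X h) V s ∧
      (∀ a, pairFst εT n (s a) = sT a) ∧ ∀ a, pairSnd εT n (s a) = μ a := by
  let s : V.decompositionSubgroup ℚ →* pairRing εT n :=
    { toFun := fun a => pairMk (sT a) (μ a) ((ringHom_zmodTwo_eq_one εT (hT.1 a)).trans
        (ringHom_zmodTwo_eq_one (zmodPowTwo n) (hX.1 a)).symm)
      map_one' := pair_ext (by simp) (by simp)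
      map_mul' := fun a b => pair_ext (by simp) (by simp) }
  have h1 : ∀ a, pairFst εT n (s a) = sT a := fun a => rfl
  have h2 : ∀ a, pairSnd εT n (s a) = μ a := fun a => rfl
  refine ⟨s, ⟨fun a => pair_ext ?_ ?_, fun a ha => pair_ext ?_ ?_,
    fun a b => pair_ext_matrix ?_ ?_⟩, h1, h2⟩
  · rw [map_mul, h1, hT.1, map_one]
  · rw [map_mul, h2, hX.1, map_one]
  · rw [h1, hT.2.1 a ha, map_one]
  · rw [h2, hX.2.1 a ha, map_one]
  · rw [Matrix.map_mul, map_sub_smul_one, map_sub_smul_one, map_mul, pairRep_det_fst, h1, h1,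
      pairRep_fst, pairRep_fst, hT.2.2, Matrix.map_zero _ (map_zero _)]
  · rw [Matrix.map_mul, map_sub_smul_one, map_sub_smul_one, map_mul, pairRep_det_snd, h2, h2,
      pairRep_snd, pairRep_snd, hX.2.2, Matrix.map_zero _ (map_zero _)]

end pair

/-- **`A = T/2ⁿ`, abstract form.** -/
theorem exists_trace_section {W : WeierstrassCurve ℤ} (hW : GenusCurve W) (D : ResidualMatrix W)
    {Q : Finset ℕ} (hQ : ∀ q ∈ Q, AuxPrime W 3 q)
    (hsel : ∀ f : discGroup W → F4, SelmerCocycle D.discChar Q f →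
      ∃ a : F4, ∀ h, f h = (D.discChar.χ h ^ 2 - 1) * a)
    {n : ℕ} [NeZero n] {T : Type} [CommRing T] [Finite T] [IsLocalRing T] (εT : T →+* ZMod 2)
    (R : GQ →* M2 T) (X : GQ →* M2 (ZMod (2 ^ n)))
    (hR : ∀ σ : Γ, (R σ).map εT = D.M σ) (hX : ∀ σ : Γ, (X σ).map (zmodPowTwo n) = D.M σ)
    (hdet : ∀ σ : Γ, ∃ k : ℤ, (R σ).det = (k : T) ∧ (X σ).det = (k : ZMod (2 ^ n)))
    (hlevel : ∃ L : IntermediateField ℚ ℚbar, FiniteDimensional ℚ L ∧
      ∀ σ : Γ, (∀ x ∈ L, σ x = x) → R σ = 1 ∧ X σ = 1)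
    (hgood : ∀ ℓ : ℕ, ℓ.Prime → ℓ ∉ Q → ¬ (ℓ : ℤ) ∣ W.Δ → ∀ V : ValuationSubring ℚbar,
      V.LiesOverPrime ℓ → ∀ σ ∈ V.inertiaSubgroupIn ℚ, R σ = 1 ∧ X σ = 1)
    (hbad : ∀ p : ℕ, p.Prime → (p : ℤ) ∣ W.Δ → ∀ V : ValuationSubring ℚbar, V.LiesOverPrime p →
      (∃ s : V.decompositionSubgroup ℚ →* T, IsSign R V s) ∧
      ∃ μ : V.decompositionSubgroup ℚ →* ZMod (2 ^ n), IsSign X V μ)
    (u : ↥Q → T) (hu : ∀ q, u q * u q = 1)
    (hQloc : ∀ q : ↥Q, ∀ V : ValuationSubring ℚbar, V.LiesOverPrime q.1 →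
      IsSign X V 1 ∧
      ∃ s : V.decompositionSubgroup ℚ →* T, IsSign R V s ∧ ∀ a, s a = 1 ∨ s a = u q)
    (hgenT : ∀ S : Subring T, (∀ σ : Γ, (R σ).trace ∈ S) →
      (∀ p : ℕ, p.Prime → (p : ℤ) ∣ W.Δ → ∀ V : ValuationSubring ℚbar, V.LiesOverPrime p →
        ∀ s : V.decompositionSubgroup ℚ →* T, IsSign R V s → ∀ g, s g ∈ S) →
      (∀ q, u q ∈ S) → S = ⊤)
    (d : ℕ) (hcard : Nat.card T = 2 ^ (n * d)) (hkillT : (2 ^ n : T) = 0)
    (hd : classTwoPart W * 2 ^ Q.card ≤ d) :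
    d ≤ classTwoPart W * 2 ^ Q.card ∧
      ∃ θ : T →+* ZMod (2 ^ n), ∀ σ : Γ, θ (R σ).trace = (X σ).trace := by
  classical
  have hpair : ∀ (σ : Γ) i j, εT (R σ i j) = zmodPowTwo n (X σ i j) := fun σ i j =>
    (congrFun (congrFun (hR σ) i) j).trans (congrFun (congrFun (hX σ) i) j).symm
  have : IsLocalRing (pairRing εT n) := isLocalRing_pairRing
  set ρ := pairRep R X hpair
  obtain ⟨L, hL, hL1⟩ := hlevel
  let uB : ↥Q → pairRing εT n := fun q =>
    pairMk (u q) 1 ((ringHom_zmodTwo_eq_one εT (hu q)).trans (map_one _).symm)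
  have hone : ∀ σ, R σ = 1 → X σ = 1 → ρ σ = 1 := fun σ h1 h2 => pair_ext_matrix
    (by rw [pairRep_fst, h1, Matrix.map_one _ (map_zero _) (map_one _)])
    (by rw [pairRep_snd, h2, Matrix.map_one _ (map_zero _) (map_one _)])
  have hAcard := card_genusSubring_quotient_le (D := D) hW hQ hsel (εT.comp (pairFst εT n)) ρ
    (fun σ => hR σ)
    (fun σ => by
      obtain ⟨k, h1, h2⟩ := hdet σ
      exact ⟨k, pair_ext (by rw [pairRep_det_fst, h1, map_intCast])
        (by rw [pairRep_det_snd, h2, map_intCast])⟩)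
    ⟨L, hL, fun σ hσ => hone σ (hL1 σ hσ).1 (hL1 σ hσ).2⟩
    (fun ℓ hℓ hℓQ hℓΔ V hV σ hσ =>
      hone σ (hgood ℓ hℓ hℓQ hℓΔ V hV σ hσ).1 (hgood ℓ hℓ hℓQ hℓΔ V hV σ hσ).2)
    (fun p hp hpΔ V hV => by
      obtain ⟨⟨s, hs⟩, μ, hμ⟩ := hbad p hp hpΔ V hV
      exact (exists_pairSign R X hpair hs hμ).imp fun _ h => h.1)
    uB (fun q => pair_ext (by rw [map_mul, pairFst_mk, hu, map_one])
      (by rw [map_mul, pairSnd_mk, mul_one, map_one]))
    (fun q V hV => by
      obtain ⟨h1, s, hs, hval⟩ := hQloc q V hV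
      obtain ⟨sB, hsB, hs1, hs2⟩ := exists_pairSign R X hpair hs h1
      refine ⟨sB, hsB, fun a => (hval a).imp (fun h => pair_ext ?_ ?_) fun h => pair_ext ?_ ?_⟩
      · rw [hs1, h, map_one]
      · rw [hs2, map_one]; rfl
      · rw [hs1, h, pairFst_mk]
      · rw [hs2, pairSnd_mk]; rfl)
  set A := genusSubring W ρ uB
  let f : A →+* T := (pairFst εT n).comp A.subtype
  have htr : ∀ σ : Γ, (ρ σ).trace ∈ A := fun σ =>
    Subring.subset_closure (Or.inl (Or.inl ⟨σ, rfl⟩))
  have hf : Function.Surjective f := by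
    rw [← RingHom.range_eq_top]
    refine hgenT _ (fun σ => ⟨⟨_, htr σ⟩, pairRep_trace_fst R X hpair σ⟩)
      (fun p hp hpΔ V hV s hs g => ?_) fun q =>
        ⟨⟨uB q, Subring.subset_closure (Or.inr ⟨q, rfl⟩)⟩, rfl⟩
    obtain ⟨-, μ, hμ⟩ := hbad p hp hpΔ V hV
    obtain ⟨sB, hsB, hs1, -⟩ := exists_pairSign R X hpair hs hμ
    exact ⟨⟨sB g, Subring.subset_closure (Or.inl (Or.inr ⟨p, hp, hpΔ, V, hV, sB, hsB, g, rfl⟩))⟩,
      hs1 g⟩
  have hrange : (nsmulAddMonoidHom (α := A) 2).range = (Ideal.span {(2 : A)}).toAddSubgroup := by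
    refine AddSubgroup.ext fun x => ?_
    rw [Submodule.mem_toAddSubgroup, Ideal.mem_span_singleton', AddMonoidHom.mem_range]
    exact exists_congr fun y => by rw [nsmulAddMonoidHom_apply, nsmul_eq_mul, mul_comm]; rfl
  have hM : Nat.card (A ⧸ (nsmulAddMonoidHom (α := A) 2).range) ≤
      2 ^ (classTwoPart W * 2 ^ Q.card) := by
    rw [Nat.card_congr (QuotientAddGroup.quotientAddEquivOfEq hrange).toEquiv]
    exact hAcard
  have hkill : ∀ x : A, (2 ^ n : ℕ) • x = 0 := fun x => by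
    have h0 : ((2 ^ n : ℕ) : pairRing εT n) = 0 := pair_ext
      (by rw [map_natCast, map_zero, Nat.cast_pow, Nat.cast_ofNat, hkillT])
      (by rw [map_natCast, map_zero, ZMod.natCast_self])
    refine Subtype.ext ?_
    rw [AddSubmonoidClass.coe_nsmul, nsmul_eq_mul, h0, zero_mul]
    rfl
  have hbij : Function.Bijective f := Dihedral.bijective_of_card_le hkill
    (hM.trans (Nat.pow_le_pow_right two_pos hd)) hcard f.toAddMonoidHom hf
  refine ⟨?_, ((pairSnd εT n).comp A.subtype).comp (RingEquiv.ofBijective f hbij).symm.toRingHom,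
    fun σ => ?_⟩
  · by_contra hlt
    push Not at hlt
    have h := Nat.card_congr (Equiv.ofBijective f hbij)
    have hbound : Nat.card A ≤ 2 ^ (n * (classTwoPart W * 2 ^ Q.card)) :=
      card_le_of_card_mod_two hkill hM
    rw [h, hcard, Nat.pow_le_pow_iff_right (by norm_num)] at hbound
    exact absurd (Nat.le_of_mul_le_mul_left hbound (Nat.pos_of_ne_zero (NeZero.ne n)))
      (not_le.mpr hlt)
  · have h : (RingEquiv.ofBijective f hbij).symm (R σ).trace = ⟨_, htr σ⟩ := by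
      rw [RingEquiv.symm_apply_eq]
      exact (pairRep_trace_fst R X hpair σ).symm
    change pairSnd εT n (((RingEquiv.ofBijective f hbij).symm (R σ).trace : A) :
      pairRing εT n) = _
    rw [h]
    exact pairRep_trace_snd R X hpair σ

end Fermat.Agent.Root
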