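import Fermat.Agent.Root.GenusTwoPower
import Fermat.Agent.EC.Torsion.Main
import Fermat.Agent.Gal.Places

/-!
# The residual representation on `E[2]` of a genus curve

The image is the whole of `GL₂(𝔽₂)` and its subgroup of order three is cut out by `√Δ`.
-/

set_option autoImplicit false

noncomputable section

open WeierstrassCurve WeierstrassCurve.Affine.Point
open scoped WeierstrassCurve.Affine

namespace Fermat.Agent.Root

open Fermat.Agent.Deformation

local notation "ℚbar" => AlgebraicClosure ℚ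
local notation "Γ" => AlgebraicClosure ℚ ≃ₐ[ℚ] AlgebraicClosure ℚ

/-- The element of order three. -/
def rotMat : M2 (ZMod 2) := !![0, 1; 1, 1]

/-- The subgroup of order three. -/
def IsRot (m : M2 (ZMod 2)) : Prop := m = 1 ∨ m = rotMat ∨ m = rotMat * rotMat

theorem isRot_or_swap : ∀ m : M2 (ZMod 2), m.det = 1 →
    IsRot m ∨ m = !![0, 1; 1, 0] ∨ m = !![1, 1; 0, 1] ∨ m = !![1, 0; 1, 1] := by
  unfold IsRot rotMat
  decide

set_option synthInstance.maxSize 1024 in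
theorem exists_generated : ∀ t g : M2 (ZMod 2), t.det = 1 → g.det = 1 → ¬ IsRot t → g ≠ 1 → g ≠ t →
    rotMat ∈ [g, g * g, t * g, t * g * (t * g)] ∧
      !![1, 1; 0, 1] ∈ [t, t * rotMat, t * (rotMat * rotMat)] ∧
        !![1, 0; 1, 1] ∈ [t, t * rotMat, t * (rotMat * rotMat)] := by
  unfold IsRot rotMat
  decide

theorem exists_fixedVec : ∀ m : M2 (ZMod 2), m.det = 1 → ¬ IsRot m →
    ∃ v : Fin 2 → ZMod 2, v ≠ 0 ∧ m.mulVec v = v := by
  unfold IsRot rotMat
  decide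

variable {W : WeierstrassCurve ℤ}

/-- The first coordinate of a point, `0` at the origin. -/
def xCoord : ((W.map (Int.castRingHom ℚ))⁄ℚbar).Point → ℚbar
  | .zero => 0
  | .some x _ _ => x

theorem xCoord_smul (σ : Γ) (P : ((W.map (Int.castRingHom ℚ))⁄ℚbar).Point) :
    σ (xCoord P) = xCoord (σ • P) := by
  rcases P with _ | ⟨x, y, h⟩
  · exact map_zero σ
  · rfl

theorem two_torsion_data {P : ((W.map (Int.castRingHom ℚ))⁄ℚbar).Point} (hP : 2 • P = 0)
    (hP0 : P ≠ 0) :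
    4 * xCoord P ^ 3 + (W.b₂ : ℚbar) * xCoord P ^ 2 + 2 * (W.b₄ : ℚbar) * xCoord P +
      (W.b₆ : ℚbar) = 0 ∧
    ∀ Q : ((W.map (Int.castRingHom ℚ))⁄ℚbar).Point, 2 • Q = 0 → Q ≠ 0 →
      xCoord Q = xCoord P → Q = P := by
  rcases P with _ | ⟨x, y, h⟩
  · exact absurd rfl hP0
  have key : ∀ {x y : ℚbar} {h : ((W.map (Int.castRingHom ℚ))⁄ℚbar).toAffine.Nonsingular x y},
      2 • (Affine.Point.some x y h : ((W.map (Int.castRingHom ℚ))⁄ℚbar).Point) = 0 →
      2 * y = -((W.a₁ : ℚbar) * x + (W.a₃ : ℚbar)) := by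
    intro x y h hP
    rw [two_nsmul, add_eq_zero_iff_eq_neg, Affine.Point.neg_some, Affine.Point.some.injEq] at hP
    have h2 := hP.2
    simp only [Affine.negY, WeierstrassCurve.baseChange, map_a₁, map_a₃, eq_intCast,
      map_intCast] at h2
    linear_combination h2
  have hy := key hP
  constructor
  · have he := h.left
    rw [Affine.equation_iff] at he
    simp only [WeierstrassCurve.baseChange, map_a₁, map_a₂, map_a₃, map_a₄, map_a₆, eq_intCast,
      map_intCast] at he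
    change 4 * x ^ 3 + _ * x ^ 2 + 2 * _ * x + _ = 0
    simp only [WeierstrassCurve.b₂, WeierstrassCurve.b₄, WeierstrassCurve.b₆]
    push_cast
    linear_combination -4 * he + (2 * y + (W.a₁ : ℚbar) * x + W.a₃) * hy
  · intro Q hQ hQ0 hx
    rcases Q with _ | ⟨x', y', h'⟩
    · exact absurd rfl hQ0
    change x' = x at hx
    subst hx
    have hy' := key hQ
    rw [Affine.Point.some.injEq]
    exact ⟨rfl, mul_left_cancel₀ two_ne_zero (hy'.trans hy.symm)⟩

theorem xCoord_ne {P Q : ((W.map (Int.castRingHom ℚ))⁄ℚbar).Point} (hP : 2 • P = 0)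
    (hQ : 2 • Q = 0) (hP0 : P ≠ 0) (hQ0 : Q ≠ 0) (hne : P ≠ Q) : xCoord P ≠ xCoord Q :=
  fun h => hne ((two_torsion_data hQ hQ0).2 P hP hP0 h)

theorem sq_prod_eq_disc {e₁ e₂ e₃ : ℚbar} (h12 : e₁ ≠ e₂) (h13 : e₁ ≠ e₃) (h23 : e₂ ≠ e₃)
    (hr : ∀ e ∈ [e₁, e₂, e₃],
      4 * e ^ 3 + (W.b₂ : ℚbar) * e ^ 2 + 2 * (W.b₄ : ℚbar) * e + (W.b₆ : ℚbar) = 0) :
    (4 * ((e₁ - e₂) * (e₁ - e₃) * (e₂ - e₃))) ^ 2 = (W.Δ : ℚbar) := by
  have f1 := hr e₁ (by simp)
  have f2 := hr e₂ (by simp)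
  have f3 := hr e₃ (by simp)
  have g12 : 4 * (e₁ ^ 2 + e₁ * e₂ + e₂ ^ 2) + (W.b₂ : ℚbar) * (e₁ + e₂) + 2 * W.b₄ = 0 :=
    mul_left_cancel₀ (sub_ne_zero.mpr h12) (by linear_combination f1 - f2)
  have g13 : 4 * (e₁ ^ 2 + e₁ * e₃ + e₃ ^ 2) + (W.b₂ : ℚbar) * (e₁ + e₃) + 2 * W.b₄ = 0 :=
    mul_left_cancel₀ (sub_ne_zero.mpr h13) (by linear_combination f1 - f3)
  have hb2 : (W.b₂ : ℚbar) = -4 * (e₁ + e₂ + e₃) :=
    mul_left_cancel₀ (sub_ne_zero.mpr h23) (by linear_combination g12 - g13)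
  have hb4 : (W.b₄ : ℚbar) = 2 * (e₁ * e₂ + e₁ * e₃ + e₂ * e₃) :=
    mul_left_cancel₀ (two_ne_zero (α := ℚbar))
      (by linear_combination g12 - (e₁ + e₂) * hb2)
  have hb6 : (W.b₆ : ℚbar) = -4 * (e₁ * e₂ * e₃) := by
    linear_combination f1 - e₁ ^ 2 * hb2 - 2 * e₁ * hb4
  have hb8 : 4 * (W.b₈ : ℚbar) = (W.b₂ : ℚbar) * W.b₆ - (W.b₄ : ℚbar) ^ 2 := by
    exact_mod_cast W.b_relation
  have hΔ : (W.Δ : ℚbar) = -(W.b₂ : ℚbar) ^ 2 * W.b₈ - 8 * (W.b₄ : ℚbar) ^ 3 -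
      27 * (W.b₆ : ℚbar) ^ 2 + 9 * W.b₂ * W.b₄ * W.b₆ := by
    rw [WeierstrassCurve.Δ]; push_cast; ring
  refine mul_left_cancel₀ (show (4 : ℚbar) ≠ 0 by norm_num) ?_
  rw [show (4 : ℚbar) * W.Δ = -(W.b₂ : ℚbar) ^ 2 * (4 * W.b₈) - 32 * (W.b₄ : ℚbar) ^ 3 -
      108 * (W.b₆ : ℚbar) ^ 2 + 36 * W.b₂ * W.b₄ * W.b₆ by rw [hΔ]; ring, hb8, hb2, hb4, hb6]
  ring

theorem exists_fixed_iff (hΔ : W.Δ ≠ 0) (M : GQ →* M2 (ZMod 2)) (hM : IsTorsionMatrix W 2 M)
    (g : Γ) : (M g).det = 1 ∧ (g ∈ discGroup W ↔ IsRot (M g)) := by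
  obtain ⟨b, hb⟩ := hM
  have hdet : (M g).det = 1 := by
    have h : M g * M g⁻¹ = 1 := by rw [← map_mul, mul_inv_cancel, map_one]
    have := congrArg Matrix.det h
    rw [Matrix.det_mul, Matrix.det_one] at this
    exact (show ∀ x y : ZMod 2, x * y = 1 → x = 1 by decide) _ _ this
  refine ⟨hdet, ?_⟩
  have h2 : ∀ x : Submodule.torsionBy ℤ ((W.map (Int.castRingHom ℚ))⁄ℚbar).Point (2 : ℕ),
      2 • (x : ((W.map (Int.castRingHom ℚ))⁄ℚbar).Point) = 0 := fun x => by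
    rw [← natCast_zsmul]; exact (Submodule.mem_torsionBy_iff _ _).mp x.2
  have hne : ∀ a c : Fin 2 → ZMod 2, a ≠ c →
      ((∑ i, a i • b i : Submodule.torsionBy ℤ ((W.map (Int.castRingHom ℚ))⁄ℚbar).Point (2 : ℕ)) :
        ((W.map (Int.castRingHom ℚ))⁄ℚbar).Point) ≠ ((∑ i, c i • b i :
        Submodule.torsionBy ℤ ((W.map (Int.castRingHom ℚ))⁄ℚbar).Point (2 : ℕ)) : _) :=
    fun a c hac h => hac (funext fun i => by
      have := congrArg (fun v => b.repr v i) (Subtype.ext h)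
      simpa only [b.repr_sum_self] using this)
  set xs : (Fin 2 → ZMod 2) → ℚbar := fun a => xCoord ((∑ i, a i • b i :
    Submodule.torsionBy ℤ ((W.map (Int.castRingHom ℚ))⁄ℚbar).Point (2 : ℕ)) :
      ((W.map (Int.castRingHom ℚ))⁄ℚbar).Point) with hxs
  have hnz : ∀ a : Fin 2 → ZMod 2, a ≠ 0 → ((∑ i, a i • b i :
      Submodule.torsionBy ℤ ((W.map (Int.castRingHom ℚ))⁄ℚbar).Point (2 : ℕ)) :
      ((W.map (Int.castRingHom ℚ))⁄ℚbar).Point) ≠ 0 := fun a ha h => ha (by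
    have h0 : (∑ i, a i • b i) = 0 := Subtype.ext h
    have := b.repr_sum_self a
    rw [h0, _root_.map_zero] at this
    exact this.symm)
  have hxne : ∀ a c : Fin 2 → ZMod 2, a ≠ 0 → c ≠ 0 → a ≠ c → xs a ≠ xs c := fun a c ha hc hac =>
    xCoord_ne (h2 _) (h2 _) (hnz a ha) (hnz c hc) (hne a c hac)
  have hact : ∀ a : Fin 2 → ZMod 2, g (xs a) = xs ((M g).mulVec a) := by
    intro a
    rw [hxs, xCoord_smul]
    have : g • (∑ i, a i • b i) = ∑ i, (M g).mulVec a i • b i := by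
      change galoisRepModuleEnd (K := ℚbar) ℚ (W.map (Int.castRingHom ℚ)).toAffine 2 g _ = _
      rw [map_sum]
      simp only [map_smul, ← hb g]
      conv_lhs => enter [2, i]; rw [← b.sum_repr (galoisRepModuleEnd _ _ _ g (b i)),
        Finset.smul_sum]
      rw [Finset.sum_comm]
      refine Finset.sum_congr rfl fun i _ => ?_
      rw [Matrix.mulVec, dotProduct, Finset.sum_smul]
      refine Finset.sum_congr rfl fun j _ => ?_
      rw [LinearMap.toMatrix_apply, smul_smul, mul_comm]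
    exact congrArg xCoord (congrArg Subtype.val this)
  set e₁ := xs ![1, 0]
  set e₂ := xs ![0, 1]
  set e₃ := xs ![1, 1]
  have h12 : e₁ ≠ e₂ := hxne _ _ (by decide) (by decide) (by decide)
  have h13 : e₁ ≠ e₃ := hxne _ _ (by decide) (by decide) (by decide)
  have h23 : e₂ ≠ e₃ := hxne _ _ (by decide) (by decide) (by decide)
  have hroot : ∀ a : Fin 2 → ZMod 2, a ≠ 0 →
      4 * xs a ^ 3 + (W.b₂ : ℚbar) * xs a ^ 2 + 2 * (W.b₄ : ℚbar) * xs a + (W.b₆ : ℚbar) = 0 :=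
    fun a ha => (two_torsion_data (h2 _) (hnz a ha)).1
  set d := 4 * ((e₁ - e₂) * (e₁ - e₃) * (e₂ - e₃)) with hd
  have hd2 : d ^ 2 = (W.Δ : ℚbar) := sq_prod_eq_disc h12 h13 h23 (by
    simp only [List.mem_cons, List.not_mem_nil, or_false]
    rintro e (rfl | rfl | rfl) <;> exact hroot _ (by decide))
  have hd0 : d ≠ 0 := fun h => hΔ (by
    rw [h, zero_pow two_ne_zero] at hd2; exact_mod_cast hd2.symm)
  have hmem : g ∈ discGroup W ↔ g d = d := by
    have hs : g (sqrtDisc W) = sqrtDisc W ↔ g d = d := by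
      rcases sq_eq_sq_iff_eq_or_eq_neg.mp ((sqrtDisc_sq W).trans hd2.symm) with h | h <;> rw [h]
      simp
    rw [← hs, discGroup, IntermediateField.mem_fixingSubgroup_iff]
    refine ⟨fun h => h _ (IntermediateField.mem_adjoin_simple_self ℚ _), fun h x hx => ?_⟩
    induction hx using IntermediateField.adjoin_induction with
    | mem y hy => rw [Set.mem_singleton_iff] at hy; rw [hy]; exact h
    | algebraMap r => exact g.commutes r
    | add u v _ _ hu hv => rw [map_add, hu, hv]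
    | inv u _ hu => rw [map_inv₀, hu]
    | mul u v _ _ hu hv => rw [map_mul, hu, hv]
  have hneg : -d ≠ d := fun h => hd0 (by linear_combination (-(1 : ℚbar) / 2) * h)
  have hgd : g d = 4 * ((g e₁ - g e₂) * (g e₁ - g e₃) * (g e₂ - g e₃)) := by
    simp only [hd, map_mul, map_sub, map_ofNat]
  rw [hmem, hgd, hact, hact, hact]
  rcases isRot_or_swap _ hdet with (h | h | h) | h | h | h <;> rw [h]
  · refine iff_of_true ?_ (Or.inl rfl)
    simp only [Matrix.one_mulVec, hd, e₁, e₂, e₃]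
  · refine iff_of_true ?_ (Or.inr (Or.inl rfl))
    rw [show rotMat.mulVec ![1, 0] = ![0, 1] by decide,
      show rotMat.mulVec ![0, 1] = ![1, 1] by decide,
      show rotMat.mulVec ![1, 1] = ![1, 0] by decide]
    simp only [hd, e₁, e₂, e₃]; ring
  · refine iff_of_true ?_ (Or.inr (Or.inr rfl))
    rw [show (rotMat * rotMat).mulVec ![1, 0] = ![1, 1] by decide,
      show (rotMat * rotMat).mulVec ![0, 1] = ![1, 0] by decide,
      show (rotMat * rotMat).mulVec ![1, 1] = ![0, 1] by decide]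
    simp only [hd, e₁, e₂, e₃]; ring
  · refine iff_of_false (fun hh => hneg ?_) (by unfold IsRot rotMat; decide)
    rw [show (!![0, 1; 1, 0] : M2 (ZMod 2)).mulVec ![1, 0] = ![0, 1] by decide,
      show (!![0, 1; 1, 0] : M2 (ZMod 2)).mulVec ![0, 1] = ![1, 0] by decide,
      show (!![0, 1; 1, 0] : M2 (ZMod 2)).mulVec ![1, 1] = ![1, 1] by decide] at hh
    refine Eq.trans ?_ hh
    simp only [hd, e₁, e₂, e₃]; ring
  · refine iff_of_false (fun hh => hneg ?_) (by unfold IsRot rotMat; decide)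
    rw [show (!![1, 1; 0, 1] : M2 (ZMod 2)).mulVec ![1, 0] = ![1, 0] by decide,
      show (!![1, 1; 0, 1] : M2 (ZMod 2)).mulVec ![0, 1] = ![1, 1] by decide,
      show (!![1, 1; 0, 1] : M2 (ZMod 2)).mulVec ![1, 1] = ![0, 1] by decide] at hh
    refine Eq.trans ?_ hh
    simp only [hd, e₁, e₂, e₃]; ring
  · refine iff_of_false (fun hh => hneg ?_) (by unfold IsRot rotMat; decide)
    rw [show (!![1, 0; 1, 1] : M2 (ZMod 2)).mulVec ![1, 0] = ![1, 1] by decide,
      show (!![1, 0; 1, 1] : M2 (ZMod 2)).mulVec ![0, 1] = ![0, 1] by decide,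
      show (!![1, 0; 1, 1] : M2 (ZMod 2)).mulVec ![1, 1] = ![1, 0] by decide] at hh
    refine Eq.trans ?_ hh
    simp only [hd, e₁, e₂, e₃]; ring

/-- **The residual image is all of `GL₂(𝔽₂)`**, with rotations exactly on `G_K`. -/
theorem GenusCurve.exists_residualMatrix (hW : GenusCurve W) :
    ∃ M : GQ →* M2 (ZMod 2), IsTorsionMatrix W 2 M ∧
      (∀ g : Γ, g ∈ discGroup W ↔ IsRot (M g)) ∧
      (∀ g : Γ, (M g).det = 1) ∧
      (∃ γ, M γ = rotMat) ∧ (∃ u, M u = !![1, 1; 0, 1]) ∧ ∃ v, M v = !![1, 0; 1, 1] := by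
  have : Fact (Nat.Prime 2) := ⟨Nat.prime_two⟩
  have := EC.Torsion.isElliptic_baseChange_map W hW.neg.ne ℚbar
  have h20 : ((2 : ℕ) : ℚbar) ≠ 0 := by norm_num
  set E := (W.map (Int.castRingHom ℚ)).toAffine
  have := EC.Torsion.moduleFinite_torsionBy E ℚbar (p := 2) h20
  let b := Module.finBasisOfFinrankEq (ZMod 2) (Submodule.torsionBy ℤ (E⁄ℚbar).Point (2 : ℕ))
    (EC.Torsion.finrank_torsionBy E ℚbar h20)
  let M : GQ →* M2 (ZMod 2) := (LinearMap.toMatrixAlgEquiv b).toMulEquiv.toMonoidHom.comp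
    (galoisRepModuleEnd (K := ℚbar) ℚ E 2)
  have hM : IsTorsionMatrix W 2 M := ⟨b, fun σ => rfl⟩
  have hfix := exists_fixed_iff hW.neg.ne M hM
  refine ⟨M, hM, fun g => (hfix g).2, fun g => (hfix g).1, ?_⟩
  -- an element outside `discGroup`
  obtain ⟨c, hc⟩ : ∃ c : Γ, c (sqrtDisc W) ≠ sqrtDisc W := by
    by_contra h
    push Not at h
    have := Fermat.Agent.Gal.isGalois_rat_qbar
    obtain ⟨r, hr⟩ := (InfiniteGalois.mem_range_algebraMap_iff_fixed (k := ℚ) (sqrtDisc W)).2 h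
    have h' : algebraMap ℚ ℚbar (r ^ 2) = algebraMap ℚ ℚbar (W.Δ : ℚ) := by
      rw [map_pow, hr, sqrtDisc_sq, map_intCast]
    have h'' := (algebraMap ℚ ℚbar).injective h'
    have : (W.Δ : ℚ) < 0 := by exact_mod_cast hW.neg
    nlinarith [sq_nonneg r]
  have hcH : ¬ IsRot (M c) := fun h => hc (by
    have := ((hfix c).2.mpr h)
    rw [discGroup, IntermediateField.mem_fixingSubgroup_iff] at this
    exact this _ (IntermediateField.mem_adjoin_simple_self ℚ _))
  -- irreducibility gives a second nontrivial element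
  obtain ⟨g, hg1, hgt⟩ : ∃ g : Γ, M g ≠ 1 ∧ M g ≠ M c := by
    by_contra h
    push Not at h
    obtain ⟨v, hv0, hv⟩ := exists_fixedVec _ (hfix c).1 hcH
    have hall : ∀ g, (M g).mulVec v = v := fun g => by
      by_cases h1 : M g = 1
      · rw [h1, Matrix.one_mulVec]
      · rw [h g h1, hv]
    let x := b.equivFun.symm v
    have hfixed : ∀ σ : Γ, σ • x = x := fun σ => by
      have h1 := LinearMap.toMatrix_mulVec_repr b b (galoisRepModuleEnd (K := ℚbar) ℚ E 2 σ) x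
      have hx : ⇑(b.repr x) = v := by
        rw [← b.equivFun_apply]; exact b.equivFun.apply_symm_apply v
      rw [hx, show LinearMap.toMatrix b b (galoisRepModuleEnd (K := ℚbar) ℚ E 2 σ) = M σ from rfl,
        hall] at h1
      exact b.repr.injective (DFunLike.coe_injective (h1.symm.trans hx.symm))
    obtain ⟨-, hmax⟩ := hW.irr
    rcases hmax (Submodule.span (ZMod 2) {x}) (fun σ y hy => by
      obtain ⟨a, rfl⟩ := Submodule.mem_span_singleton.1 hy
      change galoisRepModuleEnd (K := ℚbar) ℚ E 2 σ (a • x) ∈ _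
      rw [map_smul, galoisRepModuleEnd_apply, hfixed]
      exact hy) with h' | h'
    · exact hv0 (b.equivFun.symm.map_eq_zero_iff.1
        (Submodule.span_singleton_eq_bot.1 h' : x = 0))
    · have h1 := finrank_span_singleton (K := ZMod 2) (v := x)
        (fun e => hv0 (b.equivFun.symm.map_eq_zero_iff.1 e))
      rw [h', finrank_top, EC.Torsion.finrank_torsionBy E ℚbar h20] at h1
      norm_num at h1
  obtain ⟨hr, hu, hv⟩ := exists_generated _ _ (hfix c).1 (hfix g).1 hcH hg1 hgt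
  obtain ⟨γ, hγ⟩ : ∃ γ, M γ = rotMat := by
    simp only [List.mem_cons, List.not_mem_nil, or_false] at hr
    rcases hr with h | h | h | h
    · exact ⟨g, h.symm⟩
    · exact ⟨g * g, (map_mul M g g).trans h.symm⟩
    · exact ⟨c * g, (map_mul M c g).trans h.symm⟩
    · exact ⟨c * g * (c * g), by rw [map_mul, map_mul, h]⟩
  have hget : ∀ m ∈ [M c, M c * rotMat, M c * (rotMat * rotMat)], ∃ u, M u = m := by
    intro m hm
    simp only [List.mem_cons, List.not_mem_nil, or_false] at hm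
    rcases hm with rfl | rfl | rfl
    · exact ⟨c, rfl⟩
    · exact ⟨c * γ, by rw [map_mul, hγ]⟩
    · exact ⟨c * (γ * γ), by rw [map_mul, map_mul, hγ]⟩
  exact ⟨⟨γ, hγ⟩, hget _ hu, hget _ hv⟩

end Fermat.Agent.Root
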