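import Fermat.Agent.Root.GenusCount

/-!
# Descent of a finite deformation to the subring of traces and signs

When the Selmer group is trivial the subring generated by traces and signs of a finite deformation
has at most `2 ^ (h₂ 2^|Q|)` elements modulo two (`card_genusSubring_quotient_le`).
-/

set_option autoImplicit false

noncomputable section

open IsLocalRing

namespace Fermat.Agent.Root

open Fermat.Agent.Deformation

local notation "ℚbar" => AlgebraicClosure ℚ
local notation "Γ" => AlgebraicClosure ℚ ≃ₐ[ℚ] AlgebraicClosure ℚ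

/-- The subring generated by traces, signs at bad primes and given elements. -/
def genusSubring {B : Type} [CommRing B] (W : WeierstrassCurve ℤ) {Q : Finset ℕ}
    (ρ : GQ →* M2 B) (u : ↥Q → B) : Subring B :=
  Subring.closure (Set.range (fun σ : Γ => (ρ σ).trace) ∪
    {a | ∃ p : ℕ, p.Prime ∧ (p : ℤ) ∣ W.Δ ∧ ∃ V : ValuationSubring ℚbar, V.LiesOverPrime p ∧
      ∃ s : V.decompositionSubgroup ℚ →* B, IsSign ρ V s ∧ ∃ g, a = s g} ∪ Set.range u)

theorem IsSign.conj {B : Type} [CommRing B] {ρ : GQ →* M2 B} {V : ValuationSubring ℚbar}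
    {s : V.decompositionSubgroup ℚ →* B} (h : IsSign ρ V s) (U : (M2 B)ˣ) :
    IsSign (conjRep U ρ) V s := by
  refine ⟨h.1, h.2.1, fun a b => ?_⟩
  rw [conjRep_apply, conjRep_apply, Matrix.det_units_conj, conj_sub_smul, conj_sub_smul]
  calc _ = (U : M2 B) * ((ρ a - ((ρ a).det * s a) • 1) * (ρ b - s b • 1)) *
        ((U⁻¹ : (M2 B)ˣ) : M2 B) := by simp only [mul_assoc, Units.inv_mul_cancel_left]
    _ = 0 := by rw [h.2.2 a b, mul_zero, zero_mul]

theorem IsSign.of_map {A B : Type} [CommRing A] [CommRing B] (f : A →+* B)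
    (hf : Function.Injective f) {ρ : GQ →* M2 A} {V : ValuationSubring ℚbar}
    {s : V.decompositionSubgroup ℚ →* A} (h : IsSign (mapRep f ρ) V ((f : A →* B).comp s)) :
    IsSign ρ V s := by
  refine ⟨fun a => hf ?_, fun a ha => hf ?_, fun a b => ?_⟩
  · rw [map_mul, map_one]; exact h.1 a
  · rw [map_one]; exact h.2.1 a ha
  · refine Matrix.map_injective hf ?_
    simp only
    have e : ∀ (X : M2 A) (c : A), (X - c • (1 : M2 A)).map f = X.map f - f c • 1 := fun X c => by
      refine Matrix.ext fun i j => ?_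
      by_cases hij : i = j <;> simp [hij]
    have h' := h.2.2 a b
    rw [mapRep_apply, mapRep_apply] at h'
    rw [Matrix.map_mul, e, e, map_mul, RingHom.map_det, RingHom.mapMatrix_apply,
      Matrix.map_zero f (map_zero f)]
    exact h'

theorem mem_of_mul_eq_one {B : Type} [CommRing B] [Finite B] (A : Subring B) {a : B} (ha : a ∈ A)
    {b : B} (hab : a * b = 1) : b ∈ A := by
  let v : Bˣ := Units.mkOfMulEqOne a b hab
  have h : v⁻¹ = v ^ (orderOf v - 1) := by
    refine inv_eq_of_mul_eq_one_right ?_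
    rw [← pow_succ', Nat.sub_add_cancel (orderOf_pos v), pow_orderOf_eq_one]
  have h' : b = a ^ (orderOf v - 1) := by
    rw [show b = ((v⁻¹ : Bˣ) : B) from rfl, h, Units.val_pow_eq_pow_val]
    rfl
  rw [h']
  exact pow_mem ha _

theorem closure_coe_preimage_eq_top {B : Type*} [CommRing B] (s : Set B) :
    Subring.closure (((↑) : Subring.closure s → B) ⁻¹' s) = ⊤ := by
  refine eq_top_iff.mpr ?_
  rintro ⟨x, hx⟩ -
  induction hx using Subring.closure_induction with
  | mem y hy => exact Subring.subset_closure hy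
  | zero => exact zero_mem _
  | one => exact one_mem _
  | add y z hy hz ihy ihz => exact add_mem ihy ihz
  | neg y hy ihy => exact neg_mem ihy
  | mul y z hy hz ihy ihz => exact mul_mem ihy ihz

theorem pow_apply_mem {R : Type*} [CommRing R] (I : Ideal R) {m : Type*} [Fintype m]
    [DecidableEq m] {x : Matrix m m R} (hx : ∀ i j, x i j ∈ I) :
    ∀ (N : ℕ) (i j : m), (x ^ N) i j ∈ I ^ N
  | 0, i, j => by simp
  | N + 1, i, j => by
    rw [pow_succ I, pow_succ x, Matrix.mul_apply]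
    exact sum_mem fun k _ => Ideal.mul_mem_mul (pow_apply_mem I hx N i k) (hx k j)

set_option synthInstance.maxSize 2048 in
theorem swap_eq_mul : (!![1, 1; 0, 1] * !![1, 0; 1, 1] * !![1, 1; 0, 1] : M2 (ZMod 2)) =
    !![0, 1; 1, 0] := by decide

theorem diag_eq_sum : (1 + !![1, 1; 0, 1] + !![1, 0; 1, 1] +
    !![1, 1; 0, 1] * !![1, 0; 1, 1] : M2 (ZMod 2)) = !![1, 0; 0, 0] := by decide

theorem zmodTwo_ringHom_surjective {R : Type*} [CommRing R] (f : R →+* ZMod 2) :
    Function.Surjective f := fun z => ⟨(z.val : R), by rw [map_natCast, ZMod.natCast_zmod_val]⟩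

variable {W : WeierstrassCurve ℤ} {D : ResidualMatrix W} {Q : Finset ℕ} {B : Type} [CommRing B]

/-- The counting argument for a finite representation with residue `E[2]`: the subring generated
by traces and signs has reduction mod two of at most `2 ^ (h₂ 2^|Q|)` elements. -/
theorem card_genusSubring_quotient_le [Finite B] [IsLocalRing B] (hW : GenusCurve W)
    (hQ : ∀ q ∈ Q, AuxPrime W 3 q)
    (hsel : ∀ f : discGroup W → F4, SelmerCocycle D.discChar Q f →
      ∃ a : F4, ∀ h, f h = (D.discChar.χ h ^ 2 - 1) * a)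
    (ε : B →+* ZMod 2) (ρ : GQ →* M2 B) (hres : ∀ σ : Γ, (ρ σ).map ε = D.M σ)
    (hdet : ∀ σ : Γ, ∃ k : ℤ, (ρ σ).det = (k : B))
    (hlevel : ∃ L : IntermediateField ℚ ℚbar, FiniteDimensional ℚ L ∧
      ∀ σ : Γ, (∀ x ∈ L, σ x = x) → ρ σ = 1)
    (hgood : ∀ ℓ : ℕ, ℓ.Prime → ℓ ∉ Q → ¬ (ℓ : ℤ) ∣ W.Δ → ∀ V : ValuationSubring ℚbar,
      V.LiesOverPrime ℓ → ∀ σ ∈ V.inertiaSubgroupIn ℚ, ρ σ = 1)
    (hbad : ∀ p : ℕ, p.Prime → (p : ℤ) ∣ W.Δ → ∀ V : ValuationSubring ℚbar, V.LiesOverPrime p →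
      ∃ s : V.decompositionSubgroup ℚ →* B, IsSign ρ V s)
    (u : ↥Q → B) (hu : ∀ q, u q * u q = 1)
    (hQloc : ∀ q : ↥Q, ∀ V : ValuationSubring ℚbar, V.LiesOverPrime q.1 →
      ∃ s : V.decompositionSubgroup ℚ →* B, IsSign ρ V s ∧ ∀ a, s a = 1 ∨ s a = u q) :
    Nat.card (genusSubring W ρ u ⧸ Ideal.span {(2 : genusSubring W ρ u)}) ≤
      2 ^ (classTwoPart W * 2 ^ Q.card) := by
  classical
  set A := genusSubring W ρ u
  obtain ⟨N₀, hN₀⟩ : IsNilpotent (maximalIdeal B) := by
    have := IsArtinianRing.isNilpotent_jacobson_bot (R := B)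
    rwa [IsLocalRing.jacobson_eq_maximalIdeal ⊥ bot_ne_top] at this
  have hN : maximalIdeal B ^ (N₀ + 1) = ⊥ := by rw [pow_succ, hN₀, zero_mul]; rfl
  have hker : ∀ x, ε x = 0 ↔ x ∈ maximalIdeal B := fun x => by
    rw [← IsLocalRing.eq_maximalIdeal (RingHom.ker_isMaximal_of_surjective _
      (zmodTwo_ringHom_surjective ε)), RingHom.mem_ker]
  have hunit : ∀ x, ε x = 1 → IsUnit x := fun x hx =>
    IsLocalRing.notMem_maximalIdeal.mp fun h => one_ne_zero (hx.symm.trans ((hker x).mpr h))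
  have hR : ∀ a ∈ A, ∀ b, a * b = 1 → b ∈ A := fun a ha b hab => mem_of_mul_eq_one A ha hab
  have hunitA : ∀ a : A, ε a = 1 → IsUnit a := fun a ha => by
    obtain ⟨v, hv⟩ := hunit _ ha
    exact isUnit_iff_exists_inv.mpr ⟨⟨_, hR _ a.2 ((v⁻¹ : Bˣ) : B) (by rw [← hv, Units.mul_inv])⟩,
      Subtype.ext (by
        change (a : B) * ((v⁻¹ : Bˣ) : B) = 1
        rw [← hv, Units.mul_inv])⟩
  have : IsLocalRing A := by
    refine isLocalRing_of_nilpotent_ker (ε.comp A.subtype) (zmodTwo_ringHom_surjective _)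
      fun x hx => ⟨N₀ + 1, Subtype.ext ?_⟩
    have h := Ideal.pow_mem_pow ((hker _).mp hx) (N₀ + 1)
    rw [hN, Ideal.mem_bot] at h
    exact h
  -- the idempotent and the element off the diagonal
  obtain ⟨a, ha⟩ := D.exists_upper
  obtain ⟨b, hb⟩ := D.exists_lower
  set x : M2 B := 1 + ρ a + ρ b + ρ (a * b) with hx
  have hmap : ∀ Y Z : M2 B, (Y + Z).map ε = Y.map ε + Z.map ε := fun Y Z =>
    Matrix.map_add _ (map_add ε) Y Z
  have hxres : x.map ε = !![1, 0; 0, 0] := by
    rw [hx, hmap, hmap, hmap, Matrix.map_one _ (map_zero ε) (map_one ε), hres, hres, hres, map_mul,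
      ha, hb, diag_eq_sum]
  have hidem : IsIdempotentElem (x.map ε) := by
    rw [hxres]
    exact (by decide : (!![1, 0; 0, 0] : M2 (ZMod 2)) * !![1, 0; 0, 0] = !![1, 0; 0, 0])
  have hεx : (x - x ^ 2).map ε = 0 := by
    rw [Matrix.map_sub _ (map_sub ε), pow_two, Matrix.map_mul, hidem.eq, sub_self]
  have hxN : (x - x ^ 2) ^ (N₀ + 1) = 0 := by
    refine Matrix.ext fun i j => ?_
    have h := pow_apply_mem (maximalIdeal B)
      (fun i j => (hker _).mp (congrFun (congrFun hεx i) j)) (N₀ + 1) i j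
    rwa [hN, Ideal.mem_bot] at h
  set e := 1 - (1 - x ^ (N₀ + 1)) ^ (N₀ + 1) with he
  have heres : e.map ε = !![1, 0; 0, 0] := by
    change ε.mapMatrix e = _
    rw [he, map_sub, map_pow, map_sub, map_pow, map_one,
      show ε.mapMatrix x = x.map ε from rfl, hidem.pow_succ_eq N₀, hidem.one_sub.pow_succ_eq N₀,
      sub_sub_cancel, hxres]
  have hespan : e ∈ Submodule.span A (Set.range ρ) := by
    have hadj : Subalgebra.toSubmodule (Algebra.adjoin A (Set.range ρ)) =
        Submodule.span A (Set.range ρ) := by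
      rw [Algebra.adjoin_eq_span, ← MonoidHom.coe_mrange, Submonoid.closure_eq,
        MonoidHom.coe_mrange]
    rw [← hadj, Subalgebra.mem_toSubmodule]
    have hmem : ∀ g, ρ g ∈ Algebra.adjoin A (Set.range ρ) := fun g =>
      Algebra.subset_adjoin ⟨g, rfl⟩
    have hxmem : x ∈ Algebra.adjoin A (Set.range ρ) :=
      add_mem (add_mem (add_mem (one_mem _) (hmem _)) (hmem _)) (hmem _)
    exact sub_mem (one_mem _) (pow_mem (sub_mem (one_mem _) (pow_mem hxmem _)) _)
  have hent : ∀ i j, ε (e i j) = (!![1, 0; 0, 0] : M2 (ZMod 2)) i j := fun i j =>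
    congrFun (congrFun heres i) j
  have hw : D.M (a * b * a) = !![0, 1; 1, 0] := by rw [map_mul, map_mul, ha, hb, swap_eq_mul]
  have hentw : ∀ i j, ε (ρ (a * b * a) i j) = (!![0, 1; 1, 0] : M2 (ZMod 2)) i j := fun i j => by
    rw [← hw, ← hres]; rfl
  obtain ⟨Pm, hPm⟩ := Dihedral.exists_conj_mem hN A hR ρ
    (fun g => Subring.subset_closure (Or.inl (Or.inl ⟨g, rfl⟩))) e hespan
    (isIdempotentElem_one_sub_one_sub_pow_pow x _ hxN).eq
    ((hker _).mp (by rw [map_sub, map_one, hent]; rfl)) ((hker _).mp (hent 1 1))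
    ((hker _).mp (hent 0 1)) ((hker _).mp (hent 1 0))
    (a * b * a) (hunit _ (hentw 0 1)) (hunit _ (hentw 1 0))
  -- the representation over `A`
  let ρ₀ : GQ →* M2 A :=
    { toFun := fun g => Matrix.of fun i j => ⟨_, hPm g i j⟩
      map_one' := by
        refine Matrix.map_injective (f := A.subtype) Subtype.val_injective ?_
        refine Matrix.ext fun i j => ?_
        simp [Matrix.one_apply, apply_ite Subtype.val]
      map_mul' := fun g h => by
        refine Matrix.map_injective (f := A.subtype) Subtype.val_injective ?_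
        simp only
        rw [Matrix.map_mul]
        change ((↑Pm⁻¹ : M2 B) * ρ (g * h) * (Pm : M2 B)) =
          ((↑Pm⁻¹ : M2 B) * ρ g * (Pm : M2 B)) * ((↑Pm⁻¹ : M2 B) * ρ h * (Pm : M2 B))
        simp only [map_mul, mul_assoc, Units.mul_inv_cancel_left] }
  let L₀ : M2 A := Matrix.of fun i j => (((ε ((Pm : M2 B) i j)).val : ℕ) : A)
  have hL₀ε : L₀.map (ε.comp A.subtype) = (Pm : M2 B).map ε := Matrix.ext fun i j => by
    simp only [Matrix.map_apply, L₀, Matrix.of_apply, map_natCast,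
      ZMod.natCast_zmod_val]
  have hL₀ : IsUnit L₀.det := hunitA _ (by
    change (ε.comp A.subtype) L₀.det = 1
    rw [RingHom.map_det, RingHom.mapMatrix_apply, hL₀ε, ← RingHom.mapMatrix_apply,
      ← RingHom.map_det]
    have h := (Matrix.isUnit_iff_isUnit_det (Pm : M2 B)).mp Pm.isUnit
    exact (show ∀ z : ZMod 2, z ≠ 0 → z = 1 by decide) _ (h.map ε).ne_zero)
  obtain ⟨LA, hLA⟩ := (Matrix.isUnit_iff_isUnit_det L₀).mpr hL₀
  let L : (M2 B)ˣ := Units.map (A.subtype.mapMatrix : M2 A →+* M2 B).toMonoidHom LA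
  let ρA : GQ →* M2 A := conjRep LA ρ₀
  have hρA : mapRep A.subtype ρA = conjRep (L * Pm⁻¹) ρ := by
    refine MonoidHom.ext fun σ => ?_
    rw [mapRep_apply, conjRep_apply, conjRep_apply]
    rw [Matrix.map_mul, Matrix.map_mul, mul_inv_rev, inv_inv, Units.val_mul, Units.val_mul]
    change (L : M2 B) * ((↑Pm⁻¹ : M2 B) * ρ σ * (Pm : M2 B)) * ((L⁻¹ : (M2 B)ˣ) : M2 B) = _
    simp only [mul_assoc]
  have hρA' : ∀ σ, (ρA σ).map A.subtype =
      ((L * Pm⁻¹ : (M2 B)ˣ) : M2 B) * ρ σ * (((L * Pm⁻¹)⁻¹ : (M2 B)ˣ) : M2 B) := fun σ => by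
    rw [← mapRep_apply, hρA, conjRep_apply]
  have hLPε : Units.map (ε.mapMatrix : M2 B →+* M2 (ZMod 2)).toMonoidHom (L * Pm⁻¹) = 1 := by
    rw [map_mul, map_inv, mul_inv_eq_one]
    refine Units.ext ?_
    change ((LA : M2 A).map A.subtype).map ε = (Pm : M2 B).map ε
    rw [hLA, Matrix.map_map]
    exact hL₀ε
  have hresA : ∀ σ, (ρA σ).map (ε.comp A.subtype) = D.M σ := fun σ => by
    have h1 : ((L * Pm⁻¹ : (M2 B)ˣ) : M2 B).map ε = 1 := congrArg Units.val hLPε
    have h2 : (((L * Pm⁻¹)⁻¹ : (M2 B)ˣ) : M2 B).map ε = 1 := by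
      have h := congrArg Units.val (congrArg (·⁻¹) hLPε)
      simp only [inv_one, ← map_inv] at h
      exact h
    have h3 := congrArg (fun Y : M2 B => Y.map ε) (hρA' σ)
    simp only [Matrix.map_mul, h1, h2, one_mul, mul_one, Matrix.map_map, hres] at h3
    exact h3
  have hdetA : ∀ σ, ((ρA σ).det : B) = (ρ σ).det := fun σ => by
    change A.subtype (ρA σ).det = _
    rw [RingHom.map_det, RingHom.mapMatrix_apply, hρA', Matrix.det_units_conj]
  have htrA : ∀ σ, ((ρA σ).trace : B) = (ρ σ).trace := fun σ => by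
    have e : ((ρA σ).trace : B) = ((ρA σ).map A.subtype).trace := by
      simp [Matrix.trace_fin_two]
    rw [e, hρA', Matrix.trace_units_conj]
  have hone : ∀ σ, ρ σ = 1 → ρA σ = 1 := fun σ hσ =>
    Matrix.map_injective (f := A.subtype) Subtype.val_injective (by
      simp only
      rw [hρA', hσ, mul_one, Units.mul_inv, Matrix.map_one _ (map_zero _) (map_one _)])
  have hsign : ∀ (V : ValuationSubring ℚbar) (s : V.decompositionSubgroup ℚ →* B)
      (hsA : ∀ g, s g ∈ A), IsSign ρ V s → IsSign ρA V (s.codRestrict A hsA) := by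
    intro V s hsA hs
    refine IsSign.of_map A.subtype Subtype.val_injective ?_
    rw [hρA]
    exact hs.conj _
  let E : GenusDeformation D Q A :=
    { ε := ε.comp A.subtype
      ρ := ρA
      residual := hresA
      det_one := fun σ => by
        obtain ⟨k, hk⟩ := hdet σ
        have hodd : Odd k := by
          have h : ε (ρ σ).det = 1 := by
            rw [RingHom.map_det, RingHom.mapMatrix_apply, hres, D.det_eq]
          rw [hk, map_intCast] at h
          by_contra hev
          rw [Int.not_odd_iff_even] at hev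
          obtain ⟨j, rfl⟩ := hev
          push_cast at h
          rw [CharTwo.add_self_eq_zero] at h
          exact zero_ne_one h
        obtain ⟨j, rfl⟩ := hodd
        refine ⟨(j : A), Subtype.ext ((hdetA σ).trans (hk.trans ?_))⟩
        push_cast
        rw [show ((2 : A) : B) = 2 from map_ofNat A.subtype 2]
        ring
      level := by
        obtain ⟨L', hL', h⟩ := hlevel
        exact ⟨L', hL', fun σ hσ => hone σ (h σ hσ)⟩
      good := fun ℓ hℓ hℓQ hℓΔ V hV σ hσ => hone σ (hgood ℓ hℓ hℓQ hℓΔ V hV σ hσ)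
      loc := fun q hq hcase V hV => by
        by_cases hqΔ : (q : ℤ) ∣ W.Δ
        · obtain ⟨s, hs⟩ := hbad q hq hqΔ V hV
          exact ⟨_, hsign V s (fun g => Subring.subset_closure
            (Or.inl (Or.inr ⟨q, hq, hqΔ, V, hV, s, hs, g, rfl⟩))) hs⟩
        · obtain ⟨s, hs, hval⟩ := hQloc ⟨q, hcase.resolve_right hqΔ⟩ V hV
          exact ⟨_, hsign V s (fun g => (hval g).elim (fun h => h ▸ one_mem _)
            fun h => h ▸ Subring.subset_closure (Or.inr ⟨_, rfl⟩)) hs⟩
      u := fun q => ⟨u q, Subring.subset_closure (Or.inr ⟨q, rfl⟩)⟩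
      u_sq := fun q => Subtype.ext (hu q)
      gen := by
        refine eq_top_iff.mpr ?_
        refine le_of_eq_of_le (closure_coe_preimage_eq_top _).symm ?_
        refine Subring.closure_mono ?_
        rintro ⟨y, hy⟩ ((⟨σ, hσ⟩ | ⟨p, hp, hpΔ, V, hV, s, hs, g, hg⟩) | ⟨q, hq⟩)
        · exact Or.inl (Or.inl ⟨σ, Subtype.ext ((htrA σ).trans hσ)⟩)
        · refine Or.inl (Or.inr ⟨p, hp, hpΔ, V, hV, _, hsign V s (fun g' => ?_) hs, g,
            Subtype.ext hg⟩)
          exact Subring.subset_closure (Or.inl (Or.inr ⟨p, hp, hpΔ, V, hV, s, hs, g', rfl⟩))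
        · exact Or.inr ⟨q, Subtype.ext hq⟩ }
  exact E.card_quotient_le hW hQ hsel

end Fermat.Agent.Root
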