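import Fermat.Agent.Root.GenusPair
import Fermat.Agent.Root.GenusLocal
import Fermat.Agent.Density.Places

/-!
# The coefficient ring modulo `2ⁿ` from traces and signs

The representation over the coefficient ring of the class modulo `2ⁿ` is paired with `E[2ⁿ]`; by
the counting argument the subring of traces and signs maps isomorphically onto the first factor,
and the projection to the second factor gives the eigensystem of `W` modulo `2ⁿ`
(`GenusCurve.exists_trace_hom`).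
-/

set_option autoImplicit false

noncomputable section

open IsLocalRing WeierstrassCurve

namespace Fermat.Agent.Root

open Fermat.Agent.Deformation

local notation "ℚbar" => AlgebraicClosure ℚ
local notation "Γ" => AlgebraicClosure ℚ ≃ₐ[ℚ] AlgebraicClosure ℚ

theorem AuxPrime.mono {W : WeierstrassCurve ℤ} {m n q : ℕ} (h : AuxPrime W n q) (hmn : m ≤ n) :
    AuxPrime W m q where
  prime := h.prime
  good := h.good
  dvd_succ := (pow_dvd_pow 2 hmn).trans h.dvd_succ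
  dvd_ap := (Int.natCast_dvd_natCast.mpr (pow_dvd_pow 2 hmn)).trans h.dvd_ap
  frob A hA σ hσ := by
    obtain ⟨h1, c, h2, h3, h4⟩ := h.frob A hA σ hσ
    refine ⟨h1, c, h2, h3, fun P hP => h4 P ?_⟩
    rw [show 2 ^ n = 2 ^ (n - m) * 2 ^ m by rw [← pow_add, Nat.sub_add_cancel hmn], mul_nsmul',
      hP, nsmul_zero]

theorem eqOn_imp_inv_mul {L : IntermediateField ℚ ℚbar} {σ σ' : Γ} (h : ∀ x ∈ L, σ x = σ' x) :
    ∀ x ∈ L, (σ'⁻¹ * σ) x = x := fun x hx => by
  rw [AlgEquiv.mul_apply, h x hx, ← AlgEquiv.mul_apply, inv_mul_cancel, AlgEquiv.one_apply]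

/-- At an auxiliary prime the image of the decomposition group on `E[2ⁿ]` is generated by an
involution of determinant `-1`. -/
theorem auxPrime_relation {W : WeierstrassCurve ℤ} (hW : GenusCurve W) {n q : ℕ}
    (hq : AuxPrime W n q) {X : GQ →* M2 (ZMod (2 ^ n))} (hX : IsTorsionMatrix W (2 ^ n) X)
    {A : ValuationSubring ℚbar} (hA : A.LiesOverPrime q) (a b : A.decompositionSubgroup ℚ) :
    (X a - (X a).det • (1 : M2 (ZMod (2 ^ n)))) * (X b - 1) = 0 := by
  have : Fact q.Prime := ⟨hq.prime⟩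
  have hgood : W.IsGoodPrimeFor q := fun h => hq.good (dvd_mul_of_dvd_right h 2)
  have hq2 : q ≠ 2 := (hW.not_dvd_of_auxPrime hq).1
  obtain ⟨L, hL, hL1⟩ := hX.finiteLevel hW.neg.ne (pow_ne_zero n two_ne_zero)
  set N := IntermediateField.normalClosure ℚ L ℚbar
  have : Normal ℚ N := normalClosure.normal ℚ L ℚbar
  have hLN : L ≤ N := L.le_normalClosure
  obtain ⟨F, hF⟩ := Gal.exists_isFrobeniusAt hq.prime hA
  obtain ⟨hI, hfrob⟩ := torsionMatrix_good W n X hX hq.prime hgood hq2 hA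
  obtain ⟨htr, hdet⟩ := hfrob F hF
  have htr0 : (X F).trace = 0 := by
    rw [htr, ZMod.intCast_zmod_eq_zero_iff_dvd]
    exact hq.dvd_ap
  have hdet1 : (X F).det = -1 := by
    rw [hdet, eq_neg_iff_add_eq_zero, ← Nat.cast_one, ← Nat.cast_add, ZMod.natCast_eq_zero_iff]
    exact hq.dvd_succ
  have hsq : X F * X F = 1 := by
    rw [Matrix.trace_fin_two] at htr0
    rw [Matrix.det_fin_two] at hdet1
    refine Matrix.ext fun i j => ?_
    fin_cases i <;> fin_cases j <;> simp [Matrix.mul_apply, Fin.sum_univ_two]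
    · linear_combination (X F 0 0) * htr0 - hdet1
    · linear_combination (X F 0 1) * htr0
    · linear_combination (X F 1 0) * htr0
    · linear_combination (X F 1 1) * htr0 - hdet1
  have hval : ∀ c : A.decompositionSubgroup ℚ, X c = 1 ∨ X c = X F := by
    intro c
    obtain ⟨m, τ, hτ, hm⟩ := Gal.exists_pow_mul_inertia_eqOn Fact.out N hA hF (d := (c : Γ)) c.2
    have h1 : X ((F ^ m * τ)⁻¹ * c) = 1 :=
      hL1 _ fun x hx => eqOn_imp_inv_mul (fun y hy => hm y (hLN hy)) x hx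
    have h2 : X c = X F ^ m := by
      rw [show (c : Γ) = F ^ m * τ * ((F ^ m * τ)⁻¹ * c) by rw [mul_inv_cancel_left],
        map_mul, h1, mul_one, map_mul, hI τ hτ, mul_one, map_pow]
    rcases m.even_or_odd with ⟨k, rfl⟩ | ⟨k, rfl⟩
    · left; rw [h2, ← two_mul, pow_mul, pow_two, hsq, one_pow]
    · right; rw [h2, pow_succ, pow_mul, pow_two, hsq, one_pow, one_mul]
  rcases hval b with hb | hb
  · rw [hb, sub_self, mul_zero]
  rcases hval a with ha | ha
  · rw [ha, Matrix.det_one, one_smul, sub_self, zero_mul]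
  · rw [ha, hb, hdet1, neg_one_smul, sub_neg_eq_add, add_mul, mul_sub, mul_sub, hsq, mul_one,
      one_mul, mul_one, sub_add_sub_cancel, sub_self]

/-- The ring modulo `2 ^ n` of a finite free local algebra over `ℤ₂`. -/
theorem exists_residue_quotient {O : Type} [CommRing O] [IsLocalRing O] [Algebra ℤ_[2] O]
    [Module.Free ℤ_[2] O] [Module.Finite ℤ_[2] O] (ε : O →+* ZMod 2) {n : ℕ} (hn : n ≠ 0) :
    ∃ (T : Type) (_ : CommRing T) (_ : Finite T) (_ : IsLocalRing T) (π : O →+* T)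
      (εT : T →+* ZMod 2), Function.Surjective π ∧
        (∀ x ∈ Ideal.span {(2 : O) ^ n}, π x = 0) ∧ (∀ x, εT (π x) = ε x) ∧
        Nat.card T = 2 ^ (n * Module.finrank ℤ_[2] O) := by
  classical
  let J : Ideal O := Ideal.span {(2 : O) ^ n}
  let εT : O ⧸ J →+* ZMod 2 := Ideal.Quotient.lift J ε fun x hx => by
    obtain ⟨y, rfl⟩ := Ideal.mem_span_singleton'.mp hx
    rw [map_mul, map_pow, map_ofNat, show (2 : ZMod 2) = 0 from rfl, zero_pow hn, mul_zero]
  have : Nontrivial (O ⧸ J) := εT.domain_nontrivial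
  have : IsLocalRing (O ⧸ J) :=
    IsLocalRing.of_surjective' (Ideal.Quotient.mk J) Ideal.Quotient.mk_surjective
  let b := Module.finBasis ℤ_[2] O
  let g : O →+ (Fin (Module.finrank ℤ_[2] O) → ZMod (2 ^ n)) :=
    { toFun := fun x i => PadicInt.toZModPow n (b.equivFun x i)
      map_zero' := funext fun i => by simp
      map_add' := fun x y => funext fun i => by simp }
  have hg : Function.Surjective g := fun v => by
    refine ⟨b.equivFun.symm fun i => ((v i).val : ℤ_[2]), funext fun i => ?_⟩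
    change PadicInt.toZModPow n (b.equivFun (b.equivFun.symm _) i) = _
    rw [LinearEquiv.apply_symm_apply, map_natCast, ZMod.natCast_zmod_val]
  have hgJ : g.ker = J.toAddSubgroup := by
    refine AddSubgroup.ext fun x => ?_
    rw [AddMonoidHom.mem_ker, Submodule.mem_toAddSubgroup, Ideal.mem_span_singleton']
    refine ⟨fun h => ?_, fun ⟨y, hy⟩ => ?_⟩
    · have hc : ∀ i, ∃ c, c * 2 ^ n = b.equivFun x i := fun i => by
        have h' : b.equivFun x i ∈ RingHom.ker (PadicInt.toZModPow (p := 2) n) := congrFun h i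
        rw [PadicInt.ker_toZModPow, Ideal.mem_span_singleton'] at h'
        exact_mod_cast h'
      choose c hc using hc
      refine ⟨b.equivFun.symm c, b.equivFun.injective (funext fun i => ?_)⟩
      rw [← hc i, show b.equivFun.symm c * 2 ^ n = ((2 : ℤ_[2]) ^ n) • b.equivFun.symm c by
        rw [Algebra.smul_def, map_pow, map_ofNat, mul_comm], map_smul,
        LinearEquiv.apply_symm_apply, Pi.smul_apply, smul_eq_mul, mul_comm]
    · rw [← hy, show y * 2 ^ n = (2 ^ n : ℕ) • y by rw [nsmul_eq_mul, mul_comm]; push_cast; rfl,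
        map_nsmul]
      exact funext fun i => by rw [Pi.smul_apply, nsmul_eq_mul, ZMod.natCast_self, zero_mul]; rfl
  have hcard : Nat.card (O ⧸ J) = 2 ^ (n * Module.finrank ℤ_[2] O) := by
    refine (Nat.card_congr ((QuotientAddGroup.quotientAddEquivOfEq hgJ.symm).trans
      (QuotientAddGroup.quotientKerEquivOfSurjective g hg)).toEquiv).trans ?_
    rw [Nat.card_pi]
    simp [← pow_mul]
  have : Finite (O ⧸ J) := Nat.finite_of_card_ne_zero (by rw [hcard]; positivity)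
  exact ⟨O ⧸ J, inferInstance, inferInstance, inferInstance, Ideal.Quotient.mk J, εT,
    Ideal.Quotient.mk_surjective, fun x hx => Ideal.Quotient.eq_zero_iff_mem.mpr hx, fun x => rfl,
    hcard⟩

/-- The eigensystem of `W` modulo `2 ^ n` is a point of the coefficient ring of the class. -/
theorem ClassRep.exists_hom {W : WeierstrassCurve ℤ} {D : ResidualMatrix W} {Q : Finset ℕ}
    {p₀ : ℕ} [NeZero (classLevel W Q)] {P : ClassPlace W Q p₀} (C : ClassRep P D)
    (hW : GenusCurve W) (hp₀ : p₀.Prime) (hp₀2 : p₀ ≠ 2) (hp₀Δ : (p₀ : ℤ) ∣ W.Δ)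
    [IsLocalRing P.ring] {n : ℕ} [NeZero n] (hQn : ∀ q ∈ Q, AuxPrime W n q)
    (hQ : ∀ q ∈ Q, AuxPrime W 3 q)
    (hsel : ∀ f : discGroup W → F4, SelmerCocycle D.discChar Q f →
      ∃ a : F4, ∀ h, f h = (D.discChar.χ h ^ 2 - 1) * a)
    (hB : classTwoPart W * 2 ^ Q.card ≤ Module.finrank ℤ_[2] P.ring)
    {X : GQ →* M2 (ZMod (2 ^ n))} (hX : IsTorsionMatrix W (2 ^ n) X)
    (hXD : ∀ σ : Γ, (X σ).map (zmodPowTwo n) = D.M σ)
    {T : Type} [CommRing T] [Finite T] [IsLocalRing T] (π : P.ring →+* T)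
    (εT : T →+* ZMod 2) (hπ : Function.Surjective π)
    (hπn : ∀ x ∈ Ideal.span {(2 : P.ring) ^ n}, π x = 0) (hεT : ∀ x, εT (π x) = C.ε x)
    (hcard : Nat.card T = 2 ^ (n * Module.finrank ℤ_[2] P.ring)) :
    Module.finrank ℤ_[2] P.ring ≤ classTwoPart W * 2 ^ Q.card ∧
      ∃ θ : P.ring →+* ZMod (2 ^ n), ∀ (ℓ : ℕ) (hℓ : ℓ.Prime), W.IsGoodPrimeFor ℓ → ℓ ∉ Q →
        ℓ ≠ 2 → θ (P.gen ℓ hℓ) = (W.apOfModel ℓ : ZMod (2 ^ n)) := by
  classical
  -- the data modulo `2 ^ n`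
  let RT : GQ →* M2 T := mapRep π C.R
  have hRT : ∀ σ, RT σ = (C.R σ).map π := fun σ => mapRep_apply π C.R σ
  have hRTres : ∀ σ, (RT σ).map εT = D.M σ := fun σ => by
    rw [← C.residual σ, hRT]
    exact Matrix.ext fun i j => hεT _
  have hdetT : ∀ σ, (RT σ).det = π (C.R σ).det := fun σ => by rw [hRT, RingHom.map_det]; rfl
  obtain ⟨LC, hLC, hLC1⟩ := C.level n
  obtain ⟨LX, hLX, hLX1⟩ := hX.finiteLevel hW.neg.ne (pow_ne_zero n two_ne_zero)
  have hlev : ∀ σ : Γ, (∀ x ∈ LC ⊔ LX, σ x = x) → RT σ = 1 ∧ X σ = 1 := fun σ hσ => by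
    refine ⟨?_, hLX1 σ fun x hx => hσ x (le_sup_right (a := LC) hx)⟩
    rw [hRT, ← Matrix.map_one π (map_zero π) (map_one π)]
    exact Matrix.ext fun i j => sub_eq_zero.mp ((map_sub π _ _).symm.trans (hπn _
      (hLC1 σ (fun x hx => hσ x (le_sup_left (b := LX) hx)) i j)))
  have hnd : ∀ {ℓ : ℕ}, ℓ.Prime → ℓ ∉ Q → ¬ (ℓ : ℤ) ∣ W.Δ → ℓ ≠ 2 ∧ ¬ ℓ ∣ classLevel W Q * 2 := by
    intro ℓ hℓ hℓQ hℓΔ
    have h2 : ℓ ≠ 2 := by
      rintro rfl
      exact hℓΔ hW.two_dvd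
    exact ⟨h2, fun h => (hℓ.dvd_mul.mp h).elim
      (fun h' => ((hW.dvd_classLevel_iff hQ hℓ).mp h').elim hℓΔ hℓQ)
      fun h' => h2 ((Nat.prime_dvd_prime_iff_eq hℓ Nat.prime_two).mp h')⟩
  have hdet : ∀ σ : Γ, ∃ k : ℤ, (RT σ).det = (k : T) ∧ (X σ).det = (k : ZMod (2 ^ n)) := by
    refine Density.forall_of_forall_frobenius (LC ⊔ LX)
      (fun σ => ∃ k : ℤ, (RT σ).det = (k : T) ∧ (X σ).det = (k : ZMod (2 ^ n)))
      ?_ ?_ ?_ {ℓ | ℓ ∣ classLevel W Q * 2}
      ((classLevel W Q * 2).divisors.finite_toSet.subset fun ℓ hℓ => Finset.mem_coe.mpr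
        (Nat.mem_divisors.mpr ⟨hℓ, mul_ne_zero (NeZero.ne _) two_ne_zero⟩)) ?_
    · rintro σ σ' h ⟨k, hk⟩
      obtain ⟨h1, h2⟩ := hlev _ (eqOn_imp_inv_mul h)
      refine ⟨k, ?_⟩
      rw [show σ = σ' * (σ'⁻¹ * σ) by rw [mul_inv_cancel_left], map_mul RT σ', map_mul X σ', h1,
        h2, mul_one, mul_one]
      exact hk
    · rintro h σ ⟨k, hk1, hk2⟩
      refine ⟨k, ?_, ?_⟩
      · rw [map_mul, map_mul, Matrix.det_mul, Matrix.det_mul, mul_right_comm, ← Matrix.det_mul,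
          ← map_mul, mul_inv_cancel, map_one, Matrix.det_one, one_mul, hk1]
      · rw [map_mul, map_mul, Matrix.det_mul, Matrix.det_mul, mul_right_comm, ← Matrix.det_mul,
          ← map_mul, mul_inv_cancel, map_one, Matrix.det_one, one_mul, hk2]
    · rintro σ j ⟨k, hk1, hk2⟩
      exact ⟨k ^ j, by rw [map_pow, Matrix.det_pow, hk1, Int.cast_pow],
        by rw [map_pow, Matrix.det_pow, hk2, Int.cast_pow]⟩
    · intro ℓ hℓ hℓM V hV τ hτ
      have hℓM' : ¬ ℓ ∣ classLevel W Q * 2 := hℓM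
      have hgood : W.IsGoodPrimeFor ℓ := fun h =>
        hℓM' (dvd_mul_of_dvd_left ((hW.dvd_classLevel_iff hQ hℓ).mpr (Or.inl h)) 2)
      have hℓ2 : ℓ ≠ 2 := fun h => hℓM' (dvd_mul_of_dvd_right (dvd_of_eq h) _)
      refine ⟨ℓ, ?_, ?_⟩
      · rw [hdetT, (((C.good ℓ hℓ hℓM' V hV).2 τ hτ)).2, map_natCast, Int.cast_natCast]
      · rw [((torsionMatrix_good W n X hX hℓ hgood hℓ2 hV).2 τ hτ).2, Int.cast_natCast]
  have hsignT : ∀ (V : ValuationSubring ℚbar) (sC : V.decompositionSubgroup ℚ →* P.ring),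
      IsSign C.R V sC → IsSign RT V ((π : P.ring →* T).comp sC) := by
    intro V sC h
    refine ⟨fun a => ?_, fun a ha => ?_, fun a b => ?_⟩
    · change π (sC a) * π (sC a) = 1
      rw [← map_mul, h.1, map_one]
    · change π (sC a) = 1
      rw [h.2.1 a ha, map_one]
    · change (RT a - ((RT a).det * π (sC a)) • 1) * (RT b - π (sC b) • 1) = 0
      rw [hdetT, ← map_mul, hRT, hRT, ← map_sub_smul_one, ← map_sub_smul_one, ← Matrix.map_mul,
        h.2.2, Matrix.map_zero _ (map_zero π)]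
  have hUsq : ∀ q : ↥Q, P.gen q (hQ q q.2).prime * P.gen q (hQ q q.2).prime = 1 := fun q =>
    Subtype.ext (funext fun i => by
      change P.coeff i q * P.coeff i q = 1
      rw [← pow_two]
      exact P.coeff_sq hW D hQ hp₀ hp₀2 hp₀Δ i (hQ q q.2).prime (Or.inl q.2))
  obtain ⟨hdB, θ₀, hθ₀⟩ := exists_trace_section hW D hQ hsel εT RT X
    hRTres hXD hdet ⟨LC ⊔ LX, inferInstance, hlev⟩
    (fun ℓ hℓ hℓQ hℓΔ V hV σ hσ => by
      obtain ⟨h2, hM⟩ := hnd hℓ hℓQ hℓΔ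
      refine ⟨?_, (torsionMatrix_good W n X hX hℓ hℓΔ h2 hV).1 σ hσ⟩
      rw [hRT, (C.good ℓ hℓ hM V hV).1 σ hσ, Matrix.map_one _ (map_zero π) (map_one π)])
    (fun p hp hpΔ V hV => by
      obtain ⟨sC, -, hC2, hCI, -, -, hCr⟩ := C.loc p hp (Or.inr hpΔ) V hV
      obtain ⟨μ, hμ, hμI, -, hμr⟩ := torsionMatrix_bad W hW n X hX hp hpΔ hV
      exact ⟨⟨_, hsignT V sC ⟨hC2, hCI, hCr⟩⟩, μ,
        fun a => (hμ a).elim (fun h => by rw [h, one_mul]) fun h => by rw [h, neg_mul_neg, one_mul],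
        hμI, hμr⟩)
    (fun q => π (P.gen q (hQ q q.2).prime))
    (fun q => by rw [← map_mul, hUsq, map_one])
    (fun q V hV => by
      obtain ⟨sC, hC1, hC2, hCI, -, -, hCr⟩ := C.loc q (hQ q q.2).prime (Or.inl q.2) V hV
      refine ⟨⟨fun a => one_mul 1, fun a _ => rfl, fun a b => ?_⟩, _,
        hsignT V sC ⟨hC2, hCI, hCr⟩, fun a => (hC1 a).imp (fun h => ?_) fun h => congrArg π h⟩
      · rw [MonoidHom.one_apply, MonoidHom.one_apply, mul_one, one_smul]
        exact auxPrime_relation hW (hQn q q.2) hX hV a b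
      · exact (congrArg π h).trans (map_one π))
    (fun S hStr hSsign hSu => by
      have hgen : ∀ ℓ : Nat.Primes, π (P.gen ℓ ℓ.2) ∈ S := by
        rintro ⟨ℓ, hℓ⟩
        obtain ⟨V, hV⟩ := Gal.exists_liesOverPrime (L := ℚbar) hℓ
        obtain ⟨F, hF⟩ := Gal.exists_isFrobeniusAt hℓ hV
        by_cases hℓΔ : (ℓ : ℤ) ∣ W.Δ
        · obtain ⟨sC, -, hC2, hCI, hCF, -, hCr⟩ := C.loc ℓ hℓ (Or.inr hℓΔ) V hV
          have h := hSsign ℓ hℓ hℓΔ V hV _ (hsignT V sC ⟨hC2, hCI, hCr⟩)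
            ⟨F, hF.mem_decompositionSubgroup⟩
          change π (sC _) ∈ S at h
          rwa [hCF _ hF] at h
        by_cases hℓQ : ℓ ∈ Q
        · exact hSu ⟨ℓ, hℓQ⟩
        · have h := hStr F
          have e : (RT F).trace = π (P.gen ℓ hℓ) := by
            rw [← ((C.good ℓ hℓ (hnd hℓ hℓQ hℓΔ).2 V hV).2 F hF).1, hRT]
            exact (AddMonoidHom.map_trace (π : P.ring →+ T) _).symm
          rwa [e] at h
      refine eq_top_iff.mpr fun y hy => ?_
      clear hy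
      obtain ⟨⟨z, hz⟩, rfl⟩ := hπ y
      induction hz using Algebra.adjoin_induction with
      | mem z hz =>
        obtain ⟨ℓ, rfl⟩ := hz
        exact hgen ℓ
      | algebraMap r =>
        have h : r - ((PadicInt.toZModPow n r).val : ℤ_[2]) ∈
            RingHom.ker (PadicInt.toZModPow (p := 2) n) := by
          rw [RingHom.mem_ker, map_sub, map_natCast, ZMod.natCast_zmod_val, sub_self]
        rw [PadicInt.ker_toZModPow, Ideal.mem_span_singleton'] at h
        obtain ⟨c, hc⟩ := h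
        have e : π (algebraMap ℤ_[2] P.ring r) = ((PadicInt.toZModPow n r).val : T) := by
          rw [← map_natCast π, ← sub_eq_zero, ← map_sub]
          refine hπn _ (Ideal.mem_span_singleton'.mpr ⟨algebraMap ℤ_[2] P.ring c, ?_⟩)
          have h' := congrArg (algebraMap ℤ_[2] P.ring) hc
          rwa [map_mul, map_pow, map_sub, map_natCast, map_natCast, Nat.cast_ofNat] at h'
        rw [show π ⟨_, _⟩ = _ from e]
        exact natCast_mem S _
      | add x y hx hy ihx ihy =>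
        rw [show (⟨x + y, add_mem hx hy⟩ : P.ring) = ⟨x, hx⟩ + ⟨y, hy⟩ from rfl, map_add]
        exact add_mem ihx ihy
      | mul x y hx hy ihx ihy =>
        rw [show (⟨x * y, mul_mem hx hy⟩ : P.ring) = ⟨x, hx⟩ * ⟨y, hy⟩ from rfl, map_mul]
        exact mul_mem ihx ihy)
    (Module.finrank ℤ_[2] P.ring) hcard
    (by
      rw [← map_ofNat π 2, ← map_pow]
      exact hπn _ (Ideal.mem_span_singleton_self _))
    hB
  refine ⟨hdB, θ₀.comp π, fun ℓ hℓ hgoodℓ hℓQ hℓ2 => ?_⟩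
  obtain ⟨V, hV⟩ := Gal.exists_liesOverPrime (L := ℚbar) hℓ
  obtain ⟨F, hF⟩ := Gal.exists_isFrobeniusAt hℓ hV
  have h1 : π (P.gen ℓ hℓ) = (RT F).trace := by
    rw [← ((C.good ℓ hℓ (hnd hℓ hℓQ hgoodℓ).2 V hV).2 F hF).1, hRT]
    exact AddMonoidHom.map_trace (π : P.ring →+ T) _
  change θ₀ (π (P.gen ℓ hℓ)) = _
  rw [h1, hθ₀]
  exact ((torsionMatrix_good W n X hX hℓ hgoodℓ hℓ2 hV).2 F hF).1

/-- The Hecke ring of the members maps to the coefficient ring. -/
theorem ClassPlace.exists_ringMap {W : WeierstrassCurve ℤ} {Q : Finset ℕ} {p₀ : ℕ}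
    [NeZero (classLevel W Q)] (P : ClassPlace W Q p₀) :
    ∃ Φ : (memberFamily W Q p₀).ring →+* P.ring,
      ∀ (ℓ : ℕ) (hℓ : ℓ.Prime), Φ ((memberFamily W Q p₀).coeff ℓ hℓ) = P.gen ℓ hℓ := by
  have hR : ∀ y ∈ (memberFamily W Q p₀).ring, ∀ i, y i ∈ P.R := by
    intro y hy i
    induction hy using Subring.closure_induction with
    | mem y hy =>
      obtain ⟨ℓ, rfl⟩ := hy
      change (memberFamily W Q p₀).a i ℓ ∈ P.R
      rw [memberFamily_a]
      exact P.mem i ℓ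
    | zero => exact zero_mem _
    | one => exact one_mem _
    | add x y _ _ hx hy => exact add_mem hx hy
    | neg x _ hx => exact neg_mem hx
    | mul x y _ _ hx hy => exact mul_mem hx hy
  let Φ₀ : (memberFamily W Q p₀).ring →+* (↥(memberSet W Q p₀) → P.O) := RingHom.pi fun i =>
    P.ι.comp (((Pi.evalRingHom _ i).comp (memberFamily W Q p₀).ring.subtype).codRestrict P.R
      fun y => hR y.1 y.2 i)
  have hΦ : ∀ (ℓ : ℕ) (hℓ : ℓ.Prime), Φ₀ ((memberFamily W Q p₀).coeff ℓ hℓ) = P.gen ℓ hℓ :=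
    fun ℓ hℓ => funext fun i => congrArg P.ι (Subtype.ext (memberFamily_a i ℓ))
  have hΦmem : ∀ y, Φ₀ y ∈ P.ring := by
    rintro ⟨y, hy⟩
    induction hy using Subring.closure_induction with
    | mem y hy =>
      obtain ⟨ℓ, rfl⟩ := hy
      rw [show Φ₀ ⟨_, _⟩ = _ from hΦ ℓ ℓ.2]
      exact (P.gen ℓ ℓ.2).2
    | zero =>
      rw [show (⟨0, zero_mem _⟩ : (memberFamily W Q p₀).ring) = 0 from rfl, map_zero];
      exact zero_mem _
    | one =>
      rw [show (⟨1, one_mem _⟩ : (memberFamily W Q p₀).ring) = 1 from rfl, map_one];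
      exact one_mem _
    | add x y hx hy ihx ihy =>
      rw [show (⟨x + y, add_mem hx hy⟩ : (memberFamily W Q p₀).ring) = ⟨x, hx⟩ + ⟨y, hy⟩ from rfl,
        map_add]
      exact add_mem ihx ihy
    | neg x hx ihx =>
      rw [show (⟨-x, neg_mem hx⟩ : (memberFamily W Q p₀).ring) = -⟨x, hx⟩ from rfl, map_neg]
      exact neg_mem ihx
    | mul x y hx hy ihx ihy =>
      rw [show (⟨x * y, mul_mem hx hy⟩ : (memberFamily W Q p₀).ring) = ⟨x, hx⟩ * ⟨y, hy⟩ from rfl,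
        map_mul]
      exact mul_mem ihx ihy
  let Φ : (memberFamily W Q p₀).ring →+* P.ring := Φ₀.codRestrict P.ring hΦmem
  exact ⟨Φ, fun ℓ hℓ => Subtype.ext (hΦ ℓ hℓ)⟩

/-- **`A = T/2ⁿ`**: `E[2ⁿ]` is carried by the Hecke ring of the members of the residual class. -/
theorem GenusCurve.exists_trace_hom {W : WeierstrassCurve ℤ} (hW : GenusCurve W)
    (D : ResidualMatrix W) {n : ℕ} (hn : 3 ≤ n) {Q : Finset ℕ} (hQn : ∀ q ∈ Q, AuxPrime W n q)
    (hsel : ∀ f : discGroup W → F4, SelmerCocycle D.discChar Q f →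
      ∃ a : F4, ∀ h, f h = (D.discChar.χ h ^ 2 - 1) * a)
    [NeZero (classLevel W Q)] :
    ∃ p₀ : ℕ, p₀.Prime ∧ p₀ ≠ 2 ∧ (p₀ : ℤ) ∣ W.Δ ∧
      (memberSet W Q p₀).card ≤ classTwoPart W * 2 ^ Q.card ∧
      ∃ θ : (memberFamily W Q p₀).ring →+* ZMod (2 ^ n),
        ∀ (ℓ : ℕ) (hℓ : ℓ.Prime), W.IsGoodPrimeFor ℓ → ℓ ∉ Q → ℓ ≠ 2 →
          θ ((memberFamily W Q p₀).coeff ℓ hℓ) = (W.apOfModel ℓ : ZMod (2 ^ n)) := by
  classical
  have : NeZero n := ⟨by omega⟩
  have hQ : ∀ q ∈ Q, AuxPrime W 3 q := fun q hq => (hQn q hq).mono hn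
  obtain ⟨p₀, hp₀, hp₀2, hp₀Δ, hexc⟩ := hW.exists_exceptional hQ
  obtain ⟨P⟩ := nonempty_classPlace W Q p₀
  have hB : classTwoPart W * 2 ^ Q.card ≤ Module.finrank ℤ_[2] P.ring := hexc P
  have hne : (memberSet W Q p₀).Nonempty := by
    by_contra h
    have : Subsingleton P.ring := ⟨fun x y => sub_eq_zero.mp
      (P.eq_zero_of_point fun g => absurd ⟨g.1, g.2⟩ h)⟩
    have : 0 < classTwoPart W * 2 ^ Q.card := by unfold classTwoPart; positivity
    rw [Module.finrank_zero_of_subsingleton] at hB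
    omega
  have : IsLocalRing P.ring := P.isLocalRing hW D hQ hp₀ hp₀2 hp₀Δ hne
  obtain ⟨C⟩ := P.nonempty_classRep hW D hQ hp₀ hp₀2 hp₀Δ
  obtain ⟨X, hX, hXD⟩ := exists_torsionMatrix_lift W hW.neg.ne D.M D.torsion n (by omega)
  obtain ⟨T, _, _, _, π, εT, hπ, hπn, hεT, hcard⟩ :=
    exists_residue_quotient C.ε (n := n) (by omega)
  obtain ⟨hdB, θ, hθ⟩ :=
    C.exists_hom hW hp₀ hp₀2 hp₀Δ hQn hQ hsel hB hX hXD π εT hπ hπn hεT hcard
  obtain ⟨Φ, hΦ⟩ := P.exists_ringMap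
  exact ⟨p₀, hp₀, hp₀2, hp₀Δ, P.card_le_finrank.trans hdB, θ.comp Φ, fun ℓ hℓ h1 h2 h3 => by
    rw [RingHom.comp_apply, hΦ, hθ ℓ hℓ h1 h2 h3]⟩

end Fermat.Agent.Root
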