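import Fermat.Agent.Root.Defs
import Fermat.Agent.Deformation.MatrixRep
import Fermat.Agent.Root.TateLift.Good
import Fermat.Agent.Root.TateLift.Line
import Fermat.Agent.Root.TwoPower.Line
import Fermat.Agent.Root.TwoPower.NodeFrob

/-!
# The representation on `E[2ⁿ]` of a genus curve

What the genus-theory `R = T` uses about `E[2ⁿ]`: Frobenius polynomials at good primes, the rank
one local condition at every bad prime (`2` included), and finite level.
-/

set_option autoImplicit false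

noncomputable section

open WeierstrassCurve WeierstrassCurve.Affine.Point
open scoped WeierstrassCurve.Affine

namespace Fermat.Agent.Root

open Fermat.Agent.Deformation TwoPower TateLift Fermat.Agent.Multiplicative

local notation "ℚbar" => AlgebraicClosure ℚ
local notation "Γ" => AlgebraicClosure ℚ ≃ₐ[ℚ] AlgebraicClosure ℚ

/-- The matrices of the action on `E[n]` in some basis. -/
def IsTorsionMatrix (W : WeierstrassCurve ℤ) (n : ℕ) (X : GQ →* M2 (ZMod n)) : Prop :=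
  ∃ b : Module.Basis (Fin 2) (ZMod n)
      (Submodule.torsionBy ℤ ((W.map (Int.castRingHom ℚ))⁄ℚbar).Point n),
    ∀ σ : Γ, LinearMap.toMatrix b b
      (galoisRepModuleEnd (K := ℚbar) ℚ (W.map (Int.castRingHom ℚ)).toAffine n σ) = X σ

/-- A basis of `E[2]` lifts to a basis of `E[2ⁿ]`. -/
theorem exists_torsionMatrix_lift (W : WeierstrassCurve ℤ) (hΔ : W.Δ ≠ 0)
    (M0 : GQ →* M2 (ZMod 2)) (hM0 : IsTorsionMatrix W 2 M0) (n : ℕ) (hn : 1 ≤ n) :
    ∃ X : GQ →* M2 (ZMod (2 ^ n)), IsTorsionMatrix W (2 ^ n) X ∧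
      ∀ σ, (X σ).map (ZMod.castHom (dvd_pow_self 2 (by omega : n ≠ 0)) (ZMod 2)) = M0 σ := by
  classical
  obtain ⟨b, hb⟩ := hM0
  obtain ⟨c, hc⟩ := exists_lift (p := 2) hΔ (m := 1) le_rfl hn b
  exact ⟨(LinearMap.toMatrixAlgEquiv c).toMulEquiv.toMonoidHom.comp
    (galoisRepModuleEnd (K := ℚbar) ℚ (W.map (Int.castRingHom ℚ)).toAffine (2 ^ n)),
    ⟨c, fun σ => rfl⟩, fun σ => (hc σ).trans (hb σ)⟩

/-- Frobenius at a good odd prime on `E[2ⁿ]`. -/
theorem torsionMatrix_good (W : WeierstrassCurve ℤ) (n : ℕ) (X : GQ →* M2 (ZMod (2 ^ n)))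
    (hX : IsTorsionMatrix W (2 ^ n) X) {ℓ : ℕ} (hℓ : ℓ.Prime) (hgood : W.IsGoodPrimeFor ℓ)
    (hℓ2 : ℓ ≠ 2) {A : ValuationSubring ℚbar} (hA : A.LiesOverPrime ℓ) :
    (∀ σ ∈ A.inertiaSubgroupIn ℚ, X σ = 1) ∧
      ∀ σ : Γ, A.IsFrobeniusAt σ ℓ →
        (X σ).trace = (W.apOfModel ℓ : ZMod (2 ^ n)) ∧ (X σ).det = (ℓ : ZMod (2 ^ n)) := by
  obtain ⟨b, hb⟩ := hX
  refine ⟨fun σ hσ => ?_, fun σ hσ => ?_⟩
  · rw [← hb σ]
    have hℓn : ¬ ℓ ∣ 2 ^ n := fun hd =>
      hℓ2 ((Nat.prime_dvd_prime_iff_eq hℓ Nat.prime_two).mp (hℓ.dvd_of_dvd_pow hd))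
    have h1 : galoisRepModuleEnd (K := ℚbar) ℚ (W.map (Int.castRingHom ℚ)).toAffine (2 ^ n) σ = 1 :=
      LinearMap.ext fun x => EC.Reduction.galoisRepUnramifiedAt_intModel hℓ hgood hℓn A hA σ hσ x
    rw [h1, LinearMap.toMatrix_one]
  · rw [← hb σ]
    rcases Nat.eq_zero_or_pos n with rfl | hn
    · have : Subsingleton (ZMod (2 ^ 0)) := by rw [pow_zero]; infer_instance
      exact ⟨Subsingleton.elim _ _, Subsingleton.elim _ _⟩
    · exact trace_det_frobEnd hℓ hgood hℓ2 hA hσ hn b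

/-- At a bad prime there is an unramified quadratic character `μ` on the decomposition group with
`(X g - det (X g) μ g) (X h - μ h) = 0`. -/
theorem torsionMatrix_bad (W : WeierstrassCurve ℤ) (hW : GenusCurve W) (n : ℕ)
    (X : GQ →* M2 (ZMod (2 ^ n))) (hX : IsTorsionMatrix W (2 ^ n) X) {p : ℕ} (hp : p.Prime)
    (hpΔ : (p : ℤ) ∣ W.Δ) {A : ValuationSubring ℚbar} (hA : A.LiesOverPrime p) :
    ∃ μ : A.decompositionSubgroup ℚ →* ZMod (2 ^ n),
      (∀ g, μ g = 1 ∨ μ g = -1) ∧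
      (∀ g : A.decompositionSubgroup ℚ, (g : Γ) ∈ A.inertiaSubgroupIn ℚ → μ g = 1) ∧
      (∃ L : IntermediateField ℚ ℚbar, FiniteDimensional ℚ L ∧
        ∀ g : A.decompositionSubgroup ℚ, (∀ x ∈ L, (g : Γ) x = x) → μ g = 1) ∧
      ∀ g h : A.decompositionSubgroup ℚ,
        (X g - ((X g).det * μ g) • (1 : M2 (ZMod (2 ^ n)))) *
          (X h - μ h • (1 : M2 (ZMod (2 ^ n)))) = 0 := by
  classical
  rcases Nat.eq_zero_or_pos n with rfl | hn
  · have : Subsingleton (ZMod (2 ^ 0)) := by rw [pow_zero]; infer_instance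
    refine ⟨1, fun g => Or.inl rfl, fun g _ => rfl, ⟨⊥, inferInstance, fun g _ => rfl⟩,
      fun g h => Subsingleton.elim _ _⟩
  obtain ⟨b, hb⟩ := hX
  have h : MultAt W A p := ⟨hp, hA, hpΔ, hW.ss p hp hpΔ, hW.semistable.ne⟩
  set u := h.node.u
  have hu : u ≠ 0 := h.node.u_ne_zero
  have hu' : u ≠ -u := fun he => hu (by linear_combination he / 2)
  -- the character
  let s : A.decompositionSubgroup ℚ → ZMod (2 ^ n) := fun g => if (g : Γ) u = u then 1 else -1
  have hs : ∀ g : A.decompositionSubgroup ℚ,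
      ((g : Γ) u = u ∧ s g = 1 ∧ ∀ P, h.node.comp ((g : Γ) • P) = h.node.comp P) ∨
      ((g : Γ) u = -u ∧ s g = -1 ∧ ∀ P, h.node.comp ((g : Γ) • P) = -h.node.comp P) := fun g => by
    rcases comp_smul_decomposition h g.2 with ⟨e, hP⟩ | ⟨e, hP⟩
    · exact Or.inl ⟨e, if_pos e, hP⟩
    · exact Or.inr ⟨e, if_neg (fun e' => hu' (e'.symm.trans e)), hP⟩
  have hmul : ∀ g g' : A.decompositionSubgroup ℚ, s (g * g') = s g * s g' := fun g g' => by
    rcases hs g with ⟨e, h1, -⟩ | ⟨e, h1, -⟩ <;> rcases hs g' with ⟨e', h2, -⟩ | ⟨e', h2, -⟩ <;>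
      rw [h1, h2] <;>
      simp only [s, Subgroup.coe_mul, AlgEquiv.mul_apply, e', map_neg, e, neg_neg,
        if_neg hu'.symm, if_true, mul_neg, mul_one]
  let μ : A.decompositionSubgroup ℚ →* ZMod (2 ^ n) :=
    { toFun := s
      map_one' := if_pos rfl
      map_mul' := hmul }
  refine ⟨μ, fun g => (hs g).imp (fun e => e.2.1) fun e => e.2.1,
    fun g hg => if_pos (h.node_fixed hg).2.2.2.1, ⟨IntermediateField.adjoin ℚ {u},
    IntermediateField.adjoin.finiteDimensional (Algebra.IsAlgebraic.isAlgebraic u).isIntegral,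
    fun g hg => if_pos (hg u (IntermediateField.mem_adjoin_simple_self ℚ u))⟩, fun g g' => ?_⟩
  -- the adapted basis
  have hΔ := hW.semistable.ne
  obtain ⟨P, hPn, hP1, hPE, hline⟩ :=
    exists_line_generator (p := 2) h (exists_two_torsion_notMem h) n hn
  obtain ⟨f, hf, hfE⟩ := exists_two_torsion_notMem h
  obtain ⟨Q, hQ, hQn⟩ := exists_pow_nsmul_eq (p := 2) (j := 1) hΔ (n - 1) (x := f)
    (by simpa using hf)
  rw [Nat.add_sub_cancel' hn] at hQn
  have heE : 2 ^ (n - 1) • P ∈ h.node.E0 := h.node.E0.nsmul_mem hPE _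
  have he2 : 2 ^ 1 • (2 ^ (n - 1) • P) = 0 := by
    rw [← mul_nsmul', ← pow_add, Nat.add_sub_cancel' hn, hPn]
  let PQ : Fin 2 → TE W (2 ^ n) := ![⟨P, mem_TE.2 hPn⟩, ⟨Q, mem_TE.2 hQn⟩]
  obtain ⟨b₂, hb₂⟩ := exists_basis_of_independent (N := 2 ^ 1) hΔ
    ![⟨2 ^ (n - 1) • P, mem_TE.2 he2⟩, ⟨f, mem_TE.2 (by simpa using hf)⟩] fun z hz => by
      have hz' : (z 0).val • (2 ^ (n - 1) • P) + (z 1).val • f = 0 := by
        have := congrArg Subtype.val hz
        simpa [coe_zmod_smul] using this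
      have h2 : ∀ x : ZMod (2 ^ 1), x = 0 ∨ x.val = 1 := by decide
      rcases h2 (z 1) with h1 | h1
      · rcases h2 (z 0) with h0 | h0
        · funext i; fin_cases i <;> assumption
        · exact absurd (by simpa [h0, h1] using hz') hP1
      · refine absurd ?_ hfE
        rw [h1, one_nsmul] at hz'
        rw [eq_neg_of_add_eq_zero_right hz']
        exact h.node.E0.neg_mem (h.node.E0.nsmul_mem heE _)
  obtain ⟨c, hc⟩ := exists_basis_of_lift hΔ le_rfl hn b₂ PQ fun i => by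
    rw [hb₂]
    fin_cases i
    · rfl
    · exact hQ
  set F : Γ → Module.End (ZMod (2 ^ n)) (TE W (2 ^ n)) := fun σ => frobEnd W (2 ^ n) σ
  have hspan : ∀ R : TE W (2 ^ n), (R : EP W) ∈ h.node.E0 →
      ∃ z : ZMod (2 ^ n), R = z • c 0 := fun R hR => by
    obtain ⟨z, hz⟩ := AddSubgroup.mem_zmultiples_iff.1 (hline R (nsmul_coe R) hR)
    refine ⟨(z : ZMod (2 ^ n)), Subtype.ext ?_⟩
    rw [Int.cast_smul_eq_zsmul, hc 0]
    exact hz.symm
  have hquot : ∀ (γ : A.decompositionSubgroup ℚ) (R : TE W (2 ^ n)),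
      ∃ z : ZMod (2 ^ n), F γ R - μ γ • R = z • c 0 := fun γ R => hspan _ (by
    rw [NodeData.E0, AddMonoidHom.mem_ker]
    rcases hs γ with ⟨-, h1, hP⟩ | ⟨-, h1, hP⟩
    · rw [show μ γ = 1 from h1, one_smul, Submodule.coe_sub, map_sub, coe_frobEnd, hP, sub_self]
    · rw [show μ γ = -1 from h1, neg_one_smul, sub_neg_eq_add, Submodule.coe_add, map_add,
        coe_frobEnd, hP, neg_add_cancel])
  obtain ⟨w, hw⟩ : ∃ z : ZMod (2 ^ n), F g (c 0) = z • c 0 := by
    obtain ⟨z, hz⟩ := hquot g (c 0)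
    exact ⟨z + μ g, by rw [add_smul, ← hz, sub_add_cancel]⟩
  obtain ⟨x, hx⟩ := hquot g (c 1)
  have hμ : μ g * μ g = 1 := by
    rcases hs g with ⟨-, e, -⟩ | ⟨-, e, -⟩ <;> simp [show μ g = _ from e]
  have hdet : LinearMap.det (F g) * μ g = w := by
    have hx' : F g (c 1) = x • c 0 + μ g • c 1 := by rw [← hx, sub_add_cancel]
    rw [← LinearMap.det_toMatrix c, Matrix.det_fin_two]
    simp only [LinearMap.toMatrix_apply, hw, hx', map_add, map_smul, Finsupp.add_apply,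
      Finsupp.smul_apply, Module.Basis.repr_self, smul_eq_mul]
    simp [mul_assoc, hμ]
  have hzero : (F g - (LinearMap.det (F g) * μ g) • 1) * (F g' - μ g' • 1) = 0 := by
    refine LinearMap.ext fun R => ?_
    obtain ⟨z, hz⟩ := hquot g' R
    simp only [Module.End.mul_apply, LinearMap.sub_apply, LinearMap.smul_apply,
      Module.End.one_apply, LinearMap.zero_apply, hz, map_smul, hw, hdet]
    rw [sub_self, smul_zero]
  have := congrArg (LinearMap.toMatrix b b) hzero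
  rw [LinearMap.toMatrix_mul, map_sub, map_sub, map_smul, map_smul, LinearMap.toMatrix_one,
    _root_.map_zero, ← LinearMap.det_toMatrix b, hb, hb] at this
  exact this

end Fermat.Agent.Root
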