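import Fermat.Agent.Root.Defs
import Fermat.Agent.RootIrred.Five
import Fermat.Agent.RootIrred.Main
import Fermat.Agent.RootIrred.Three

/-!
# Irreducibility and big image inputs

Irreducibility of the `5`-torsion of Frey curves and irreducibility of the adjoint of a semistable
irreducible `E[p]` for odd `p`.
-/

set_option autoImplicit false

namespace Fermat.Agent.Root

/-- `E[5]` is irreducible for every Frey curve (any exponent): `X₀(20)`. -/
theorem frey_irreducible_five (P : FreyPackage) : P.freyCurveInt.ModRepIsIrreducible 5 :=
  RootIrred.frey_irreducible_five P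

/-- For `p ≥ 5` a semistable irreducible representation has irreducible adjoint over `ℚ(μ_p)`. -/
theorem adjointIrreducible_of_five_le (W : WeierstrassCurve ℤ) (hW : Semistable W) (p : ℕ)
    (hp : p.Prime) (hp5 : 5 ≤ p) (hirr : W.ModRepIsIrreducible p) : AdjointIrreducible p W := by
  have := Fact.mk hp
  by_cases hno : RootIrred.NoTransvection (p := p) hW.ne
  · exact RootIrred.adjointIrreducible_of_noTransvection hW.ne hW.ss hirr hp5 hno
  · obtain ⟨g, hg⟩ := not_forall.1 hno
    obtain ⟨hsq, hne⟩ := Classical.not_imp.1 hg
    exact RootIrred.adjointIrreducible_of_transvection hW.ne hirr (by omega) hsq hne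

/-- At `p = 3` a transvection at `2` makes the image everything. -/
theorem adjointIrreducible_three (W : WeierstrassCurve ℤ) (hW : Semistable W)
    (h2 : (2 : ℤ) ∣ W.Δ) (hv : ¬ 3 ∣ padicValInt 2 W.Δ) (hirr : W.ModRepIsIrreducible 3) :
    AdjointIrreducible 3 W := by
  have := Fact.mk Nat.prime_three
  obtain ⟨g, hsq, hne⟩ := RootIrred.exists_transvection_of_not_dvd (p := 3) hW.ne hW.ss
    Nat.prime_two (by norm_num) (by exact_mod_cast h2) hv
  exact RootIrred.adjointIrreducible_of_transvection hW.ne hirr (by norm_num) hsq hne

/-- At every odd prime a semistable irreducible representation has irreducible adjoint. -/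
theorem adjointIrreducible_of_irreducible (W : WeierstrassCurve ℤ) (hW : Semistable W) (p : ℕ)
    (hp : p.Prime) (hp2 : p ≠ 2) (hirr : W.ModRepIsIrreducible p) : AdjointIrreducible p W := by
  by_cases h3 : p = 3
  · subst h3
    have := Fact.mk Nat.prime_three
    exact RootIrred.adjointIrreducible_three_of_irreducible hW.ne hW.ss hirr
  · exact adjointIrreducible_of_five_le W hW p hp
      (by have := hp.two_le; by_contra h5; interval_cases p <;> first | omega | norm_num at hp) hirr

end Fermat.Agent.Root
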