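import Fermat.Agent.Root.Defs
import Fermat.Agent.Switch.Family
import Fermat.Agent.Switch.Congruence
import Fermat.Agent.Switch.ModThree

/-!
# The switch at 5 of any semistable curve

A semistable curve congruent modulo `5` with irreducible `3`-torsion and the same type at `5`
(`exists_switch_five_any`).
-/

set_option autoImplicit false

namespace Fermat.Agent.Root

open Fermat.Agent.Switch

local notation "ℚbar" => AlgebraicClosure ℚ

/-- A congruent semistable curve mod 5 with irreducible mod 3 representation and the same type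
at 5. -/
theorem exists_switch_five_any (W : WeierstrassCurve ℤ) (hW : Semistable W)
    (_h5 : W.ModRepIsIrreducible 5) :
    ∃ W' : WeierstrassCurve ℤ, Semistable W' ∧ W'.ModRepIsIrreducible 3 ∧ CongrMod 5 W W' ∧
      ((5 : ℤ) ∣ W.Δ ↔ (5 : ℤ) ∣ W'.Δ) := by
  obtain ⟨t, c, h, v, κ, M, W', hv, hκ, hM, ⟨CP, hCP, hCP'⟩, ⟨TP, hTP, hTP'⟩, hfam⟩ :=
    exists_family W hW.ne hW.ss
  have hab : (W.c₄ : ℚbar) ^ 3 ≠ (W.c₆ : ℚbar) ^ 2 := by
    intro he
    apply hW.ne
    have h0 : (1728 : ℤ) * W.Δ = 0 := by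
      rw [W.c_relation, sub_eq_zero]; exact_mod_cast he
    simpa using h0
  have hdet : v.1 * ((M : ℚbar) • (covP v + (κ : ℚbar) • v)).2
      - v.2 * ((M : ℚbar) • (covP v + (κ : ℚbar) • v)).1 ≠ 0 := by
    have h1 := det_pencil v (κ : ℚbar)
    have h2 := hv.dP_ne_zero hab
    simp only [Prod.smul_fst, Prod.smul_snd, smul_eq_mul]
    intro h0
    apply mul_ne_zero (Int.cast_ne_zero.2 hM) (mul_ne_zero (by norm_num : (12 : ℚbar) ≠ 0) h2)
    linear_combination h0 - (M : ℚbar) * h1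
  have hd : dP ((M : ℚbar) • (covP v + (κ : ℚbar) • v)) ≠ 0 := by
    simp only [dP, Prod.smul_fst, Prod.smul_snd, smul_eq_mul, dF_smul]
    exact mul_ne_zero (pow_ne_zero _ (Int.cast_ne_zero.2 hM)) hκ
  obtain ⟨s, hs, hirr⟩ := exists_irreducible_three hdet hd hCP hTP W' hCP' hTP'
  refine ⟨W' s, ⟨hs, (hfam s).1⟩, hirr, fun ℓ hℓ hg hg' h5' => by
    exact_mod_cast dvd_apOfModel_sub hW.ne hs h hv (hfam s).2.1 (hfam s).2.2.1 hℓ hg hg' h5', ?_⟩
  rw [← dvd_iff_dvd_of_dvd_sub (hfam s).2.2.2]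

end Fermat.Agent.Root
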