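import Fermat.Agent.EC.Fifteen.Main
import Fermat.Agent.Root.Irreducible
import Fermat.Agent.Root.Lifting
import Fermat.Agent.Root.ResidualThree
import Fermat.Agent.Root.SwitchFiveAny
import Fermat.Agent.Root.Wrappers.Semistable

/-!
# Every semistable curve is modular

An irreducible `W[3]` lifts from a modular curve of the same type at 3; otherwise `W[5]` is
irreducible and lifts from a switched curve with irreducible 3-torsion.
-/

set_option autoImplicit false

noncomputable section

namespace Fermat.Agent.Root

/-- Semistable curves with irreducible 3-torsion are modular at their conductor level. -/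
theorem semistable_modular_three (W : WeierstrassCurve ℤ) (hW : Semistable W)
    (h3 : W.ModRepIsIrreducible 3) : W.IsModularModelOfLevel W.conductorLevel := by
  obtain ⟨W', hW', hC, ht, hmod⟩ := exists_modular_congr3 W hW.ne hW.ss h3
  exact lifting W W' hW hW' 3 Nat.prime_three (by norm_num) h3
    (adjointIrreducible_of_irreducible W hW 3 Nat.prime_three (by norm_num) h3)
    (fun ℓ hℓ hg hg' hne => hC.dvd_apOfModel_sub hℓ hg hg' hne) (by exact_mod_cast ht) hmod

/-- **Every semistable curve is modular at its conductor level.** -/
theorem semistable_modular : SemistableModular := by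
  intro W hW
  rcases EC.Fifteen.irreducible_three_or_five W hW.ne hW.ss with h3 | h5
  · exact semistable_modular_three W hW h3
  obtain ⟨W', hW', h3', hc, ht⟩ := exists_switch_five_any W hW h5
  exact lifting W W' hW hW' 5 (by norm_num) (by norm_num) h5
    (adjointIrreducible_of_five_le W hW 5 (by norm_num) le_rfl h5) hc (by exact_mod_cast ht)
    (semistable_modular_three W' hW' h3')

end Fermat.Agent.Root
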